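import Fermat.Agent.FlatLocal.Groups
import Fermat.Agent.Mazur.Rational

/-!
# A tame uniformiser `π ^ e = -p` and the inertia elements fixing it
-/

set_option autoImplicit false
set_option linter.style.haveILetI false
set_option linter.unusedSectionVars false

noncomputable section

open scoped Pointwise
open IsLocalRing

namespace FLTAgent.FlatLocal

local notation "QQb" => AlgebraicClosure ℚ
local notation "GG" => (AlgebraicClosure ℚ ≃ₐ[ℚ] AlgebraicClosure ℚ)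

variable {P : ValuationSubring (AlgebraicClosure ℚ)}

/-- A root of unity of order prime to `p` is fixed by inertia. -/
theorem IsIne.fix_root {p : ℕ} [Fact p.Prime] (hP : P.LiesOverPrime p) {σ : Dec P}
    (hσ : IsIne P σ) {m : ℕ} (hm : ¬ p ∣ m) {μ : QQb} (hμ : μ ^ m = 1) : (σ : GG) μ = μ :=
  Carayol.mem_K0.1 (Carayol.mem_K0_of_pow_eq_one hP hm hμ) σ hσ

theorem val_root {m : ℕ} (hm : m ≠ 0) {μ : QQb} (hμ : μ ^ m = 1) : P.valuation μ = 1 :=
  Mazur.valuation_root_of_unity P hm hμ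

/-- Roots of unity of order prime to `p` inject into residues. -/
theorem root_eq_one_of_res {p : ℕ} [Fact p.Prime] (hP : P.LiesOverPrime p) {m : ℕ} (hm : ¬ p ∣ m)
    {μ : QQb} (hμ : μ ^ m = 1) (h : res P μ = 1) : μ = 1 := by
  haveI := FrobTrace.charP_residueField hP
  have hm0 : m ≠ 0 := fun e => hm (e ▸ dvd_zero p)
  by_contra hne
  have hμP : μ ∈ P := mem_of_val_le_one (val_root hm0 hμ).le
  have hsum : ∑ i ∈ Finset.range m, μ ^ i = 0 := by
    have := geom_sum_mul μ m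
    rw [hμ, sub_self, mul_eq_zero] at this
    exact this.resolve_right (sub_ne_zero.2 hne)
  have h0 : res P (∑ i ∈ Finset.range m, μ ^ i) = 0 := by rw [hsum, res_zero]
  rw [res_sum _ _ fun i _ => pow_mem hμP i,
    Finset.sum_congr rfl fun i _ => show res P (μ ^ i) = 1 by rw [res_pow hμP, h, one_pow]] at h0
  simp only [Finset.sum_const, Finset.card_range, nsmul_eq_mul, mul_one] at h0
  exact hm ((CharP.cast_eq_zero_iff _ p m).1 h0)

theorem res_ratio_pow {x : QQb} {m : ℕ} (hx : x ≠ 0) (σ : Dec P)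
    (hfix : (σ : GG) (x ^ m) = x ^ m) : ((σ : GG) x / x) ^ m = 1 := by
  rw [div_pow, ← map_pow, hfix, div_self (pow_ne_zero _ hx)]

/-- A tame uniformiser. -/
structure TameData (P : ValuationSubring (AlgebraicClosure ℚ)) (p : ℕ) where
  /-- the ramification index -/
  e : ℕ
  /-- the uniformiser -/
  π : AlgebraicClosure ℚ
  e_pos : 0 < e
  dvd_e : (p - 1) ∣ e
  not_dvd : ¬ p ∣ e
  π_pow : π ^ e = -(p : AlgebraicClosure ℚ)

namespace TameData

variable {p : ℕ} [hp : Fact p.Prime]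

theorem exists_data (P : ValuationSubring (AlgebraicClosure ℚ)) (e : ℕ) (he : 0 < e)
    (h1 : (p - 1) ∣ e) (h2 : ¬ p ∣ e) : ∃ t : TameData P p, t.e = e := by
  obtain ⟨π, hπ⟩ := IsAlgClosed.exists_pow_nat_eq (-(p : QQb)) he
  exact ⟨⟨e, π, he, h1, h2, hπ⟩, rfl⟩

variable (t : TameData P p)

theorem π_ne_zero : t.π ≠ 0 := by
  intro h
  have h0 := t.π_pow
  rw [h, zero_pow t.e_pos.ne', eq_comm, neg_eq_zero] at h0
  exact Nat.cast_ne_zero.mpr hp.out.ne_zero h0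

/-- The value of the uniformiser. -/
abbrev vπ : P.ValueGroup := P.valuation t.π

theorem vπ_pow : t.vπ ^ t.e = P.valuation (p : QQb) := by
  rw [← map_pow, t.π_pow, Valuation.map_neg]

theorem vπ_pos : 0 < t.vπ := Mazur.valuation_pos P t.π_ne_zero

theorem vπ_ne_zero : t.vπ ≠ 0 := t.vπ_pos.ne'

/-- The inertia elements fixing the uniformiser. -/
def G : Subgroup (Dec P) where
  carrier := {σ | IsIne P σ ∧ (σ : GG) t.π = t.π}
  one_mem' := ⟨isIne_one, rfl⟩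
  mul_mem' := fun {a b} ha hb => ⟨ha.1.mul hb.1, by
    show (a : GG) ((b : GG) t.π) = t.π
    rw [hb.2, ha.2]⟩
  inv_mem' := fun {a} ha => ⟨ha.1.inv, by
    conv_lhs => rw [← ha.2]
    exact coe_inv_apply' a t.π⟩

theorem mem_G {σ : Dec P} : σ ∈ t.G ↔ IsIne P σ ∧ (σ : GG) t.π = t.π := Iff.rfl

/-- The tame character (a cocycle on the decomposition group). -/
abbrev th (σ : Dec P) : ResidueField P := thx t.π σ

theorem ratio_pow (σ : Dec P) : ((σ : GG) t.π / t.π) ^ t.e = 1 :=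
  res_ratio_pow t.π_ne_zero σ (by rw [t.π_pow, map_neg, map_natCast])

theorem th_pow (σ : Dec P) : t.th σ ^ t.e = 1 := by
  rw [th, thx, ← res_pow (div_map_mem σ t.π_ne_zero), t.ratio_pow, res_one]

theorem th_ne_zero (σ : Dec P) : t.th σ ≠ 0 := thx_ne_zero t.π_ne_zero σ

section Prime

variable (hP : P.LiesOverPrime p)

include hP

theorem vπ_lt_one : t.vπ < 1 := by
  by_contra h
  have := one_le_pow₀ (not_lt.1 h) (n := t.e)
  rw [t.vπ_pow] at this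
  exact absurd (val_p_lt_one hP) (not_lt.2 this)

theorem zpow_inj {i j : ℤ} (h : t.vπ ^ i = t.vπ ^ j) : i = j :=
  (zpow_right_strictAnti₀ t.vπ_pos (t.vπ_lt_one hP)).injective h

theorem zpow_le {i j : ℤ} : t.vπ ^ i ≤ t.vπ ^ j ↔ j ≤ i :=
  (zpow_right_strictAnti₀ t.vπ_pos (t.vπ_lt_one hP)).le_iff_ge

theorem zpow_lt {i j : ℤ} : t.vπ ^ i < t.vπ ^ j ↔ j < i :=
  (zpow_right_strictAnti₀ t.vπ_pos (t.vπ_lt_one hP)).lt_iff_gt

theorem pow_inj {i j : ℕ} (h : t.vπ ^ i = t.vπ ^ j) : i = j := by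
  have : (i : ℤ) = j := t.zpow_inj hP (by rwa [zpow_natCast, zpow_natCast])
  omega

theorem pow_le {i j : ℕ} : t.vπ ^ i ≤ t.vπ ^ j ↔ j ≤ i :=
  pow_le_pow_iff_right_of_lt_one₀ t.vπ_pos (t.vπ_lt_one hP)

theorem pow_lt {i j : ℕ} : t.vπ ^ i < t.vπ ^ j ↔ j < i :=
  pow_lt_pow_iff_right_of_lt_one₀ t.vπ_pos (t.vπ_lt_one hP)

theorem map_π_fixed (σ : Dec P) {g : Dec P} (hg : g ∈ t.G) :
    (g : GG) ((σ : GG) t.π) = (σ : GG) t.π := by
  have e : (σ : GG) t.π = ((σ : GG) t.π / t.π) * t.π := (div_mul_cancel₀ _ t.π_ne_zero).symm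
  rw [e, map_mul, hg.2, hg.1.fix_root hP t.not_dvd (t.ratio_pow σ)]

theorem G_normal {g : Dec P} (hg : g ∈ t.G) (σ : Dec P) : σ * g * σ⁻¹ ∈ t.G := by
  refine ⟨hg.1.conj σ, ?_⟩
  show (σ : GG) ((g : GG) (((σ⁻¹ : Dec P) : GG) t.π)) = t.π
  rw [t.map_π_fixed hP σ⁻¹ hg, coe_inv_apply]

theorem G_conj_inv {g : Dec P} (hg : g ∈ t.G) (σ : Dec P) : σ⁻¹ * g * σ ∈ t.G := by
  simpa using t.G_normal hP hg σ⁻¹

theorem th_eq_one_iff {σ : Dec P} (hσ : IsIne P σ) : t.th σ = 1 ↔ σ ∈ t.G := by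
  refine ⟨fun h => ⟨hσ, (div_eq_one_iff_eq t.π_ne_zero).1
    (root_eq_one_of_res hP t.not_dvd (t.ratio_pow σ) h)⟩, fun h => ?_⟩
  rw [th, thx, h.2, div_self t.π_ne_zero, res_one]

theorem wild_mem_G {σ : Dec P} (h : IsWild P σ) : σ ∈ t.G :=
  (t.th_eq_one_iff hP h.1).1 (h.2 _ t.π_ne_zero)

/-- The orbit of the uniformiser has `e` elements, and the fixed elements of `G` have values
powers of the value of the uniformiser. -/
theorem orbit_spec :
    (∀ μ : QQb, μ ^ t.e = 1 → ∃ σ : Dec P, IsIne P σ ∧ (σ : GG) t.π = μ * t.π) ∧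
      ∀ a : QQb, a ≠ 0 → (∀ g ∈ t.G, (g : GG) a = a) → ∃ i : ℤ, P.valuation a = t.vπ ^ i := by
  classical
  haveI : NeZero t.e := ⟨t.e_pos.ne'⟩
  set T : Finset QQb := (Polynomial.nthRootsFinset t.e (1 : QQb)).filter
    fun μ => ∃ σ : Dec P, IsIne P σ ∧ (σ : GG) t.π = μ * t.π with hTdef
  have hT : ∀ μ ∈ T, ∃ σ : Dec P, IsIne P σ ∧ (σ : GG) t.π = μ * t.π :=
    fun μ hμ => (Finset.mem_filter.1 hμ).2
  choose! s hsI hs using hT
  have hmem : ∀ σ : Dec P, IsIne P σ → (σ : GG) t.π / t.π ∈ T := fun σ hσ =>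
    Finset.mem_filter.2 ⟨(Polynomial.mem_nthRootsFinset t.e_pos _).2 (t.ratio_pow σ), σ, hσ,
      (div_mul_cancel₀ _ t.π_ne_zero).symm⟩
  have hcong : ∀ {a : QQb}, (∀ g ∈ t.G, (g : GG) a = a) → ∀ {σ τ : Dec P}, IsIne P σ → IsIne P τ →
      (σ : GG) t.π = (τ : GG) t.π → (σ : GG) a = (τ : GG) a := by
    intro a ha σ τ hσ hτ e
    have hg : τ⁻¹ * σ ∈ t.G := ⟨hτ.inv.mul hσ, by
      show ((τ⁻¹ : Dec P) : GG) ((σ : GG) t.π) = t.π
      rw [e]; exact coe_inv_apply' τ t.π⟩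
    have h := congrArg (τ : GG) (ha _ hg)
    rw [← h]
    exact (coe_inv_apply τ ((σ : GG) a)).symm
  have hnorm : ∀ {a : QQb}, (∀ g ∈ t.G, (g : GG) a = a) →
      ∀ τ : GG, τ ∈ P.inertiaSubgroupIn ℚ → τ (∏ μ ∈ T, (s μ : GG) a) = ∏ μ ∈ T, (s μ : GG) a := by
    intro a ha τ hτ
    let τ' : Dec P := ⟨τ, Places.inertia_le_decomposition P hτ⟩
    have hτ' : IsIne P τ' := hτ
    have hsh : ∀ {ρ : Dec P}, IsIne P ρ → ∀ μ ∈ T,
        ((ρ * s μ : Dec P) : GG) t.π / t.π = (ρ : GG) t.π / t.π * μ := by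
      intro ρ hρ μ hμ
      show (ρ : GG) ((s μ : GG) t.π) / t.π = _
      rw [hs μ hμ, map_mul, hρ.fix_root hP t.not_dvd
        ((Polynomial.mem_nthRootsFinset t.e_pos _).1 (Finset.mem_filter.1 hμ).1)]
      ring
    have hr : (τ : GG) t.π / t.π ≠ 0 :=
      div_ne_zero ((map_ne_zero_iff _ τ.injective).mpr t.π_ne_zero) t.π_ne_zero
    rw [map_prod]
    refine Finset.prod_bij' (fun μ _ => (τ : GG) t.π / t.π * μ)
      (fun μ _ => ((τ : GG) t.π / t.π)⁻¹ * μ) ?_ ?_ ?_ ?_ ?_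
    · intro μ hμ
      have h := hmem (τ' * s μ) (hτ'.mul (hsI μ hμ))
      rwa [hsh hτ' μ hμ] at h
    · intro μ hμ
      have h := hmem (τ'⁻¹ * s μ) (hτ'.inv.mul (hsI μ hμ))
      have e : ((τ'⁻¹ : Dec P) : GG) t.π / t.π = ((τ : GG) t.π / t.π)⁻¹ := by
        refine eq_inv_of_mul_eq_one_left ?_
        have h1 := congrArg ((τ'⁻¹ : Dec P) : GG)
          (div_mul_cancel₀ ((τ : GG) t.π) t.π_ne_zero).symm
        rw [map_mul, hτ'.inv.fix_root hP t.not_dvd (t.ratio_pow τ'),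
          show ((τ'⁻¹ : Dec P) : GG) ((τ : GG) t.π) = t.π from coe_inv_apply' τ' t.π] at h1
        rw [mul_comm, mul_div_assoc', ← h1, div_self t.π_ne_zero]
      rwa [hsh hτ'.inv μ hμ, e] at h
    · intro μ _; exact inv_mul_cancel_left₀ hr μ
    · intro μ _; exact mul_inv_cancel_left₀ hr μ
    · intro μ hμ
      have h' : (τ : GG) t.π / t.π * μ ∈ T := by
        have h := hmem (τ' * s μ) (hτ'.mul (hsI μ hμ))
        rwa [hsh hτ' μ hμ] at h
      refine hcong ha (σ := τ' * s μ) (hτ'.mul (hsI μ hμ)) (hsI _ h') ?_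
      rw [hs _ h', ← hsh hτ' μ hμ, div_mul_cancel₀ _ t.π_ne_zero]
  have hval : ∀ {a : QQb}, a ≠ 0 → (∀ g ∈ t.G, (g : GG) a = a) →
      ∃ i : ℤ, P.valuation a ^ T.card = t.vπ ^ ((t.e : ℤ) * i) := by
    intro a ha0 ha
    have hne : ∏ μ ∈ T, (s μ : GG) a ≠ 0 :=
      Finset.prod_ne_zero_iff.2 fun μ _ => (map_ne_zero_iff _ (s μ : GG).injective).mpr ha0
    obtain ⟨i, hi⟩ := Mazur.exists_zpow_valuation P hp.out hP hne (hnorm ha)
    refine ⟨i, ?_⟩
    rw [zpow_mul, zpow_natCast, t.vπ_pow, ← hi, map_prod,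
      Finset.prod_congr rfl fun μ _ => val_map (s μ) a, Finset.prod_const]
  obtain ⟨j, hj⟩ := hval t.π_ne_zero fun g hg => hg.2
  have hroots : (Polynomial.nthRootsFinset t.e (1 : QQb)).card = t.e := by
    obtain ⟨ζ, hζ⟩ := HasEnoughRootsOfUnity.exists_primitiveRoot QQb t.e
    exact hζ.card_nthRootsFinset
  have hsub : T ⊆ Polynomial.nthRootsFinset t.e (1 : QQb) := Finset.filter_subset _ _
  have hcard : T.card = t.e := by
    have h1 : (T.card : ℤ) = (t.e : ℤ) * j := t.zpow_inj hP (by rw [zpow_natCast]; exact hj)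
    have hpos : 0 < T.card := Finset.card_pos.2 ⟨_, hmem 1 isIne_one⟩
    exact le_antisymm ((Finset.card_le_card hsub).trans hroots.le)
      (Nat.le_of_dvd hpos (Int.natCast_dvd_natCast.1 ⟨j, h1⟩))
  refine ⟨fun μ hμ => ?_, fun a ha0 ha => ?_⟩
  · have hT' : T = Polynomial.nthRootsFinset t.e (1 : QQb) :=
      Finset.eq_of_subset_of_card_le hsub (by rw [hcard, hroots])
    have : μ ∈ T := hT' ▸ (Polynomial.mem_nthRootsFinset t.e_pos _).2 hμ
    exact ⟨s μ, hsI μ this, hs μ this⟩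
  · obtain ⟨i, hi⟩ := hval ha0 ha
    refine ⟨i, (pow_left_inj₀ zero_le zero_le t.e_pos.ne').1 ?_⟩
    rw [hcard] at hi
    rw [hi, ← zpow_natCast, ← zpow_mul, mul_comm]

theorem exists_zpow {a : QQb} (ha : a ≠ 0) (hfix : ∀ g ∈ t.G, (g : GG) a = a) :
    ∃ i : ℤ, P.valuation a = t.vπ ^ i := (t.orbit_spec hP).2 a ha hfix

theorem exists_pow {a : QQb} (ha : a ≠ 0) (haP : a ∈ P) (hfix : ∀ g ∈ t.G, (g : GG) a = a) :
    ∃ i : ℕ, P.valuation a = t.vπ ^ i := by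
  obtain ⟨i, hi⟩ := t.exists_zpow hP ha hfix
  have h : 0 ≤ i := (t.zpow_le hP).1 (by rw [zpow_zero, ← hi]; exact val_le_one_of_mem haP)
  obtain ⟨n, rfl⟩ := Int.eq_ofNat_of_zero_le h
  exact ⟨n, by rw [hi, zpow_natCast]⟩

theorem le_of_lt_one {a : QQb} (hfix : ∀ g ∈ t.G, (g : GG) a = a) {i : ℕ}
    (h : P.valuation a < t.vπ ^ i) : P.valuation a ≤ t.vπ ^ (i + 1) := by
  rcases eq_or_ne a 0 with rfl | ha
  · simp
  obtain ⟨j, hj⟩ := t.exists_zpow hP ha hfix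
  rw [hj, ← zpow_natCast] at h
  rw [hj, ← zpow_natCast, t.zpow_le hP]
  have h2 := (t.zpow_lt hP).1 h
  omega

/-- An inertia element with primitive tame character. -/
theorem exists_tau : ∃ τ : Dec P, IsIne P τ ∧ IsPrimitiveRoot (t.th τ) t.e := by
  haveI : NeZero t.e := ⟨t.e_pos.ne'⟩
  obtain ⟨μ, hμ⟩ := HasEnoughRootsOfUnity.exists_primitiveRoot QQb t.e
  obtain ⟨τ, hτ, hτμ⟩ := (t.orbit_spec hP).1 μ hμ.pow_eq_one
  have hμP : μ ∈ P := mem_of_val_le_one (val_root t.e_pos.ne' hμ.pow_eq_one).le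
  refine ⟨τ, hτ, IsPrimitiveRoot.mk_of_lt _ t.e_pos (t.th_pow τ) fun l hl hle h => ?_⟩
  rw [th, thx, hτμ, mul_div_cancel_right₀ _ t.π_ne_zero, ← res_pow hμP] at h
  have h1 := root_eq_one_of_res hP t.not_dvd
    (by rw [← pow_mul, mul_comm, pow_mul, hμ.pow_eq_one, one_pow]) h
  have := Nat.le_of_dvd hl (hμ.dvd_of_pow_eq_one l h1)
  omega

/-- `G` fixes the `p`-th roots of unity. -/
theorem fix_zeta {g : Dec P} (hg : g ∈ t.G) {ζ : QQb} (hζ : IsPrimitiveRoot ζ p) :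
    (g : GG) ζ = ζ := by
  haveI := FrobTrace.charP_residueField hP
  obtain ⟨e1, he1⟩ := t.dvd_e
  have hp1 : p - 1 ≠ 0 := by have := hp.out.two_le; omega
  have hd0 : ζ - 1 ≠ 0 := sub_ne_zero.2 (hζ.ne_one hp.out.one_lt)
  obtain ⟨i, hi, hgi⟩ := hζ.eq_pow_of_pow_eq_one (ξ := (g : GG) ζ)
    (by rw [← map_pow, hζ.pow_eq_one, map_one])
  have hπe : t.π ^ e1 ≠ 0 := pow_ne_zero _ t.π_ne_zero
  set x := (ζ - 1) / t.π ^ e1 with hx
  have hxv : P.valuation x = 1 := by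
    refine (pow_eq_one_iff_left hp1).mp ?_
    rw [hx, map_div₀, div_pow, ← Carayol.valuation_natCast_eq hP hζ, map_pow, ← pow_mul, mul_comm,
      ← he1, t.vπ_pow, div_self (val_p_pos hP).ne']
  have hζP : ζ ∈ P := mem_of_val_le_one (val_root hp.out.ne_zero hζ.pow_eq_one).le
  have hx0 : x ≠ 0 := div_ne_zero hd0 hπe
  have h1 : thx x g = 1 := by
    rw [thx, ← sub_eq_zero, ← res_one (P := P), ← res_sub (div_map_mem g hx0) P.one_mem,
      div_sub_one hx0]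
    refine res_eq_zero ?_
    rw [map_div₀, hxv, div_one]
    exact hg.1.val_sub_lt_one (mem_of_val_le_one hxv.le)
  have h2 : (g : GG) x / x = ∑ j ∈ Finset.range i, ζ ^ j := by
    rw [hx, map_div₀ (g : GG), map_pow (g : GG), hg.2, map_sub, map_one,
      div_div_div_cancel_right₀ hπe, ← hgi, eq_comm, eq_div_iff hd0, geom_sum_mul]
  rw [thx, h2, res_sum _ _ fun j _ => pow_mem hζP j] at h1
  have hres1 : res P ζ = 1 := by
    rw [← res_one (P := P), res_eq_iff hζP P.one_mem]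
    exact Carayol.valuation_sub_one_lt hP hζ
  rw [Finset.sum_congr rfl fun j _ => show res P (ζ ^ j) = 1 by rw [res_pow hζP, hres1, one_pow]]
    at h1
  simp only [Finset.sum_const, Finset.card_range, nsmul_eq_mul, mul_one] at h1
  have h3 : i = 1 := ((CharP.natCast_eq_natCast (ResidueField P) p).1
    (by rw [h1, Nat.cast_one])).eq_of_lt_of_lt hi hp.out.one_lt
  rw [← hgi, h3, pow_one]

end Prime

end TameData

end FLTAgent.FlatLocal
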