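import Fermat.Agent.Mazur.Kummer
import Fermat.Agent.Carayol.Const

/-!
# Local theory at a place over `p`: decomposition group, residues, Frobenius, wild inertia
-/

set_option autoImplicit false
set_option linter.style.haveILetI false
set_option linter.unusedSectionVars false

noncomputable section

open scoped Pointwise
open IsLocalRing

namespace FLTAgent.FlatLocal

local notation "QQb" => AlgebraicClosure ℚ
local notation "GG" => (AlgebraicClosure ℚ ≃ₐ[ℚ] AlgebraicClosure ℚ)

/-- The decomposition group of a place, as a group. -/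
abbrev Dec (P : ValuationSubring (AlgebraicClosure ℚ)) : Subgroup GG := P.decompositionSubgroup ℚ

variable (P : ValuationSubring (AlgebraicClosure ℚ))

/-- Membership in inertia. -/
def IsIne (σ : Dec P) : Prop := (σ : GG) ∈ P.inertiaSubgroupIn ℚ

/-- A function on the decomposition group constant on the cosets of some open subgroup. -/
def LevC {α : Type*} (f : Dec P → α) : Prop :=
  ∃ F : IntermediateField ℚ (AlgebraicClosure ℚ), FiniteDimensional ℚ F ∧
    ∀ g s : Dec P, (s : GG) ∈ F.fixingSubgroup → f (g * s) = f g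

variable {P}

/-! ### Valuations -/

theorem map_mem_nonunits (σ : Dec P) {x : QQb} (hx : x ∈ P.nonunits) :
    (σ : GG) x ∈ P.nonunits := by
  have h : (σ : GG) x ∈ ((σ : GG) • P).nonunits := by
    rw [Places.mem_smul_nonunits_iff,
      show (σ : GG)⁻¹ • (σ : GG) x = x from inv_smul_smul (σ : GG) x]
    exact hx
  rwa [MulAction.mem_stabilizer_iff.1 σ.2] at h

theorem coe_inv_apply (σ : Dec P) (x : QQb) : (σ : GG) (((σ⁻¹ : Dec P) : GG) x) = x :=
  (σ : GG).apply_symm_apply x

theorem coe_inv_apply' (σ : Dec P) (x : QQb) : ((σ⁻¹ : Dec P) : GG) ((σ : GG) x) = x :=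
  (σ : GG).symm_apply_apply x

theorem val_map_lt_one_iff (σ : Dec P) (x : QQb) :
    P.valuation ((σ : GG) x) < 1 ↔ P.valuation x < 1 := by
  simp only [← P.mem_nonunits_iff]
  refine ⟨fun h => ?_, map_mem_nonunits σ⟩
  simpa [coe_inv_apply'] using map_mem_nonunits σ⁻¹ h

theorem val_map_lt_iff (σ : Dec P) (x y : QQb) :
    P.valuation ((σ : GG) x) < P.valuation ((σ : GG) y) ↔ P.valuation x < P.valuation y := by
  rcases eq_or_ne y 0 with rfl | hy
  · simp [not_lt_zero]
  have h0 : (σ : GG) y ≠ 0 := (map_ne_zero_iff _ (σ : GG).injective).mpr hy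
  rw [← div_lt_one₀ (Mazur.valuation_pos P hy), ← div_lt_one₀ (Mazur.valuation_pos P h0),
    ← map_div₀ P.valuation, ← map_div₀ P.valuation, ← map_div₀ (σ : GG), val_map_lt_one_iff]

/-- An element of the decomposition group is torsion on each number. -/
theorem exists_pow_apply_eq (σ : GG) (x : QQb) : ∃ n, 0 < n ∧ (σ ^ n) x = x := by
  have hx : IsIntegral ℚ x := (AlgebraicClosure.isAlgebraic ℚ).isAlgebraic x |>.isIntegral
  have hfin : (Set.range fun n : ℕ => (σ ^ n) x).Finite := by
    refine ((minpoly ℚ x).rootSet_finite QQb).subset ?_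
    rintro _ ⟨n, rfl⟩
    rw [Polynomial.mem_rootSet]
    refine ⟨minpoly.ne_zero hx, ?_⟩
    show Polynomial.aeval ((σ ^ n) x) (minpoly ℚ x) = 0
    rw [Polynomial.aeval_algHom_apply, minpoly.aeval, map_zero]
  obtain ⟨i, -, j, -, hij, e⟩ : ∃ i ∈ Set.univ, ∃ j ∈ Set.univ, i < j ∧
      (σ ^ i) x = (σ ^ j) x := by
    by_contra hall
    push Not at hall
    refine (Set.infinite_range_of_injective (f := fun n : ℕ => (σ ^ n) x) fun i j e => ?_) hfin
    rcases lt_trichotomy i j with h | h | h
    · exact absurd e (hall i trivial j trivial h)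
    · exact h
    · exact absurd e.symm (hall j trivial i trivial h)
  refine ⟨j - i, by omega, (σ ^ i).injective ?_⟩
  rw [← AlgEquiv.mul_apply, ← pow_add, Nat.add_sub_cancel' hij.le, e]

/-- The decomposition group preserves the valuation. -/
theorem val_map (σ : Dec P) (x : QQb) : P.valuation ((σ : GG) x) = P.valuation x := by
  by_contra hne
  have key : ∀ τ : Dec P, ¬ P.valuation ((τ : GG) x) < P.valuation x := by
    intro τ hlt
    obtain ⟨n, hn, e⟩ := exists_pow_apply_eq (τ : GG) x
    have h : ∀ m, 0 < m → P.valuation (((τ : GG) ^ m) x) < P.valuation x := by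
      intro m hm
      induction m with
      | zero => omega
      | succ m ih =>
        rcases Nat.eq_zero_or_pos m with rfl | hm0
        · simpa using hlt
        · rw [pow_succ', AlgEquiv.mul_apply]
          have h2 : P.valuation ((τ : GG) (((τ : GG) ^ m) x)) < P.valuation ((τ : GG) x) :=
            (val_map_lt_iff τ _ _).mpr (ih hm0)
          exact h2.trans hlt
    exact (h n hn).ne (by rw [e])
  rcases lt_or_gt_of_ne hne with h | h
  · exact key σ h
  · refine key σ⁻¹ ((val_map_lt_iff σ _ _).1 ?_)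
    rw [coe_inv_apply]
    exact h

theorem map_mem (σ : Dec P) {x : QQb} (hx : x ∈ P) : (σ : GG) x ∈ P :=
  Places.smul_mem_of_decomposition P σ.2 hx

theorem val_div_map_eq_one (σ : Dec P) {x : QQb} (hx : x ≠ 0) :
    P.valuation ((σ : GG) x / x) = 1 := by
  rw [map_div₀, val_map, div_self ((Valuation.ne_zero_iff _).mpr hx)]

theorem div_map_mem (σ : Dec P) {x : QQb} (hx : x ≠ 0) : (σ : GG) x / x ∈ P :=
  (P.valuation_le_one_iff _).1 (val_div_map_eq_one σ hx).le

theorem val_le_one_of_mem {x : QQb} (hx : x ∈ P) : P.valuation x ≤ 1 :=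
  (P.valuation_le_one_iff x).2 hx

theorem mem_of_val_le_one {x : QQb} (hx : P.valuation x ≤ 1) : x ∈ P :=
  (P.valuation_le_one_iff x).1 hx

/-! ### The residue map, extended by zero -/

open scoped Classical in
/-- The residue of a number, zero if it is not integral. -/
def res (P : ValuationSubring (AlgebraicClosure ℚ)) (x : QQb) : ResidueField P :=
  if h : x ∈ P then residue P ⟨x, h⟩ else 0

theorem res_of_mem {x : QQb} (h : x ∈ P) : res P x = residue P ⟨x, h⟩ := dif_pos h

theorem res_coe (x : P) : res P (x : QQb) = residue P x := res_of_mem x.2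

theorem res_eq_zero {x : QQb} (h : P.valuation x < 1) : res P x = 0 := by
  rw [res_of_mem (mem_of_val_le_one h.le), residue_eq_zero_iff,
    ← ValuationSubring.coe_mem_nonunits_iff]
  exact P.mem_nonunits_iff.2 h

theorem res_eq_zero_iff {x : QQb} (h : x ∈ P) : res P x = 0 ↔ P.valuation x < 1 := by
  rw [res_of_mem h, residue_eq_zero_iff, ← ValuationSubring.coe_mem_nonunits_iff,
    P.mem_nonunits_iff]

theorem res_ne_zero {x : QQb} (h : P.valuation x = 1) : res P x ≠ 0 := fun e =>
  (h ▸ (res_eq_zero_iff (mem_of_val_le_one h.le)).1 e).ne rfl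

@[simp] theorem res_zero : res P 0 = 0 := res_eq_zero (by simp)

@[simp] theorem res_one : res P 1 = 1 := by rw [res_of_mem P.one_mem]; exact map_one _

theorem res_add {x y : QQb} (hx : x ∈ P) (hy : y ∈ P) : res P (x + y) = res P x + res P y := by
  rw [res_of_mem hx, res_of_mem hy, res_of_mem (P.add_mem _ _ hx hy), ← map_add]; rfl

theorem res_mul {x y : QQb} (hx : x ∈ P) (hy : y ∈ P) : res P (x * y) = res P x * res P y := by
  rw [res_of_mem hx, res_of_mem hy, res_of_mem (P.mul_mem _ _ hx hy), ← map_mul]; rfl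

theorem res_neg {x : QQb} (hx : x ∈ P) : res P (-x) = -res P x := by
  rw [res_of_mem hx, res_of_mem (P.neg_mem _ hx), ← map_neg]; rfl

theorem res_sub {x y : QQb} (hx : x ∈ P) (hy : y ∈ P) : res P (x - y) = res P x - res P y := by
  rw [sub_eq_add_neg, res_add hx (P.neg_mem _ hy), res_neg hy, sub_eq_add_neg]

theorem res_eq_iff {x y : QQb} (hx : x ∈ P) (hy : y ∈ P) :
    res P x = res P y ↔ P.valuation (x - y) < 1 := by
  rw [← sub_eq_zero, ← res_sub hx hy, res_eq_zero_iff (sub_mem hx hy)]

theorem res_pow {x : QQb} (hx : x ∈ P) (n : ℕ) : res P (x ^ n) = res P x ^ n := by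
  induction n with
  | zero => simp
  | succ n ih => rw [pow_succ, pow_succ, res_mul (pow_mem hx n) hx, ih]

theorem res_natCast (n : ℕ) : res P (n : QQb) = (n : ResidueField P) := by
  rw [res_of_mem (natCast_mem P n), show (⟨(n : QQb), natCast_mem P n⟩ : P) = (n : P) from
    Subtype.ext (by simp), map_natCast]

theorem res_intCast (n : ℤ) : res P (n : QQb) = (n : ResidueField P) := by
  rw [res_of_mem (intCast_mem P n), show (⟨(n : QQb), intCast_mem P n⟩ : P) = (n : P) from
    Subtype.ext (by simp), map_intCast]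

theorem res_sum {ι : Type*} (s : Finset ι) (f : ι → QQb) (h : ∀ i ∈ s, f i ∈ P) :
    res P (∑ i ∈ s, f i) = ∑ i ∈ s, res P (f i) := by
  classical
  induction s using Finset.induction with
  | empty => simp
  | insert a s has ih =>
    have h' : ∀ i ∈ s, f i ∈ P := fun i hi => h i (Finset.mem_insert_of_mem hi)
    rw [Finset.sum_insert has, Finset.sum_insert has, res_add (h a (Finset.mem_insert_self a s))
      (sum_mem h'), ih h']

theorem res_prod {ι : Type*} (s : Finset ι) (f : ι → QQb) (h : ∀ i ∈ s, f i ∈ P) :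
    res P (∏ i ∈ s, f i) = ∏ i ∈ s, res P (f i) := by
  classical
  induction s using Finset.induction with
  | empty => simp
  | insert a s has ih =>
    have h' : ∀ i ∈ s, f i ∈ P := fun i hi => h i (Finset.mem_insert_of_mem hi)
    rw [Finset.prod_insert has, Finset.prod_insert has, res_mul (h a (Finset.mem_insert_self a s))
      (prod_mem h'), ih h']

theorem exists_res_eq (z : ResidueField P) : ∃ x ∈ P, res P x = z := by
  obtain ⟨x, rfl⟩ := residue_surjective z
  exact ⟨x, x.2, res_coe x⟩

/-- The action on residues. -/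
theorem smul_res (σ : Dec P) {x : QQb} (hx : x ∈ P) : σ • res P x = res P ((σ : GG) x) := by
  rw [res_of_mem hx, res_of_mem (map_mem σ hx)]
  rfl

theorem IsIne.val_sub_lt_one {σ : Dec P} (h : IsIne P σ) {x : QQb} (hx : x ∈ P) :
    P.valuation ((σ : GG) x - x) < 1 :=
  P.mem_nonunits_iff.1 (((Places.mem_inertia_iff P).1 h).2 x hx)

theorem IsIne.res_map {σ : Dec P} (h : IsIne P σ) {x : QQb} (hx : x ∈ P) :
    res P ((σ : GG) x) = res P x := (res_eq_iff (map_mem σ hx) hx).2 (h.val_sub_lt_one hx)

theorem IsIne.smul_eq {σ : Dec P} (h : IsIne P σ) (z : ResidueField P) : σ • z = z := by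
  obtain ⟨x, hx, rfl⟩ := exists_res_eq z
  rw [smul_res σ hx, h.res_map hx]

theorem isIne_of_smul_eq {σ : Dec P} (h : ∀ z : ResidueField P, σ • z = z) : IsIne P σ := by
  refine (Places.mem_inertia_iff P).2 ⟨σ.2, fun x hx => P.mem_nonunits_iff.2 ?_⟩
  rw [← res_eq_iff (map_mem σ hx) hx, ← smul_res σ hx]
  exact h _

theorem isIne_one : IsIne P 1 := one_mem (P.inertiaSubgroupIn ℚ)

theorem IsIne.mul {σ τ : Dec P} (h : IsIne P σ) (h' : IsIne P τ) : IsIne P (σ * τ) :=
  (P.inertiaSubgroupIn ℚ).mul_mem h h'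

theorem IsIne.inv {σ : Dec P} (h : IsIne P σ) : IsIne P σ⁻¹ :=
  (P.inertiaSubgroupIn ℚ).inv_mem h

theorem IsIne.pow {σ : Dec P} (h : IsIne P σ) (n : ℕ) : IsIne P (σ ^ n) :=
  (P.inertiaSubgroupIn ℚ).pow_mem h n

theorem IsIne.conj {σ : Dec P} (h : IsIne P σ) (φ : Dec P) : IsIne P (φ * σ * φ⁻¹) :=
  Mazur.conj_mem P φ.2 h

/-- The inertia group inside the decomposition group. -/
def Ine (P : ValuationSubring (AlgebraicClosure ℚ)) : Subgroup (Dec P) where
  carrier := {σ | IsIne P σ}
  one_mem' := isIne_one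
  mul_mem' := IsIne.mul
  inv_mem' := IsIne.inv

@[simp] theorem mem_Ine {σ : Dec P} : σ ∈ Ine P ↔ IsIne P σ := Iff.rfl

section Prime

variable {p : ℕ} [hp : Fact p.Prime] (hP : P.LiesOverPrime p)

include hP

theorem val_p_lt_one : P.valuation (p : QQb) < 1 := Mazur.valuation_natCast_lt_one P hP

theorem val_p_pos : 0 < P.valuation (p : QQb) :=
  Mazur.valuation_pos P (Nat.cast_ne_zero.mpr hp.out.ne_zero)

theorem res_p : res P (p : QQb) = 0 := res_eq_zero (val_p_lt_one hP)

/-- Residues lift to numbers fixed by inertia. -/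
theorem exists_fixed_residue (z : ResidueField P) :
    ∃ u : QQb, u ∈ P ∧ res P u = z ∧ ∀ σ : Dec P, IsIne P σ → (σ : GG) u = u := by
  obtain ⟨u, hu, e⟩ := Carayol.exists_residue_eq hP z
  exact ⟨u, u.2, (res_coe u).trans e, fun σ hσ => Carayol.mem_K0.1 hu σ hσ⟩

theorem exists_frob : ∃ φ : Dec P, ∀ z : ResidueField P, φ • z = z ^ p := by
  obtain ⟨σ, hσ⟩ := Frobenius.exists_isFrobeniusAt P p hp.out hP
  exact ⟨⟨σ, hσ.mem_decompositionSubgroup⟩, hσ.smul_residue_eq⟩

/-- A residue fixed by Frobenius is in the prime field. -/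
theorem exists_natCast_eq_of_pow {z : ResidueField P} (h : z ^ p = z) :
    ∃ n : ℕ, n < p ∧ (n : ResidueField P) = z := by
  classical
  haveI := FrobTrace.charP_residueField hP
  by_contra hall
  push Not at hall
  let f : Polynomial (ResidueField P) := Polynomial.X ^ p - Polynomial.X
  have hdeg : f.natDegree = p := by
    simp only [f]
    rw [Polynomial.natDegree_sub_eq_left_of_natDegree_lt] <;>
      simp [hp.out.one_lt]
  have hf : f ≠ 0 := Polynomial.ne_zero_of_natDegree_gt (hdeg ▸ hp.out.pos)
  let s : Finset (ResidueField P) :=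
    insert z ((Finset.range p).image fun n : ℕ => (n : ResidueField P))
  have hs : s.card = p + 1 := by
    rw [Finset.card_insert_of_notMem, Finset.card_image_of_injOn, Finset.card_range]
    · intro a ha b hb e
      have ha' := Finset.mem_range.1 (Finset.mem_coe.1 ha)
      have hb' := Finset.mem_range.1 (Finset.mem_coe.1 hb)
      exact ((CharP.natCast_eq_natCast (ResidueField P) p).1 e).eq_of_lt_of_lt ha' hb'
    · simp only [Finset.mem_image, Finset.mem_range, not_exists, not_and]
      exact fun n hn e => hall n hn e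
  have hsub : s.val ⊆ f.roots := by
    intro x hx
    rw [Polynomial.mem_roots hf, Polynomial.IsRoot.def]
    simp only [f, Polynomial.eval_sub, Polynomial.eval_pow, Polynomial.eval_X, sub_eq_zero]
    rcases Finset.mem_insert.1 (show x ∈ s from hx) with rfl | hx
    · exact h
    · obtain ⟨n, -, rfl⟩ := Finset.mem_image.1 hx
      rw [← frobenius_def, map_natCast]
  have h1 := Polynomial.card_le_degree_of_subset_roots hsub
  omega

end Prime

end FLTAgent.FlatLocal
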