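import Fermat.Agent.FlatLocal.Quotient
import Fermat.Agent.FlatModel.Order
import Fermat.Prelude.Def_GaloisRep_Flat

/-!
# Finite flat group schemes over `ℤ_(p)` give flat representations of inertia
-/

set_option autoImplicit false
set_option linter.style.haveILetI false
set_option linter.unusedSectionVars false

noncomputable section

open scoped Pointwise TensorProduct
open IsLocalRing WithConv

namespace FLTAgent.FlatLocal

open FLTAgent.FlatModel (Rl HopfOrder IsFlatModule)

local notation "QQb" => AlgebraicClosure ℚ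
local notation "GG" => (AlgebraicClosure ℚ ≃ₐ[ℚ] AlgebraicClosure ℚ)

variable {P : ValuationSubring (AlgebraicClosure ℚ)} {p : ℕ} [hp : Fact p.Prime]

theorem algebraMap_Rl_mem (hP : P.LiesOverPrime p) (a : Rl p) :
    algebraMap (Rl p) QQb a ∈ P := by
  have ha : ¬ p ∣ (a : ℚ).den := fun h =>
    hp.out.ne_one ((Nat.coprime_self p).1 (Nat.Coprime.coprime_dvd_left h a.2))
  rw [IsScalarTower.algebraMap_apply (Rl p) ℚ QQb]
  show algebraMap ℚ QQb (a : ℚ) ∈ P
  refine mem_of_val_le_one ?_
  rw [← Rat.num_div_den (a : ℚ), map_div₀ (algebraMap ℚ QQb), map_intCast, map_natCast, map_div₀,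
    Mazur.valuation_natCast_eq_one P hp.out hP ha, div_one]
  exact val_le_one_of_mem (intCast_mem P _)

theorem algebraMap_Rl_mem_Rnr (hP : P.LiesOverPrime p) (a : Rl p) :
    algebraMap (Rl p) QQb a ∈ Rnr P :=
  mem_Rnr.2 ⟨algebraMap_Rl_mem hP a, fun σ _ => by
    rw [IsScalarTower.algebraMap_apply (Rl p) ℚ QQb, AlgEquiv.commutes]⟩

theorem mem_of_isIntegral (hP : P.LiesOverPrime p) {x : QQb} (hx : IsIntegral (Rl p) x) : x ∈ P := by
  obtain ⟨q, hq, hx⟩ := hx
  let φ : Rl p →+* P := (algebraMap (Rl p) QQb).codRestrict P.toSubring (algebraMap_Rl_mem hP)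
  have h : IsIntegral P x := ⟨q.map φ, hq.map φ, by
    rw [Polynomial.eval₂_map]
    exact hx⟩
  obtain ⟨a, rfl⟩ := IsIntegrallyClosed.isIntegral_iff.mp h
  exact a.2

theorem span_Rl_le (hP : P.LiesOverPrime p) {α : Type*} {T : Set (α → QQb)} {f : α → QQb}
    (hf : f ∈ Submodule.span (Rl p) T) : f ∈ Submodule.span (Rnr P) T := by
  induction hf using Submodule.span_induction with
  | mem f hf => exact Submodule.subset_span hf
  | zero => exact zero_mem _
  | add f g _ _ hf hg => exact add_mem hf hg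
  | smul c f _ hf =>
    rw [show c • f = (⟨_, algebraMap_Rl_mem_Rnr hP c⟩ : Rnr P) • f from funext fun x => by
      rw [Pi.smul_apply, Pi.smul_apply, Rnr_smul_def, Algebra.smul_def]]
    exact Submodule.smul_mem _ _ hf

variable {W : Type*} [AddCommGroup W] {F : Type*} [FunLike F W W] {act : Dec P → F}

/-- An algebra of functions finite over `ℤ_(p)` gives a lattice. -/
theorem FlatI.of_subalgebra [Finite W] (hP : P.LiesOverPrime p) (S : Subalgebra (Rl p) (W → QQb))
    (hfg : S.toSubmodule.FG) (hinj : ∀ σ, IsIne P σ → Function.Injective (act σ))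
    (heq : ∀ f ∈ S, ∀ σ : Dec P, IsIne P σ → ∀ w, f (act σ w) = (σ : GG) (f w))
    (hfull : Submodule.span QQb (S : Set (W → QQb)) = ⊤)
    (htr : ∀ f ∈ S, (fun x : W × W => f (x.1 + x.2)) ∈
      Submodule.span (Rl p) (Set.image2 tens (S : Set (W → QQb)) S)) : FlatI P act := by
  classical
  obtain ⟨T, hT⟩ := hfg
  have hTS : ∀ f ∈ T, f ∈ S := fun f hf => by
    show f ∈ S.toSubmodule
    rw [← hT]; exact Submodule.subset_span hf
  have hST : ∀ f ∈ S, f ∈ Submodule.span (Rl p) (T : Set (W → QQb)) := fun f hf => by rw [hT]; exact hf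
  haveI : Module.Finite (Rl p) S.toSubmodule := Module.Finite.iff_fg.2 ⟨T, hT⟩
  refine ⟨T, hinj, fun f hf w => ?_, fun f hf => heq f (hTS f hf), ?_, ?_, fun f hf g hg => ?_,
    fun f hf => ?_⟩
  · exact mem_of_isIntegral hP (((IsIntegral.of_mem_of_fg S ⟨T, hT⟩ f (hTS f hf))).map
      (Pi.evalAlgHom (Rl p) (fun _ : W => QQb) w))
  · rw [eq_top_iff, ← hfull]
    refine Submodule.span_le.2 fun f hf => ?_
    exact Submodule.span_le_restrictScalars (Rl p) QQb _ (hST f hf)
  · exact span_Rl_le hP (hST 1 (one_mem S))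
  · exact span_Rl_le hP (hST _ (mul_mem (hTS f hf) (hTS g hg)))
  · refine Submodule.span_le.2 ?_ (span_Rl_le hP (htr f (hTS f hf)))
    rintro _ ⟨a, ha, b, hb, rfl⟩
    exact tens_mem_span (span_Rl_le hP (hST a ha)) (span_Rl_le hP (hST b hb))

/-- A Hopf order gives a flat representation of inertia. -/
theorem FlatI.of_hopfOrder {M : Type*} [AddCommGroup M] [DistribMulAction GG M] [Finite M]
    (hP : P.LiesOverPrime p) (O : HopfOrder p M) {F' : Type*} [FunLike F' M M] {act : Dec P → F'}
    (hact : ∀ σ, IsIne P σ → ∀ x, act σ x = (σ : GG) • x) : FlatI P act :=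
  FlatI.of_subalgebra hP O.S O.fg
    (fun σ hσ a b e => MulAction.injective (σ : GG) (show (σ : GG) • a = (σ : GG) • b by rw [← hact σ hσ a, ← hact σ hσ b, e]))
    (fun f hf σ hσ x => by rw [hact σ hσ x, O.equivariant f hf])
    O.span_top O.comul_mem

variable {H : Type} [CommRing H] [HopfAlgebra (Rl p) H]

/-- **The points of a finite Hopf algebra over `ℤ_(p)` form a flat representation of inertia.** -/
theorem FlatI.of_hopfAlgebra [Finite W] [Module.Finite (Rl p) H] (hP : P.LiesOverPrime p)
    (e : WithConv (H →ₐ[Rl p] QQb) ≃ W) (hadd : ∀ f g, e (f * g) = e f + e g)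
    (hgal : ∀ σ : Dec P, IsIne P σ → ∀ f g : WithConv (H →ₐ[Rl p] QQb),
      (∀ h : H, g h = (σ : GG) (f h)) → e g = act σ (e f)) : FlatI P act := by
  classical
  let ev : H →ₐ[Rl p] (W → QQb) := Pi.algHom (Rl p) _ fun w => (e.symm w).ofConv
  let tw : ∀ σ : Dec P, WithConv (H →ₐ[Rl p] QQb) → WithConv (H →ₐ[Rl p] QQb) := fun σ f =>
    toConv ((((σ : GG) : QQb →ₐ[ℚ] QQb).restrictScalars (Rl p)).comp f.ofConv)
  have heq : ∀ h σ, IsIne P σ → ∀ w, ev h (act σ w) = (σ : GG) (ev h w) := by
    intro h σ hσ w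
    have h1 := hgal σ hσ (e.symm w) (tw σ (e.symm w)) fun _ => rfl
    rw [Equiv.apply_symm_apply] at h1
    show (e.symm (act σ w)) h = _
    rw [← h1, Equiv.symm_apply_apply]
    rfl
  refine FlatI.of_subalgebra hP ev.range ?_ ?_ ?_ ?_ ?_
  · exact (Module.Finite.fg_top (R := Rl p) (M := H)).map ev.toLinearMap |> fun h => by
      rwa [Submodule.map_top] at h
  · intro σ hσ a b hab
    refine e.symm.injective (ofConv_injective (AlgHom.ext fun h => (σ : GG).injective ?_))
    show (σ : GG) (ev h a) = (σ : GG) (ev h b)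
    rw [← heq h σ hσ a, ← heq h σ hσ b, hab]
  · rintro _ ⟨h, rfl⟩ σ hσ w
    exact heq h σ hσ w
  · -- distinct points are independent
    cases nonempty_fintype W
    let χ : W → (H →* QQb) := fun w => ((e.symm w).ofConv : H →* QQb)
    have hinj : Function.Injective χ := fun a b hab =>
      e.symm.injective (ofConv_injective (AlgHom.ext fun h => DFunLike.congr_fun hab h))
    have hli : LinearIndependent QQb fun w => (χ w : H → QQb) :=
      (linearIndependent_monoidHom H QQb).comp χ hinj
    by_contra hne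
    obtain ⟨L, hL0, hL⟩ := Submodule.exists_le_ker_of_lt_top _ (lt_top_iff_ne_top.2 hne)
    refine hL0 (LinearMap.pi_ext' fun w => LinearMap.ext fun c => ?_)
    have h0 : ∀ w, L (Pi.single w (1 : QQb)) = 0 := Fintype.linearIndependent_iff.1 hli _
      (funext fun h => by
        have h1 : L (ev h) = 0 := hL (Submodule.subset_span ⟨h, rfl⟩)
        rw [Finset.sum_apply, Pi.zero_apply, ← h1]
        have e1 : ev h = ∑ w, ev h w • Pi.single w (1 : QQb) := by
          funext v; simp [Pi.single_apply]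
        conv_rhs => rw [e1, map_sum]
        exact Finset.sum_congr rfl fun w _ => by
          rw [map_smul]; simp [χ, ev, mul_comm])
    show L (Pi.single w c) = (0 : QQb)
    rw [show Pi.single w c = c • Pi.single w (1 : QQb) by
      rw [← Pi.single_smul, smul_eq_mul, mul_one], map_smul, h0, smul_zero]
  · rintro _ ⟨h, rfl⟩
    have key : ∀ z : H ⊗[Rl p] H, (fun x : W × W =>
        Algebra.TensorProduct.lift (e.symm x.1).ofConv (e.symm x.2).ofConv (fun _ _ => .all _ _) z) ∈
        Submodule.span (Rl p) (Set.image2 tens (ev.range : Set (W → QQb)) ev.range) := by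
      intro z
      induction z using TensorProduct.induction_on with
      | zero => simp only [map_zero]; exact zero_mem _
      | tmul a b =>
        exact Submodule.subset_span ⟨ev a, ⟨a, rfl⟩, ev b, ⟨b, rfl⟩, funext fun x => by
          simp [tens, ev]⟩
      | add a b ha hb => simp only [map_add]; exact add_mem ha hb
    convert key (Coalgebra.comul h) using 1
    funext x
    rw [← AlgHom.convMul_apply]
    show (e.symm (x.1 + x.2)) h = _
    congr 2
    rw [Equiv.symm_apply_eq, hadd, Equiv.apply_symm_apply, Equiv.apply_symm_apply]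

/-- **Flatness of a Galois representation at `p` gives flatness of inertia at each level.** -/
theorem FlatI.of_isFlatAt {A : Type} [CommRing A] [IsLocalRing A] (hP : P.LiesOverPrime p)
    {ρ : GaloisRepAdic A} (h : ρ.IsFlatAt p) (I : Ideal A) [hI : Finite (A ⧸ I)]
    [Finite (ρ.V ⧸ (I • (⊤ : Submodule A ρ.V)))] :
    FlatI P fun σ : Dec P => ρ.levelAction I (σ : GG) := by
  obtain ⟨-, h⟩ := h
  obtain ⟨H, i1, i2, hfin, -, -, e, hadd, hgal⟩ := h I hI
  exact FlatI.of_hopfAlgebra (H := H) hP e hadd fun σ _ f g hfg => hgal (σ : GG) f g hfg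

end FLTAgent.FlatLocal
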