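import Fermat.Agent.FlatLocal.Setup

/-!
# Local flat theory at `p`: the interface

`FlatI P act` (file `Lattice`) is defined for a finite abelian group `W` and any family of maps
`act : Dec P → F`, `F` a type of maps `W → W` (`Module.End`, `AddMonoid.End`, ...). It only looks at
inertia elements. It passes to subgroups (`FlatI.restrict`), quotients (`FlatI.quotient`),
products (`FlatI.prod`) and isomorphic groups (`FlatI.congr`). Fontaine's bound is
`IsLattice.eq_of_congr`.
-/

set_option autoImplicit false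

noncomputable section

open scoped Matrix

namespace FLTAgent.FlatLocal

variable {P : ValuationSubring (AlgebraicClosure ℚ)} {p : ℕ} [hp : Fact p.Prime]

theorem omega_eq_natCast {ζ : AlgebraicClosure ℚ} (hζ : IsPrimitiveRoot ζ p) (σ : Dec P) {n : ℕ}
    (h : (σ : AlgebraicClosure ℚ ≃ₐ[ℚ] AlgebraicClosure ℚ) ζ = ζ ^ n) :
    omega (p := p) ζ σ = (n : ZMod p) := by
  refine Mazur.zpowZMod_injective hζ ?_
  rw [← omega_spec hζ, h, ZMod.val_natCast]
  exact pow_eq_pow_mod n hζ.pow_eq_one

variable {k : Type*} [Field k] [Algebra (ZMod p) k]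

/-- A representation over the prime field with coefficients extended. -/
def rk (r : Dec P →* Mat2 p) (σ : Dec P) : Matrix (Fin 2) (Fin 2) k :=
  (r σ).map (algebraMap (ZMod p) k)

/-- The lift to dual numbers with coefficients in `k`: `(1 + ε c) r` on `x + ε v`. -/
def actWK (r : Dec P →* Mat2 p) (c : Dec P → Matrix (Fin 2) (Fin 2) k) (σ : Dec P) :
    Module.End k ((Fin 2 → k) × (Fin 2 → k)) :=
  LinearMap.prod ((rk r σ).mulVecLin ∘ₗ LinearMap.fst _ _ _)
    ((rk r σ).mulVecLin ∘ₗ LinearMap.snd _ _ _ + (c σ * rk r σ).mulVecLin ∘ₗ LinearMap.fst _ _ _)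

/-- A traceless cocycle with coefficients in `k`. -/
structure IsCocycleK (r : Dec P →* Mat2 p) (c : Dec P → Matrix (Fin 2) (Fin 2) k) : Prop where
  lev : LevC P c
  trace : ∀ σ, (c σ).trace = 0
  mul : ∀ σ τ, c (σ * τ) = c σ + rk r σ * c τ * rk r σ⁻¹

/-- **The flat tangent bound**, coefficients in a finite field of characteristic `p`: the cocycles
with flat lift lie in a space of dimension at most `4`, so their classes form a space of dimension
at most `1 + h0`. -/
def TangentBoundTarget : Prop :=
  ∀ {p : ℕ} [Fact p.Prime], 3 ≤ p → ∀ (P : ValuationSubring (AlgebraicClosure ℚ)),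
    P.LiesOverPrime p → ∀ ζ : AlgebraicClosure ℚ, IsPrimitiveRoot ζ p →
    ∀ r : Dec P →* Mat2 p, LevC P r → (∀ σ, (r σ).det = omega ζ σ) → FlatI P (actV r) →
    ∀ (k : Type) [Field k] [Finite k] [Algebra (ZMod p) k],
      ∃ s : Finset (Dec P → Matrix (Fin 2) (Fin 2) k), s.card ≤ 4 ∧
        ∀ c, IsCocycleK r c → FlatI P (actWK r c) →
          c ∈ Submodule.span k (s : Set (Dec P → Matrix (Fin 2) (Fin 2) k))

end FLTAgent.FlatLocal
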