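import Fermat.Agent.FlatLocal.OrdCount
import Fermat.Agent.FlatLocal.Interface

/-!
# The flat tangent bound
-/

set_option autoImplicit false
set_option linter.style.haveILetI false
set_option linter.unusedSectionVars false

noncomputable section

open scoped Pointwise Matrix
open IsLocalRing

namespace FLTAgent.FlatLocal

local notation "QQb" => AlgebraicClosure ℚ

variable {P : ValuationSubring (AlgebraicClosure ℚ)} {p : ℕ} [hp : Fact p.Prime]

/-- Transport of matrices between bases, as a linear map on families. -/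
def transportL (P : ValuationSubring (AlgebraicClosure ℚ)) (M N : Mat2 p) :
    (Dec P → Mat2 p) →ₗ[ZMod p] (Dec P → Mat2 p) where
  toFun c σ := M * c σ * N
  map_add' c c' := funext fun σ => by simp [mul_add, add_mul]
  map_smul' a c := funext fun σ => by simp [mul_smul_comm, smul_mul_assoc]

theorem isCocycle_conj {r : Dec P →* Mat2 p} {c : Dec P → Mat2 p} (hc : IsCocycle r c)
    {M N : Mat2 p} (hNM : N * M = 1) :
    IsCocycle (conjRep r M N hNM) (transportL P N M c) where
  lev := hc.lev.comp fun A => N * A * M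
  trace σ := by
    show (N * c σ * M).trace = 0
    rw [Matrix.trace_mul_cycle, mul_eq_one_comm.1 hNM, one_mul, hc.trace]
  mul σ σ' := by
    show N * c (σ * σ') * M = N * c σ * M + N * r σ * M * (N * c σ' * M) * (N * r σ⁻¹ * M)
    rw [hc.mul, mul_add, add_mul]
    simp only [mul_assoc]
    rw [← mul_assoc M N, mul_eq_one_comm.1 hNM, one_mul, ← mul_assoc M N, mul_eq_one_comm.1 hNM,
      one_mul]

theorem flat_conj {r : Dec P →* Mat2 p} {c : Dec P → Mat2 p} (hflat : FlatI P (actW r c))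
    {M N : Mat2 p} (hNM : N * M = 1) :
    FlatI P (actW (conjRep r M N hNM) (transportL P N M c)) := by
  have hMN : M * N = 1 := mul_eq_one_comm.1 hNM
  refine hflat.restrict (M.mulVecLin.prodMap M.mulVecLin) (fun a b e => ?_) fun σ _ y => ?_
  · have key : ∀ {u w : Vec2 p}, M *ᵥ u = M *ᵥ w → u = w := fun {u w} h => by
      have h1 := congrArg (N *ᵥ ·) h
      simp only [Matrix.mulVec_mulVec, hNM, Matrix.one_mulVec] at h1
      exact h1
    exact Prod.ext (key (congrArg Prod.fst e)) (key (congrArg Prod.snd e))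
  · obtain ⟨x, v⟩ := y
    show (M *ᵥ _, M *ᵥ _) = actW r c σ (M *ᵥ x, M *ᵥ v)
    rw [actW_apply, actW_apply]
    refine Prod.ext ?_ ?_
    · show M *ᵥ ((N * r σ * M) *ᵥ x) = r σ *ᵥ (M *ᵥ x)
      rw [Matrix.mulVec_mulVec, Matrix.mulVec_mulVec, ← mul_assoc, ← mul_assoc, hMN, one_mul]
    · show M *ᵥ ((N * r σ * M) *ᵥ v + (N * c σ * M) *ᵥ ((N * r σ * M) *ᵥ x)) =
        r σ *ᵥ (M *ᵥ v) + c σ *ᵥ (r σ *ᵥ (M *ᵥ x))
      simp only [Matrix.mulVec_add, Matrix.mulVec_mulVec, ← mul_assoc, hMN, one_mul]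
      rw [mul_assoc (c σ) M N, hMN, mul_one]

/-- **The tangent bound over the prime field.** -/
theorem exists_span_prime (hp3 : 3 ≤ p) (hP : P.LiesOverPrime p) {ζ : QQb}
    (hζ : IsPrimitiveRoot ζ p) {r : Dec P →* Mat2 p} (hr : LevC P r)
    (hdet : ∀ σ, (r σ).det = omega ζ σ) (hflat : FlatI P (actV r)) :
    ∃ s : Finset (Dec P → Mat2 p), s.card ≤ 4 ∧ ∀ c, IsCocycle r c → FlatI P (actW r c) →
      c ∈ Submodule.span (ZMod p) (s : Set (Dec P → Mat2 p)) := by
  classical
  by_cases hl : HasLine r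
  · obtain ⟨t, τ, M, N, hNM, h⟩ := exists_isOrd hP hp3 hζ hr hdet hflat hl
    obtain ⟨s, hs, hs'⟩ := h.exists_span hP hp3 hζ (hr.comp fun A => N * A * M)
    refine ⟨s.image (transportL P M N), Finset.card_image_le.trans hs, fun c hc hf => ?_⟩
    have h1 := Submodule.apply_mem_span_image_of_mem_span (transportL P M N)
      (hs' _ (isCocycle_conj hc hNM) (flat_conj hf hNM))
    rw [Finset.coe_image]
    convert h1 using 1
    funext σ
    show c σ = M * (N * c σ * M) * N
    have hMN : M * N = 1 := mul_eq_one_comm.1 hNM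
    simp only [mul_assoc]
    rw [hMN, mul_one, ← mul_assoc, hMN, one_mul]
  · obtain ⟨t, τ, h⟩ := exists_isSS hP hr hl
    exact h.exists_span hP hp3 hζ hdet hr hflat

/-! ### Coefficients in a larger field -/

variable {k : Type*} [Field k] [Algebra (ZMod p) k]

theorem algebraMap_mulVec (A : Mat2 p) (x : Vec2 p) :
    A.map (algebraMap (ZMod p) k) *ᵥ (fun i => algebraMap (ZMod p) k (x i)) =
      fun i => algebraMap (ZMod p) k ((A *ᵥ x) i) := by
  funext i
  simp [Matrix.mulVec, dotProduct, map_sum, map_mul]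

theorem coord_mulVec (μ : k →ₗ[ZMod p] ZMod p) (A : Mat2 p) (v : Fin 2 → k) (i : Fin 2) :
    μ ((A.map (algebraMap (ZMod p) k) *ᵥ v) i) = (A *ᵥ fun j => μ (v j)) i := by
  simp [Matrix.mulVec, dotProduct, ← Algebra.smul_def, map_smul]

theorem coord_mulVec' (μ : k →ₗ[ZMod p] ZMod p) (X : Matrix (Fin 2) (Fin 2) k) (y : Vec2 p)
    (i : Fin 2) :
    μ ((X *ᵥ fun j => algebraMap (ZMod p) k (y j)) i) = (X.map μ *ᵥ y) i := by
  simp only [Matrix.mulVec, dotProduct, map_sum, Matrix.map_apply]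
  refine Finset.sum_congr rfl fun j _ => ?_
  rw [mul_comm, ← Algebra.smul_def, map_smul, smul_eq_mul, mul_comm]

theorem isCocycle_coord {r : Dec P →* Mat2 p} {c : Dec P → Matrix (Fin 2) (Fin 2) k}
    (hc : IsCocycleK r c) (μ : k →ₗ[ZMod p] ZMod p) : IsCocycle r fun σ => (c σ).map μ where
  lev := hc.lev.comp fun A => A.map μ
  trace σ := by
    have h := congrArg μ (hc.trace σ)
    rw [map_zero, Matrix.trace_fin_two, map_add] at h
    rw [Matrix.trace_fin_two]
    exact h
  mul σ σ' := by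
    have hl : ∀ (a b : ZMod p) (x : k),
        μ (algebraMap (ZMod p) k a * x * algebraMap (ZMod p) k b) = a * μ x * b := fun a b x => by
      rw [mul_comm _ (algebraMap (ZMod p) k b), ← Algebra.smul_def, ← Algebra.smul_def, map_smul,
        map_smul, smul_eq_mul, smul_eq_mul, mul_comm]
    rw [hc.mul]
    ext i j
    simp [rk, Matrix.mul_apply, Fin.sum_univ_two, add_mul, hl]

theorem flat_coord [Finite k] (hP : P.LiesOverPrime p) {r : Dec P →* Mat2 p}
    {c : Dec P → Matrix (Fin 2) (Fin 2) k} (hflat : FlatI P (actWK r c))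
    (μ : k →ₗ[ZMod p] ZMod p) (hμ : Function.Surjective μ) :
    FlatI P (actW r fun σ => (c σ).map μ) := by
  let al : Vec2 p →ₗ[ZMod p] (Fin 2 → k) := (Algebra.linearMap (ZMod p) k).compLeft (Fin 2)
  have hal : ∀ x, al x = fun i => algebraMap (ZMod p) k (x i) := fun x => rfl
  let act1 : Dec P → Module.End (ZMod p) (Vec2 p × (Fin 2 → k)) := fun σ =>
    LinearMap.prod ((r σ).mulVecLin ∘ₗ LinearMap.fst _ _ _)
      ((rk (k := k) r σ).mulVecLin.restrictScalars (ZMod p) ∘ₗ LinearMap.snd _ _ _ +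
        (c σ).mulVecLin.restrictScalars (ZMod p) ∘ₗ al ∘ₗ (r σ).mulVecLin ∘ₗ LinearMap.fst _ _ _)
  have hact1 : ∀ σ x v, act1 σ (x, v) =
      (r σ *ᵥ x, rk (k := k) r σ *ᵥ v + c σ *ᵥ al (r σ *ᵥ x)) := fun σ x v => rfl
  have h1 : FlatI P act1 := hflat.restrict (al.prodMap LinearMap.id)
    (fun a b (e : (al a.1, a.2) = (al b.1, b.2)) => Prod.ext
      (funext fun i => (algebraMap (ZMod p) k).injective (congrFun (congrArg Prod.fst e) i))
      (congrArg Prod.snd e :))
    fun σ _ y => by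
      obtain ⟨x, v⟩ := y
      rw [hact1]
      show (al (r σ *ᵥ x), rk (k := k) r σ *ᵥ v + c σ *ᵥ al (r σ *ᵥ x)) =
        (rk (k := k) r σ *ᵥ al x, rk (k := k) r σ *ᵥ v + (c σ * rk (k := k) r σ) *ᵥ al x)
      rw [← Matrix.mulVec_mulVec, hal x, hal, rk, algebraMap_mulVec]
  refine h1.quotient hP (LinearMap.id.prodMap (μ.compLeft (Fin 2))) (fun q => ?_) fun σ _ y => ?_
  · refine ⟨(q.1, fun i => (hμ (q.2 i)).choose), Prod.ext rfl (funext fun i => ?_)⟩
    exact (hμ (q.2 i)).choose_spec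
  · obtain ⟨x, v⟩ := y
    rw [hact1]
    show (r σ *ᵥ x, fun i => μ ((rk (k := k) r σ *ᵥ v + c σ *ᵥ al (r σ *ᵥ x)) i)) =
      actW r (fun σ => (c σ).map μ) σ (x, fun i => μ (v i))
    rw [actW_apply]
    refine Prod.ext rfl (funext fun i => ?_)
    show μ _ = (r σ *ᵥ (fun j => μ (v j))) i + ((c σ).map μ *ᵥ (r σ *ᵥ x)) i
    rw [Pi.add_apply, map_add, rk, coord_mulVec, hal, coord_mulVec']

/-- **The flat tangent bound.** -/
theorem tangentBound : TangentBoundTarget := by
  classical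
  intro p _ hp3 P hP ζ hζ r hr hdet hflat k _ _ _
  obtain ⟨s, hs, hs'⟩ := exists_span_prime hp3 hP hζ hr hdet hflat
  let L : (Dec P → Mat2 p) →ₗ[ZMod p] (Dec P → Matrix (Fin 2) (Fin 2) k) :=
    (Algebra.linearMap (ZMod p) k).mapMatrix.compLeft (Dec P)
  refine ⟨s.image L, Finset.card_image_le.trans hs, fun c hc hf => ?_⟩
  let b := Module.finBasis (ZMod p) k
  have e : c = ∑ i, b i • L (fun σ => (c σ).map (b.coord i)) := by
    funext σ
    ext i j
    simp only [Finset.sum_apply, Pi.smul_apply, Matrix.sum_apply, Matrix.smul_apply, smul_eq_mul]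
    conv_lhs => rw [← b.sum_repr (c σ i j)]
    refine Finset.sum_congr rfl fun l _ => ?_
    rw [Algebra.smul_def, mul_comm]
    rfl
  rw [e]
  refine Submodule.sum_mem _ fun i _ => Submodule.smul_mem _ _ ?_
  have h1 := Submodule.apply_mem_span_image_of_mem_span L (hs' _ (isCocycle_coord hc (b.coord i))
    (flat_coord hP hf (b.coord i) fun a => ⟨a • b i, by simp⟩))
  rw [Finset.coe_image]
  exact Submodule.span_le_restrictScalars (ZMod p) k _ h1

end FLTAgent.FlatLocal
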