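import Fermat.Agent.FlatLocal.Quotient
import Mathlib.Algebra.Group.ForwardDiff

/-!
# The distance to the origin in a lattice of functions, Fontaine's bound

`dist` is the largest value of `f w - f 0` over the lattice. Two points whose values on the lattice
are congruent modulo more than `p ^ (1/(p-1))` are equal.
-/

set_option autoImplicit false
set_option linter.style.haveILetI false
set_option linter.unusedSectionVars false

noncomputable section

open scoped Pointwise
open IsLocalRing

namespace FLTAgent.FlatLocal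

local notation "QQb" => AlgebraicClosure ℚ
local notation "GG" => (AlgebraicClosure ℚ ≃ₐ[ℚ] AlgebraicClosure ℚ)

variable {P : ValuationSubring (AlgebraicClosure ℚ)} {p : ℕ}
variable {W : Type*} [AddCommGroup W] [Module (ZMod p) W]

/-- The distance of a point from the origin. -/
def dist (P : ValuationSubring (AlgebraicClosure ℚ)) (S : Finset (W → AlgebraicClosure ℚ))
    (w : W) : P.ValueGroup :=
  S.sup fun f => P.valuation (f w - f 0)

variable {act : Dec P → Module.End (ZMod p) W} {S : Finset (W → QQb)}

theorem dist_zero : dist P S (0 : W) = 0 :=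
  le_antisymm (Finset.sup_le fun f _ => by rw [sub_self, map_zero]) zero_le

theorem val_sub_le_dist {f : W → QQb} (hf : f ∈ S) (w : W) :
    P.valuation (f w - f 0) ≤ dist P S w :=
  Finset.le_sup (f := fun f => P.valuation (f w - f 0)) hf

theorem exists_eq_dist (hne : S.Nonempty) (w : W) :
    ∃ f ∈ S, P.valuation (f w - f 0) = dist P S w := by
  obtain ⟨f, hf, e⟩ := Finset.exists_mem_eq_sup S hne fun f => P.valuation (f w - f 0)
  exact ⟨f, hf, e.symm⟩

/-- A bound on the values at a point passes to the span. -/
theorem val_span_le {α : Type*} {T : Set (α → QQb)} {f : α → QQb}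
    (hf : f ∈ Submodule.span (Rnr P) T) {a b : α} {c : P.ValueGroup}
    (h : ∀ g ∈ T, P.valuation (g a - g b) ≤ c) : P.valuation (f a - f b) ≤ c := by
  induction hf using Submodule.span_induction with
  | mem g hg => exact h g hg
  | zero => simp
  | add g g' _ _ hg hg' =>
    rw [Pi.add_apply, Pi.add_apply, add_sub_add_comm]
    exact (P.valuation.map_add _ _).trans (max_le hg hg')
  | smul r g _ hg =>
    rw [Pi.smul_apply, Pi.smul_apply, Rnr_smul_def, Rnr_smul_def, ← mul_sub, map_mul]
    exact (mul_le_of_le_one_left' (val_le_one_of_mem r.2.1)).trans hg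

/-- A bound on the values passes to the span. -/
theorem val_span_apply_le {α : Type*} {T : Set (α → QQb)} {f : α → QQb}
    (hf : f ∈ Submodule.span (Rnr P) T) {c : P.ValueGroup} (L : (α → QQb) →ₗ[Rnr P] QQb)
    (h : ∀ g ∈ T, P.valuation (L g) ≤ c) : P.valuation (L f) ≤ c := by
  induction hf using Submodule.span_induction with
  | mem g hg => exact h g hg
  | zero => simp
  | add g g' _ _ hg hg' =>
    rw [map_add]
    exact (P.valuation.map_add _ _).trans (max_le hg hg')
  | smul r g _ hg =>
    rw [map_smul, Rnr_smul_def, map_mul]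
    exact (mul_le_of_le_one_left' (val_le_one_of_mem r.2.1)).trans hg

namespace IsLattice

variable (h : IsLattice act S)

include h

theorem nonempty : S.Nonempty := by
  rw [Finset.nonempty_iff_ne_empty]
  intro he
  have h1 := h.one
  rw [he, Finset.coe_empty, Submodule.span_empty, Submodule.mem_bot] at h1
  exact one_ne_zero (congrFun h1 0)

theorem val_sub_le_dist' {f : W → QQb} (hf : f ∈ Submodule.span (Rnr P) (S : Set (W → QQb)))
    (w : W) : P.valuation (f w - f 0) ≤ dist P S w :=
  val_span_le hf fun _ hg => val_sub_le_dist hg w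

theorem dist_le_one (w : W) : dist P S w ≤ 1 :=
  Finset.sup_le fun f hf => val_le_one_of_mem (sub_mem (h.int f hf w) (h.int f hf 0))

theorem eq_zero_of_dist [Finite W] {w : W} (hw : dist P S w = 0) : w = 0 := by
  classical
  by_contra hne
  let L : (W → QQb) →ₗ[QQb] QQb :=
    LinearMap.proj (R := QQb) (φ := fun _ : W => QQb) w -
      LinearMap.proj (R := QQb) (φ := fun _ : W => QQb) 0
  have h1 : (Pi.single w 1 : W → QQb) ∈ Submodule.span QQb (S : Set (W → QQb)) := by
    rw [h.full]; trivial
  have h2 : Submodule.span QQb (S : Set (W → QQb)) ≤ LinearMap.ker L :=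
    Submodule.span_le.2 fun f hf => by
      have h3 := val_sub_le_dist (P := P) hf w
      rw [hw, le_zero_iff, Valuation.zero_iff] at h3
      exact h3
  have h3 : (Pi.single w (1 : QQb) : W → QQb) w - (Pi.single w (1 : QQb) : W → QQb) 0 = 0 := h2 h1
  rw [Pi.single_eq_same, Pi.single_eq_of_ne (Ne.symm hne), sub_zero] at h3
  exact one_ne_zero h3

theorem val_translate_le {f : W → QQb} (hf : f ∈ Submodule.span (Rnr P) (S : Set (W → QQb)))
    (y w : W) : P.valuation (f (y + w) - f y) ≤ dist P S w := by
  have h1 := val_span_le (h.trans' hf) (a := (y, w)) (b := (y, 0)) (c := dist P S w) ?_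
  · simpa using h1
  rintro _ ⟨a, ha, b, hb, rfl⟩
  show P.valuation (a y * b w - a y * b 0) ≤ _
  rw [← mul_sub, map_mul]
  exact (mul_le_of_le_one_left' (val_le_one_of_mem (h.int a ha y))).trans (val_sub_le_dist hb w)

theorem dist_add_le (u w : W) : dist P S (u + w) ≤ max (dist P S u) (dist P S w) := by
  refine Finset.sup_le fun f hf => ?_
  rw [← sub_add_sub_cancel (f (u + w)) (f u) (f 0), max_comm]
  exact (P.valuation.map_add _ _).trans
    (max_le_max (h.val_translate_le (Submodule.subset_span hf) u w) (val_sub_le_dist hf u))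

/-- The translation identity: the second difference is bilinear. -/
theorem val_second_le {f : W → QQb} (hf : f ∈ Submodule.span (Rnr P) (S : Set (W → QQb)))
    (u w : W) : P.valuation (f (u + w) - f u - f w + f 0) ≤ dist P S u * dist P S w := by
  let L : (W × W → QQb) →ₗ[Rnr P] QQb :=
    { toFun := fun F => F (u, w) - F (u, 0) - F (0, w) + F (0, 0)
      map_add' := fun F G => by simp only [Pi.add_apply]; ring
      map_smul' := fun c F => by simp only [Pi.smul_apply, Rnr_smul_def, RingHom.id_apply]; ring }
  have h1 := val_span_apply_le (h.trans' hf) (c := dist P S u * dist P S w) L ?_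
  · simpa [L] using h1
  rintro _ ⟨a, ha, b, hb, rfl⟩
  show P.valuation (a u * b w - a u * b 0 - a 0 * b w + a 0 * b 0) ≤ _
  rw [show a u * b w - a u * b 0 - a 0 * b w + a 0 * b 0 = (a u - a 0) * (b w - b 0) by ring,
    map_mul]
  exact mul_le_mul' (val_sub_le_dist ha u) (val_sub_le_dist hb w)

theorem dist_nsmul_le (n : ℕ) (w : W) : dist P S (n • w) ≤ dist P S w := by
  induction n with
  | zero => rw [zero_smul, dist_zero]; exact zero_le
  | succ n ih => rw [succ_nsmul]; exact (h.dist_add_le _ _).trans (max_le ih le_rfl)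

theorem dist_smul_le [NeZero p] (r : ZMod p) (w : W) : dist P S (r • w) ≤ dist P S w := by
  rw [← ZMod.natCast_zmod_val r, Nat.cast_smul_eq_nsmul]
  exact h.dist_nsmul_le _ w

theorem dist_neg [NeZero p] (w : W) : dist P S (-w) = dist P S w := by
  refine le_antisymm ?_ ?_
  · rw [← neg_one_smul (ZMod p) w]
    exact h.dist_smul_le _ w
  · conv_lhs => rw [show w = (-1 : ZMod p) • (-w) by rw [neg_one_smul, neg_neg]]
    exact h.dist_smul_le _ _

theorem dist_act {σ : Dec P} (hσ : IsIne P σ) (w : W) : dist P S (act σ w) = dist P S w := by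
  refine Finset.sup_congr rfl fun f hf => ?_
  have e : f (act σ w) - f 0 = (σ : GG) (f w - f 0) := by
    rw [map_sub (σ : GG), ← h.equiv f hf σ hσ w, ← h.equiv f hf σ hσ 0, map_zero]
  rw [e, val_map]

/-- Some lattice function detects the translation by `w` at any point. -/
theorem exists_translate_eq [NeZero p] (y w : W) :
    ∃ f ∈ S, dist P S w ≤ P.valuation (f (y + w) - f y) := by
  by_contra hall
  push Not at hall
  obtain ⟨f, hf, hfw⟩ := exists_eq_dist (P := P) h.nonempty w
  obtain ⟨g, hg, hmax⟩ :=
    S.exists_max_image (fun g => P.valuation (g (y + w) - g y)) h.nonempty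
  have h1 := val_span_le (h.trans' (Submodule.subset_span hf)) (a := (y + w, -y)) (b := (y, -y))
    (c := P.valuation (g (y + w) - g y)) ?_
  · simp only [add_neg_cancel_comm, add_neg_cancel] at h1
    exact absurd (h1.trans_lt (hall g hg)) (by rw [hfw]; exact lt_irrefl _)
  rintro _ ⟨a, ha, b, hb, rfl⟩
  show P.valuation (a (y + w) * b (-y) - a y * b (-y)) ≤ _
  rw [← sub_mul, map_mul]
  exact (mul_le_of_le_one_right' (val_le_one_of_mem (h.int b hb _))).trans (hmax a ha)

/-- The connected part. -/
def conn [NeZero p] : Submodule (ZMod p) W where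
  carrier := {w | dist P S w < 1}
  zero_mem' := by show dist P S (0 : W) < 1; rw [dist_zero]; exact zero_lt_one
  add_mem' := fun {u w} hu hw => (h.dist_add_le u w).trans_lt (max_lt hu hw)
  smul_mem' := fun r w hw => (h.dist_smul_le r w).trans_lt hw

theorem mem_conn [NeZero p] {w : W} : w ∈ h.conn ↔ dist P S w < 1 := Iff.rfl

/-- Inertia moves every point inside the connected part. -/
theorem dist_act_sub_lt [NeZero p] {σ : Dec P} (hσ : IsIne P σ) (w : W) :
    dist P S (act σ w - w) < 1 := by
  obtain ⟨f, hf, hle⟩ := h.exists_translate_eq w (act σ w - w)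
  refine hle.trans_lt ?_
  rw [add_sub_cancel, h.equiv f hf σ hσ w]
  exact hσ.val_sub_lt_one (h.int f hf w)

/-- Iterated differences. -/
theorem val_fwdDiff_le (k : ℕ) {f : W → QQb} (hf : f ∈ Submodule.span (Rnr P) (S : Set (W → QQb)))
    (w y : W) : P.valuation ((fwdDiff w)^[k] f y) ≤ dist P S w ^ k := by
  induction k generalizing f with
  | zero => simpa using val_le_one_of_mem (h.int' hf y)
  | succ k ih =>
    rw [Function.iterate_succ_apply]
    let L : (W × W → QQb) →ₗ[Rnr P] QQb :=
      { toFun := fun F => (fwdDiff w)^[k] (fun u => F (u, w) - F (u, 0)) y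
        map_add' := fun F G => by
          rw [show (fun u => (F + G) (u, w) - (F + G) (u, 0)) =
              (fun u => F (u, w) - F (u, 0)) + (fun u => G (u, w) - G (u, 0)) from
            funext fun u => by simp only [Pi.add_apply]; ring, fwdDiff_iter_add, Pi.add_apply]
        map_smul' := fun c F => by
          rw [show (fun u => (c • F) (u, w) - (c • F) (u, 0)) =
              (c : QQb) • (fun u => F (u, w) - F (u, 0)) from
            funext fun u => by simp only [Pi.smul_apply, Rnr_smul_def, smul_eq_mul]; ring,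
            fwdDiff_iter_const_smul, Pi.smul_apply]
          rfl }
    have e : fwdDiff w f = fun u => (fun x : W × W => f (x.1 + x.2)) (u, w) -
        (fun x : W × W => f (x.1 + x.2)) (u, 0) := funext fun u => by simp [fwdDiff]
    rw [e]
    refine val_span_apply_le (h.trans' hf) (c := dist P S w ^ (k + 1)) L ?_
    rintro _ ⟨a, ha, b, hb, rfl⟩
    show P.valuation ((fwdDiff w)^[k] (fun u => a u * b w - a u * b 0) y) ≤ _
    rw [show (fun u => a u * b w - a u * b 0) = (b w - b 0) • a from
      funext fun u => by simp only [Pi.smul_apply, smul_eq_mul]; ring, fwdDiff_iter_const_smul,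
      Pi.smul_apply, smul_eq_mul, map_mul, pow_succ']
    exact mul_le_mul' (val_sub_le_dist hb w) (ih (Submodule.subset_span ha))

/-- **Fontaine's bound.** -/
theorem eq_zero_of_dist_pow [hp : Fact p.Prime] [Finite W] (hP : P.LiesOverPrime p) {w : W}
    (hlt : dist P S w ^ (p - 1) < P.valuation (p : QQb)) : w = 0 := by
  classical
  refine h.eq_zero_of_dist ?_
  by_contra h0
  set d := dist P S w with hd
  have hdpos : 0 < d := zero_lt_iff.2 h0
  have hp2 := hp.out.two_le
  have hd1 : d < 1 := by
    by_contra h1
    exact absurd ((one_le_pow₀ (not_lt.1 h1)).trans hlt.le) (not_le.2 (val_p_lt_one hP))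
  obtain ⟨f, hf, hfd⟩ := exists_eq_dist (P := P) h.nonempty w
  have hpw : p • w = 0 := by
    rw [← Nat.cast_smul_eq_nsmul (ZMod p), ZMod.natCast_self, zero_smul]
  have e1 := shift_eq_sum_fwdDiff_iter w f p (0 : W)
  rw [zero_add, hpw, Finset.sum_range_succ'] at e1
  simp only [nsmul_eq_mul, Nat.choose_zero_right, Nat.cast_one, one_mul, Function.iterate_zero,
    id_eq] at e1
  have h1 : ∑ k ∈ Finset.range p, (p.choose (k + 1) : QQb) * (fwdDiff w)^[k + 1] f 0 = 0 :=
    add_eq_right.1 e1.symm
  have hmain : P.valuation ((p.choose (0 + 1) : QQb) * (fwdDiff w)^[0 + 1] f 0) =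
      P.valuation (p : QQb) * d := by
    simp [fwdDiff, hfd, hd]
  have hrest : ∀ k ∈ (Finset.range p).erase 0,
      P.valuation ((p.choose (k + 1) : QQb) * (fwdDiff w)^[k + 1] f 0) < P.valuation (p : QQb) * d := by
    intro k hk
    obtain ⟨hk0, hkr⟩ := Finset.mem_erase.1 hk
    have hkp := Finset.mem_range.1 hkr
    have hΔ := h.val_fwdDiff_le (k + 1) (Submodule.subset_span hf) w 0
    rw [map_mul]
    rcases lt_or_eq_of_le (Nat.succ_le_of_lt hkp) with hlt' | heq
    · obtain ⟨c, hc⟩ := hp.out.dvd_choose_self (Nat.succ_ne_zero k) hlt'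
      rw [Nat.succ_eq_add_one] at hc
      rw [hc, Nat.cast_mul, map_mul, mul_assoc]
      refine mul_lt_mul_of_pos_left ?_ (val_p_pos hP)
      refine (mul_le_of_le_one_left' (val_le_one_of_mem (natCast_mem P c))).trans_lt ?_
      exact hΔ.trans_lt (pow_lt_self_of_lt_one₀ hdpos hd1 (by omega))
    · rw [Nat.succ_eq_add_one] at heq
      rw [heq] at hΔ ⊢
      rw [Nat.choose_self, Nat.cast_one, map_one, one_mul]
      refine hΔ.trans_lt ?_
      conv_lhs => rw [show p = (p - 1) + 1 by omega, pow_succ]
      exact mul_lt_mul_of_pos_right hlt hdpos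
  rw [← Finset.add_sum_erase _ _ (Finset.mem_range.2 hp.out.pos)] at h1
  have h2 := P.valuation.map_sum_lt (mul_ne_zero (val_p_pos hP).ne' hdpos.ne') hrest
  rw [eq_neg_of_add_eq_zero_left h1, Valuation.map_neg] at hmain
  exact h2.ne hmain

/-- **Fontaine's bound**, for two points. -/
theorem eq_of_congr [hp : Fact p.Prime] [Finite W] (hP : P.LiesOverPrime p) {x y : W}
    (hlt : ∀ f ∈ S, P.valuation (f x - f y) ^ (p - 1) < P.valuation (p : QQb)) : x = y := by
  obtain ⟨f, hf, hle⟩ := h.exists_translate_eq y (x - y)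
  rw [add_sub_cancel] at hle
  exact sub_eq_zero.1 (h.eq_zero_of_dist_pow hP ((pow_le_pow_left₀ zero_le hle _).trans_lt (hlt f hf)))

end IsLattice

end FLTAgent.FlatLocal
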