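import Fermat.Agent.FlatLocal.Dist

/-!
# The Cartier dual lattice
-/

set_option autoImplicit false
set_option linter.style.haveILetI false
set_option linter.unusedSectionVars false

noncomputable section

open scoped Pointwise
open IsLocalRing

namespace FLTAgent.FlatLocal

local notation "QQb" => AlgebraicClosure ℚ
local notation "GG" => (AlgebraicClosure ℚ ≃ₐ[ℚ] AlgebraicClosure ℚ)

variable {P : ValuationSubring (AlgebraicClosure ℚ)} {p : ℕ} [hp : Fact p.Prime]
  {ζ : AlgebraicClosure ℚ}

/-- The cyclotomic character on the decomposition group. -/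
def omega (ζ : AlgebraicClosure ℚ) (σ : Dec P) : ZMod p := Mazur.expChar p ζ (σ : GG)

theorem omega_spec (hζ : IsPrimitiveRoot ζ p) (σ : Dec P) :
    (σ : GG) ζ = ζ ^ (omega (p := p) ζ σ).val :=
  Mazur.isExp_expChar hζ (σ : GG)

theorem omega_mul (hζ : IsPrimitiveRoot ζ p) (σ τ : Dec P) :
    omega (p := p) ζ (σ * τ) = omega ζ σ * omega ζ τ := by
  refine Mazur.zpowZMod_injective hζ ?_
  rw [← omega_spec hζ, Mazur.zpowZMod_mul hζ, ← omega_spec hζ σ, ← map_pow, ← omega_spec hζ τ]
  rfl

theorem omega_one (hζ : IsPrimitiveRoot ζ p) : omega (p := p) ζ (1 : Dec P) = 1 := by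
  refine Mazur.zpowZMod_injective hζ ?_
  rw [← omega_spec hζ, ZMod.val_one, pow_one]
  rfl

theorem omega_ne_zero (hζ : IsPrimitiveRoot ζ p) (σ : Dec P) : omega (p := p) ζ σ ≠ 0 := fun e => by
  have h := omega_mul (p := p) hζ σ σ⁻¹
  rw [mul_inv_cancel, omega_one hζ, e, zero_mul] at h
  exact one_ne_zero h

theorem omega_eq_one_of_fix (hζ : IsPrimitiveRoot ζ p) {σ : Dec P} (h : (σ : GG) ζ = ζ) :
    omega (p := p) ζ σ = 1 := by
  refine Mazur.zpowZMod_injective hζ ?_
  rw [← omega_spec hζ, ZMod.val_one, pow_one]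
  exact h

variable {W : Type*} [AddCommGroup W] [Module (ZMod p) W]

/-- The Cartier dual representation. -/
def dualAct (hζ : IsPrimitiveRoot ζ p) (act : Dec P →* Module.End (ZMod p) W) :
    Dec P →* Module.End (ZMod p) (Module.Dual (ZMod p) W) where
  toFun σ := omega (p := p) ζ σ • (act σ⁻¹).dualMap
  map_one' := by
    rw [omega_one hζ, inv_one, map_one, one_smul]
    exact LinearMap.ext fun l => LinearMap.ext fun w => rfl
  map_mul' σ τ := by
    refine LinearMap.ext fun l => LinearMap.ext fun w => ?_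
    rw [omega_mul hζ, mul_inv_rev, map_mul]
    show omega ζ σ * omega ζ τ * l (act τ⁻¹ (act σ⁻¹ w)) =
      omega ζ σ * (omega ζ τ * l (act τ⁻¹ (act σ⁻¹ w)))
    rw [mul_assoc]

theorem dualAct_apply (hζ : IsPrimitiveRoot ζ p) (act : Dec P →* Module.End (ZMod p) W)
    (σ : Dec P) (l : Module.Dual (ZMod p) W) (w : W) :
    dualAct hζ act σ l w = omega ζ σ * l (act σ⁻¹ w) := rfl

/-- The character of a functional. -/
def chi (ζ : AlgebraicClosure ℚ) (l : Module.Dual (ZMod p) W) (w : W) : AlgebraicClosure ℚ :=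
  ζ ^ (l w).val

theorem chi_add (hζ : IsPrimitiveRoot ζ p) (l : Module.Dual (ZMod p) W) (u w : W) :
    chi ζ l (u + w) = chi ζ l u * chi ζ l w := by
  rw [chi, map_add, Mazur.zpowZMod_add hζ]; rfl

theorem chi_add_left (hζ : IsPrimitiveRoot ζ p) (l m : Module.Dual (ZMod p) W) :
    chi ζ (l + m) = chi ζ l * chi ζ m := by
  funext w
  rw [chi, LinearMap.add_apply, Mazur.zpowZMod_add hζ]; rfl

theorem finite_dual [Finite W] : Finite (Module.Dual (ZMod p) W) :=
  Finite.of_injective (fun l => (l : W → ZMod p)) DFunLike.coe_injective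

theorem natCard_dual [Finite W] : Nat.card (Module.Dual (ZMod p) W) = Nat.card W := by
  haveI : Module.Finite (ZMod p) W := Module.Finite.of_finite
  haveI := finite_dual (p := p) (W := W)
  rw [Module.natCard_eq_pow_finrank (K := ZMod p), Module.natCard_eq_pow_finrank (K := ZMod p) (V := W),
    Subspace.dual_finrank_eq]

theorem span_chi [Finite W] (hζ : IsPrimitiveRoot ζ p) :
    Submodule.span QQb (Set.range fun l : Module.Dual (ZMod p) W => chi ζ l) = ⊤ := by
  classical
  haveI := finite_dual (p := p) (W := W)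
  cases nonempty_fintype W
  cases nonempty_fintype (Module.Dual (ZMod p) W)
  let χ : Module.Dual (ZMod p) W → (Multiplicative W →* QQb) := fun l =>
    { toFun := fun w => chi ζ l w.toAdd
      map_one' := by simp [chi]
      map_mul' := fun u w => chi_add hζ l u.toAdd w.toAdd }
  have hinj : Function.Injective χ := fun l m e => LinearMap.ext fun w =>
    Mazur.zpowZMod_injective hζ (DFunLike.congr_fun e (Multiplicative.ofAdd w))
  have hli : LinearIndependent QQb fun l : Module.Dual (ZMod p) W => chi ζ l :=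
    (linearIndependent_monoidHom (Multiplicative W) QQb).comp χ hinj
  refine hli.span_eq_top_of_card_eq_finrank' ?_
  rw [Module.finrank_pi, ← Nat.card_eq_fintype_card, ← Nat.card_eq_fintype_card, natCard_dual]

variable {act : Dec P →* Module.End (ZMod p) W} {S : Finset (W → QQb)}

/-- **The Cartier dual of a lattice**, and the pairing of the distances. -/
theorem IsLattice.exists_dual [Finite W] (hP : P.LiesOverPrime p) (hζ : IsPrimitiveRoot ζ p)
    (h : IsLattice act S) :
    ∃ T : Finset (Module.Dual (ZMod p) W → QQb), IsLattice (dualAct hζ act) T ∧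
      ∀ l, ∃ γ : (W → QQb) → QQb, (∀ f ∈ S, P.valuation (γ f) ≤ dist P T l) ∧
        ∀ w, chi ζ l w - 1 = ∑ f ∈ S, γ f * (f w - f 0) := by
  classical
  haveI := finite_dual (p := p) (W := W)
  cases nonempty_fintype W
  cases nonempty_fintype (Module.Dual (ZMod p) W)
  obtain ⟨n, b, T₀, hTb, hT, hTS⟩ := h.exists_basis hP
  have hb : ∀ i, b i ∈ T₀ := fun i => Finset.mem_coe.1 (hTb ▸ ⟨i, rfl⟩)
  -- the structure constants
  have hd : ∀ i, ∃ d : Fin n × Fin n → Rnr P, ∀ u w,
      b i (u + w) = ∑ x : Fin n × Fin n, (d x : QQb) * (b x.1 u * b x.2 w) := by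
    intro i
    have h1 := hT.trans (b i) (hb i)
    rw [hTb, Set.image2_range] at h1
    obtain ⟨d, hd⟩ := (Submodule.mem_span_range_iff_exists_fun _).1 h1
    refine ⟨d, fun u w => ?_⟩
    have h2 := congrFun hd (u, w)
    simpa [tens, Rnr_smul_def] using h2.symm
  have hm : ∀ x : Fin n × Fin n, ∃ m : Fin n → Rnr P, ∀ w,
      b x.1 w * b x.2 w = ∑ i, (m i : QQb) * b i w := by
    intro x
    have h1 := hT.mul (b x.1) (hb x.1) (b x.2) (hb x.2)
    rw [hTb] at h1
    obtain ⟨m, hm⟩ := (Submodule.mem_span_range_iff_exists_fun _).1 h1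
    refine ⟨m, fun w => ?_⟩
    simpa [Rnr_smul_def] using (congrFun hm w).symm
  choose d hd using hd
  choose m hm using hm
  -- the coordinates of the characters
  set c : Fin n → Module.Dual (ZMod p) W → QQb := fun i l => b.repr (chi ζ l) i with hc
  have hexp : ∀ l w, chi ζ l w = ∑ i, c i l * b i w := fun l w => by
    conv_lhs => rw [← b.sum_repr (chi ζ l)]
    simp [hc]
  have huniq : ∀ a : Fin n → QQb, (∀ w, ∑ i, a i * b i w = 0) → ∀ i, a i = 0 := by
    intro a ha
    refine Fintype.linearIndependent_iff.1 b.linearIndependent a (funext fun w => ?_)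
    simpa using ha w
  have hcomul : ∀ l (j k : Fin n), c j l * c k l = ∑ i, c i l * (d i (j, k) : QQb) := by
    intro l j k
    have h1 : ∀ u w, ∑ j, (∑ k, (c j l * c k l - ∑ i, c i l * (d i (j, k) : QQb)) * b k w) * b j u
        = 0 := by
      intro u w
      have e1 := chi_add hζ l u w
      rw [hexp, hexp l u, hexp l w] at e1
      simp only [hd, Fintype.sum_prod_type] at e1
      simp only [sub_mul, Finset.sum_sub_distrib, Finset.sum_mul, sub_eq_zero]
      rw [Finset.sum_mul_sum] at e1
      refine Eq.trans (Eq.trans ?_ e1.symm) ?_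
      · exact Finset.sum_congr rfl fun j _ => Finset.sum_congr rfl fun k _ => by ring
      · simp only [Finset.mul_sum]
        rw [Finset.sum_comm]
        refine Finset.sum_congr rfl fun j _ => ?_
        rw [Finset.sum_comm]
        exact Finset.sum_congr rfl fun k _ => Finset.sum_congr rfl fun i _ => by ring
    exact sub_eq_zero.1 (huniq _ (fun w => huniq _ (fun u => h1 u w) j) k)
  have hint : ∀ i l, c i l ∈ P := by
    intro i l
    refine mem_of_val_le_one ?_
    obtain ⟨j, -, hj⟩ := Finset.exists_max_image Finset.univ (fun i => P.valuation (c i l))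
      ⟨i, Finset.mem_univ i⟩
    refine (hj i (Finset.mem_univ i)).trans (not_lt.1 fun h1 => ?_)
    have h2 : P.valuation (c j l) * P.valuation (c j l) ≤ P.valuation (c j l) := by
      rw [← map_mul, hcomul l j j]
      refine P.valuation.map_sum_le fun i _ => ?_
      rw [map_mul]
      exact (mul_le_of_le_one_right' (val_le_one_of_mem (d i (j, j)).2.1)).trans
        (hj i (Finset.mem_univ i))
    exact absurd h2 (not_le.2 (lt_mul_of_one_lt_left (zero_lt_one.trans h1) h1))
  have hequiv : ∀ i σ, IsIne P σ → ∀ l, c i (dualAct hζ act σ l) = (σ : GG) (c i l) := by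
    intro i σ hσ l
    refine sub_eq_zero.1 (huniq (fun i => c i (dualAct hζ act σ l) - (σ : GG) (c i l)) (fun w => ?_) i)
    simp only [sub_mul, Finset.sum_sub_distrib]
    rw [← hexp, sub_eq_zero]
    have e : ∀ i, (σ : GG) (c i l) * b i w = (σ : GG) (c i l * b i (act σ⁻¹ w)) := fun i => by
      rw [map_mul, ← hT.equiv (b i) (hb i) σ hσ, act_inv_apply]
    rw [Finset.sum_congr rfl fun i _ => e i, ← map_sum, ← hexp, chi, chi, dualAct_apply, map_pow,
      omega_spec hζ σ, Mazur.zpowZMod_mul hζ]
  have hcli : LinearIndependent QQb c := by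
    rw [Fintype.linearIndependent_iff]
    intro a ha
    have h1 : b.constr QQb a = 0 := LinearMap.ext_on_range (span_chi (p := p) (W := W) hζ) fun l => by
      have h2 := congrFun ha l
      simp only [Finset.sum_apply, Pi.smul_apply, smul_eq_mul, Pi.zero_apply] at h2
      rw [Module.Basis.constr_apply_fintype, LinearMap.zero_apply, ← h2]
      exact Finset.sum_congr rfl fun i _ => mul_comm _ _
    intro i
    have h2 := LinearMap.congr_fun h1 (b i)
    rwa [b.constr_basis, LinearMap.zero_apply] at h2
  have hn : Fintype.card (Fin n) = Module.finrank QQb (Module.Dual (ZMod p) W → QQb) := by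
    rw [← Module.finrank_eq_card_basis b, Module.finrank_pi, Module.finrank_pi,
      ← Nat.card_eq_fintype_card, ← Nat.card_eq_fintype_card, natCard_dual]
  have hcT : ((Finset.univ.image c : Finset _) : Set (Module.Dual (ZMod p) W → QQb)) = Set.range c := by
    simp
  refine ⟨Finset.univ.image c, ⟨fun σ _ => act_injective _ σ, ?_, ?_, ?_, ?_, ?_, ?_⟩, ?_⟩
  · simp only [Finset.forall_mem_image]; exact fun i _ l => hint i l
  · simp only [Finset.forall_mem_image]; exact fun i _ σ hσ l => hequiv i σ hσ l
  · rw [hcT]; exact hcli.span_eq_top_of_card_eq_finrank' hn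
  · rw [hcT, Submodule.mem_span_range_iff_exists_fun]
    refine ⟨fun i => ⟨b i 0, mem_Rnr.2 ⟨hT.int _ (hb i) 0, fun σ hσ => ?_⟩⟩, funext fun l => ?_⟩
    · rw [← hT.equiv _ (hb i) σ hσ, map_zero]
    · have h1 := hexp l 0
      rw [chi, map_zero, ZMod.val_zero, pow_zero] at h1
      simp only [Finset.sum_apply, Pi.smul_apply, Rnr_smul_def, Pi.one_apply]
      rw [h1]
      exact Finset.sum_congr rfl fun i _ => mul_comm _ _
  · simp only [Finset.forall_mem_image]
    intro j _ k _
    rw [hcT, Submodule.mem_span_range_iff_exists_fun]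
    refine ⟨fun i => d i (j, k), funext fun l => ?_⟩
    simp only [Finset.sum_apply, Pi.smul_apply, Rnr_smul_def, Pi.mul_apply, hcomul]
    exact Finset.sum_congr rfl fun i _ => mul_comm _ _
  · simp only [Finset.forall_mem_image]
    intro i _
    rw [hcT, Set.image2_range, Submodule.mem_span_range_iff_exists_fun]
    refine ⟨fun x => m x i, funext fun y => ?_⟩
    obtain ⟨l, l'⟩ := y
    simp only [Finset.sum_apply, Pi.smul_apply, Rnr_smul_def, tens]
    refine (sub_eq_zero.1 (huniq (fun i => c i (l + l') -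
      ∑ x : Fin n × Fin n, (m x i : QQb) * (c x.1 l * c x.2 l')) (fun w => ?_) i)).symm
    simp only [sub_mul, Finset.sum_sub_distrib, sub_eq_zero]
    rw [← hexp, chi_add_left hζ, Pi.mul_apply, hexp, hexp, Finset.sum_mul_sum,
      ← Fintype.sum_prod_type' (f := fun a a' => c a l * b a w * (c a' l' * b a' w))]
    simp only [Finset.sum_mul]
    rw [Finset.sum_comm]
    refine Finset.sum_congr rfl fun x _ => ?_
    rw [show c x.1 l * b x.1 w * (c x.2 l' * b x.2 w) = c x.1 l * c x.2 l' * (b x.1 w * b x.2 w) by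
      ring, hm, Finset.mul_sum]
    exact Finset.sum_congr rfl fun i _ => by ring
  · intro l
    have hr : ∀ i, ∃ r : (W → QQb) → Rnr P, ∀ w, b i w = ∑ f ∈ S, (r f : QQb) * f w := fun i => by
      obtain ⟨r, -, hr⟩ := Submodule.mem_span_finset.1
        (hTS ▸ Submodule.subset_span (hb i) : b i ∈ Submodule.span (Rnr P) (S : Set (W → QQb)))
      exact ⟨r, fun w => by rw [← hr]; simp [Rnr_smul_def]⟩
    choose r hr using hr
    refine ⟨fun f => ∑ i, (c i l - c i 0) * (r i f : QQb), fun f hf => ?_, fun w => ?_⟩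
    · refine P.valuation.map_sum_le fun i _ => ?_
      rw [map_mul]
      exact (mul_le_of_le_one_right' (val_le_one_of_mem (r i f).2.1)).trans
        (val_sub_le_dist (Finset.mem_image_of_mem c (Finset.mem_univ i)) l)
    · have h0 : ∀ w, ∑ i, c i 0 * b i w = 1 := fun w => by rw [← hexp]; simp [chi]
      have h1 : chi ζ l w - 1 = ∑ i, (c i l - c i 0) * (b i w - b i 0) := by
        simp only [sub_mul, mul_sub, Finset.sum_sub_distrib, ← hexp, h0]
        simp [chi]
      rw [h1]
      simp only [Finset.sum_mul]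
      rw [Finset.sum_comm]
      refine Finset.sum_congr rfl fun i _ => ?_
      rw [hr i w, hr i 0, ← Finset.sum_sub_distrib, Finset.mul_sum]
      exact Finset.sum_congr rfl fun f _ => by ring

end FLTAgent.FlatLocal
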