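import Fermat.Agent.FlatLocal.Basic

/-!
# Generation of the decomposition group, wild inertia
-/

set_option autoImplicit false
set_option linter.style.haveILetI false
set_option linter.unusedSectionVars false

noncomputable section

open scoped Pointwise
open IsLocalRing

namespace FLTAgent.FlatLocal

local notation "QQb" => AlgebraicClosure ℚ
local notation "GG" => (AlgebraicClosure ℚ ≃ₐ[ℚ] AlgebraicClosure ℚ)

local instance (priority := 2000) algLevel' (L : IntermediateField ℚ (AlgebraicClosure ℚ)) :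
    Algebra ℚ L := L.algebra'

variable {P : ValuationSubring (AlgebraicClosure ℚ)}

/-- The residue action as an automorphism over the prime field. -/
def resEquiv {p : ℕ} [Algebra (ZMod p) (ResidueField P)] (σ : Dec P) :
    ResidueField P ≃ₐ[ZMod p] ResidueField P :=
  AlgEquiv.ofRingEquiv (f := MulSemiringAction.toRingEquiv (Dec P) (ResidueField P) σ) fun a => by
    obtain ⟨n, rfl⟩ := ZMod.intCast_surjective a
    simp

theorem resEquiv_apply {p : ℕ} [Algebra (ZMod p) (ResidueField P)] (σ : Dec P)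
    (z : ResidueField P) : resEquiv (p := p) σ z = σ • z := rfl

theorem pow_smul_residue {p : ℕ} {φ : Dec P} (hφ : ∀ z : ResidueField P, φ • z = z ^ p) (k : ℕ)
    (z : ResidueField P) : φ ^ k • z = z ^ p ^ k := by
  induction k with
  | zero => simp
  | succ k ih => rw [pow_succ', mul_smul, ih, hφ, ← pow_mul, ← pow_succ]

/-- Any element agrees on a finite set of residues with a power of Frobenius. -/
theorem exists_pow_eq_on {p : ℕ} [hp : Fact p.Prime] (hP : P.LiesOverPrime p) (σ : Dec P)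
    (s : Finset (ResidueField P)) : ∃ k : ℕ, ∀ z ∈ s, σ • z = z ^ p ^ k := by
  classical
  haveI := FrobTrace.charP_residueField hP
  letI := ZMod.algebra (ResidueField P) p
  haveI : Algebra.IsAlgebraic (ZMod p) (ResidueField P) := FrobTrace.isAlgebraic_residueField hP
  let E : IntermediateField (ZMod p) (ResidueField P) := IntermediateField.adjoin (ZMod p) (s : Set _)
  haveI : FiniteDimensional (ZMod p) E :=
    IntermediateField.finiteDimensional_adjoin fun z _ =>
      (Algebra.IsAlgebraic.isAlgebraic z).isIntegral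
  haveI : Finite E := Module.finite_of_finite (ZMod p)
  haveI : Normal (ZMod p) E := inferInstance
  let g : Gal(E/ZMod p) := (resEquiv (p := p) σ).restrictNormal E
  obtain ⟨⟨k, hk⟩, e⟩ := (FiniteField.bijective_frobeniusAlgEquivOfAlgebraic_pow (ZMod p) E).2 g
  refine ⟨k, fun z hz => ?_⟩
  have hzE : z ∈ E := IntermediateField.subset_adjoin _ _ hz
  have h1 : algebraMap E (ResidueField P) (g ⟨z, hzE⟩) = σ • z :=
    AlgEquiv.restrictNormal_commutes (resEquiv (p := p) σ) E ⟨z, hzE⟩
  rw [← h1, ← e]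
  have h2 : ∀ (j : ℕ) (y : E), ((FiniteField.frobeniusAlgEquivOfAlgebraic (ZMod p) E) ^ j) y =
      y ^ p ^ j := by
    intro j
    induction j with
    | zero => simp
    | succ j ih =>
      intro y
      rw [pow_succ', AlgEquiv.mul_apply, ih]
      simp [FiniteField.frobeniusAlgEquivOfAlgebraic, ZMod.card, ← pow_mul, pow_succ]
  show algebraMap E (ResidueField P)
    (((FiniteField.frobeniusAlgEquivOfAlgebraic (ZMod p) E) ^ k) ⟨z, hzE⟩) = _
  rw [h2]
  rfl

/-- **The decomposition group is generated by Frobenius, inertia and any open subgroup.** -/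
theorem exists_decomp {p : ℕ} [hp : Fact p.Prime] (hP : P.LiesOverPrime p) {φ : Dec P}
    (hφ : ∀ z : ResidueField P, φ • z = z ^ p) (F : IntermediateField ℚ QQb)
    [FiniteDimensional ℚ F] (σ : Dec P) :
    ∃ (k : ℕ) (ι u : Dec P), IsIne P ι ∧ (u : GG) ∈ F.fixingSubgroup ∧ σ = φ ^ k * ι * u := by
  classical
  haveI := Mazur.isGalois_QQb
  let L : IntermediateField ℚ QQb := IntermediateField.normalClosure ℚ F QQb
  have hFL : F ≤ L := IntermediateField.le_normalClosure F
  haveI : FiniteDimensional ℚ L := normalClosure.is_finiteDimensional ℚ _ _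
  haveI : IsGalois ℚ L := IsGalois.normalClosure ℚ _ _
  haveI : NumberField L := ⟨⟩
  haveI := FrobTrace.charP_residueField hP
  -- the residues of the integers of the level form a finite set
  let ι₀ : (NumberField.RingOfIntegers L) →+* P :=
    ((integralClosure ℤ QQb).val.toRingHom.codRestrict P.toSubring
      (Frobenius.integralClosure_le P)).comp (Mazur.intEmbed L)
  let ψ : (NumberField.RingOfIntegers L) →+* ResidueField P := (residue P).comp ι₀
  let J : Ideal ((NumberField.RingOfIntegers L)) := Ideal.span {(p : (NumberField.RingOfIntegers L))}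
  haveI : Finite ((NumberField.RingOfIntegers L) ⧸ J) := Ideal.finiteQuotientOfFreeOfNeBot J (by
    rw [Ne, Ideal.span_singleton_eq_bot]
    exact Nat.cast_ne_zero.mpr hp.out.ne_zero)
  have hJ : ∀ a ∈ J, ψ a = 0 := by
    intro a ha
    obtain ⟨b, rfl⟩ := Ideal.mem_span_singleton.1 ha
    rw [map_mul, map_natCast, CharP.cast_eq_zero, zero_mul]
  have hfin : (Set.range ψ).Finite :=
    (Set.finite_range (Ideal.Quotient.lift J ψ hJ)).subset fun z ⟨a, e⟩ =>
      ⟨Ideal.Quotient.mk J a, by rw [Ideal.Quotient.lift_mk, e]⟩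
  obtain ⟨k, hk⟩ := exists_pow_eq_on hP σ hfin.toFinset
  set τ : Dec P := (φ ^ k)⁻¹ * σ with hτ
  have hτres : ∀ c : (NumberField.RingOfIntegers L), τ • ψ c = ψ c := by
    intro c
    rw [hτ, mul_smul, inv_smul_eq_iff, hk _ (hfin.mem_toFinset.2 ⟨c, rfl⟩), pow_smul_residue hφ]
  let τL : Gal(L/ℚ) := AlgEquiv.restrictNormalHom L (τ : GG)
  obtain ⟨g, hg, hgτ⟩ := Mazur.exists_inertia_restrict P τL fun c => by
    rw [Frobenius.mem_centre_iff, P.mem_nonunits_iff]
    have hc : ((c : L) : QQb) ∈ P := Frobenius.integralClosure_le P (Mazur.intEmbed L c)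
    have e : (Mazur.intEmbed L (NumberField.RingOfIntegers.mapRingHom (τL : L →+* L) c) : QQb) =
        (τ : GG) ((c : L) : QQb) := AlgEquiv.restrictNormalHom_apply L (τ : GG) _
    rw [AddSubgroupClass.coe_sub, e]
    show P.valuation ((τ : GG) ((c : L) : QQb) - ((c : L) : QQb)) < 1
    rw [← res_eq_iff (map_mem τ hc) hc, ← smul_res τ hc]
    have hψ : ψ c = res P ((c : L) : QQb) := (res_of_mem hc).symm
    rw [← hψ]
    exact hτres c
  let ι : Dec P := ⟨g, Places.inertia_le_decomposition P hg⟩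
  refine ⟨k, ι, ι⁻¹ * τ, hg, ?_, by rw [hτ]; group⟩
  refine (IntermediateField.mem_fixingSubgroup_iff _ _).2 fun x hx => ?_
  have h1 : g x = (τ : GG) x := by
    rw [← AlgEquiv.restrictNormalHom_apply L g ⟨x, hFL hx⟩, hgτ,
      AlgEquiv.restrictNormalHom_apply L (τ : GG) ⟨x, hFL hx⟩]
  show g⁻¹ ((τ : GG) x) = x
  rw [← h1]
  exact g.symm_apply_apply x

/-! ### The cocycles `σ x / x` on residues -/

/-- The residue of `σ x / x`. -/
def thx (x : QQb) (σ : Dec P) : ResidueField P := res P ((σ : GG) x / x)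

theorem thx_one_left {x : QQb} (hx : x ≠ 0) : thx x (1 : Dec P) = 1 := by
  rw [thx, show ((1 : Dec P) : GG) x = x from rfl, div_self hx, res_one]

theorem thx_mul {x : QQb} (hx : x ≠ 0) (σ τ : Dec P) :
    thx x (σ * τ) = thx x σ * σ • thx x τ := by
  have h1 : ((σ * τ : Dec P) : GG) x / x =
      ((σ : GG) x / x) * (σ : GG) ((τ : GG) x / x) := by
    rw [map_div₀, div_mul_div_comm, mul_comm x, mul_div_mul_left _ _
      ((map_ne_zero_iff _ (σ : GG).injective).mpr hx)]
    rfl
  rw [thx, h1, res_mul (div_map_mem σ hx) (map_mem σ (div_map_mem τ hx)),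
    ← smul_res σ (div_map_mem τ hx)]
  rfl

theorem thx_ne_zero {x : QQb} (hx : x ≠ 0) (σ : Dec P) : thx x σ ≠ 0 :=
  res_ne_zero (val_div_map_eq_one σ hx)

theorem thx_mul_ine {x : QQb} (hx : x ≠ 0) {σ : Dec P} (hσ : IsIne P σ) (τ : Dec P) :
    thx x (σ * τ) = thx x σ * thx x τ := by rw [thx_mul hx, hσ.smul_eq]

theorem thx_inv_ine {x : QQb} (hx : x ≠ 0) {σ : Dec P} (hσ : IsIne P σ) :
    thx x σ⁻¹ = (thx x σ)⁻¹ := by
  refine eq_inv_of_mul_eq_one_left ?_
  rw [← thx_mul_ine hx hσ.inv, inv_mul_cancel, thx_one_left hx]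

/-- On inertia the residue of `σ x / x` is a homomorphism. -/
def thxHom {x : QQb} (hx : x ≠ 0) : Ine P →* ResidueField P where
  toFun σ := thx x (σ : Dec P)
  map_one' := thx_one_left hx
  map_mul' σ τ := thx_mul_ine hx σ.2 _

/-! ### Wild inertia -/

/-- Wild inertia: it moves nothing by as much as its valuation. -/
def IsWild (P : ValuationSubring (AlgebraicClosure ℚ)) (σ : Dec P) : Prop :=
  IsIne P σ ∧ ∀ x : QQb, x ≠ 0 → thx x σ = 1

theorem IsWild.mul {σ τ : Dec P} (h : IsWild P σ) (h' : IsWild P τ) : IsWild P (σ * τ) :=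
  ⟨h.1.mul h'.1, fun x hx => by rw [thx_mul_ine hx h.1, h.2 x hx, h'.2 x hx, one_mul]⟩

theorem isWild_one : IsWild P 1 := ⟨isIne_one, fun _ hx => thx_one_left hx⟩

theorem IsWild.pow {σ : Dec P} (h : IsWild P σ) (n : ℕ) : IsWild P (σ ^ n) := by
  induction n with
  | zero => exact isWild_one
  | succ n ih => rw [pow_succ]; exact ih.mul h

theorem IsWild.inv {σ : Dec P} (h : IsWild P σ) : IsWild P σ⁻¹ :=
  ⟨h.1.inv, fun x hx => by rw [thx_inv_ine hx h.1, h.2 x hx, inv_one]⟩

/-- Commutators of inertia elements are wild. -/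
theorem isWild_commutator {σ τ : Dec P} (hσ : IsIne P σ) (hτ : IsIne P τ) :
    IsWild P (σ * τ * σ⁻¹ * τ⁻¹) := by
  refine ⟨((hσ.mul hτ).mul hσ.inv).mul hτ.inv, fun x hx => ?_⟩
  have h1 := thx_ne_zero hx σ
  have h2 := thx_ne_zero hx τ
  rw [thx_mul_ine hx ((hσ.mul hτ).mul hσ.inv), thx_mul_ine hx (hσ.mul hτ), thx_mul_ine hx hσ,
    thx_inv_ine hx hσ, thx_inv_ine hx hτ]
  field_simp

theorem coe_pow_apply (σ : Dec P) (i : ℕ) (x : QQb) :
    ((σ ^ (i + 1) : Dec P) : GG) x = (σ : GG) (((σ ^ i : Dec P) : GG) x) := by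
  rw [pow_succ']; rfl

/-- A wild element whose power of order prime to `p` fixes a number fixes it. -/
theorem IsWild.fix_of_pow {p : ℕ} [Fact p.Prime] (hP : P.LiesOverPrime p) {σ : Dec P}
    (h : IsWild P σ) {m : ℕ} (hm : ¬ p ∣ m) {x : QQb}
    (hx : ((σ ^ m : Dec P) : GG) x = x) : (σ : GG) x = x := by
  haveI := FrobTrace.charP_residueField hP
  have hm0 : m ≠ 0 := fun e => hm (e ▸ dvd_zero p)
  have hmQ : (m : QQb) ≠ 0 := Nat.cast_ne_zero.mpr hm0
  set t := ∑ i ∈ Finset.range m, ((σ ^ i : Dec P) : GG) x with ht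
  have hσt : (σ : GG) t = t := by
    rw [ht, map_sum, Finset.sum_congr rfl fun i _ => (coe_pow_apply σ i x).symm]
    have e1 := Finset.sum_range_succ (fun i => ((σ ^ i : Dec P) : GG) x) m
    have e2 := Finset.sum_range_succ' (fun i => ((σ ^ i : Dec P) : GG) x) m
    rw [pow_zero] at e2
    simp only [hx] at e1
    exact add_right_cancel (e2.symm.trans (e1.trans rfl))
  set y := x - t / m with hy
  suffices hy0 : y = 0 by
    rw [sub_eq_zero.1 hy0, map_div₀ (σ : GG), map_natCast, hσt]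
  by_contra hy0
  have hfix : ∀ i : ℕ, ((σ ^ i : Dec P) : GG) (t / m) = t / m := by
    intro i
    induction i with
    | zero => rfl
    | succ i ih => rw [coe_pow_apply, ih, map_div₀ (σ : GG), map_natCast, hσt]
  have hsum : ∑ i ∈ Finset.range m, ((σ ^ i : Dec P) : GG) y / y = 0 := by
    rw [← Finset.sum_div]
    have : ∑ i ∈ Finset.range m, ((σ ^ i : Dec P) : GG) y = 0 := by
      simp only [hy, map_sub, hfix, Finset.sum_sub_distrib, Finset.sum_const, Finset.card_range,
        nsmul_eq_mul, ← ht, mul_div_cancel₀ _ hmQ, sub_self]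
    rw [this, zero_div]
  have h0 : res P (∑ i ∈ Finset.range m, ((σ ^ i : Dec P) : GG) y / y) = 0 := by
    rw [hsum, res_zero]
  rw [res_sum _ _ fun i _ => div_map_mem _ hy0,
    Finset.sum_congr rfl fun i _ => show res P (((σ ^ i : Dec P) : GG) y / y) = 1 from (h.pow i).2 y hy0] at h0
  simp only [Finset.sum_const, Finset.card_range, nsmul_eq_mul, mul_one] at h0
  exact hm ((CharP.cast_eq_zero_iff _ p m).1 h0)

/-- Wild inertia is pro-`p`. -/
theorem IsWild.exists_pow_mem {p : ℕ} [hp : Fact p.Prime] (hP : P.LiesOverPrime p) {σ : Dec P}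
    (h : IsWild P σ) (F : IntermediateField ℚ QQb) [FiniteDimensional ℚ F] :
    ∃ k : ℕ, ((σ ^ p ^ k : Dec P) : GG) ∈ F.fixingSubgroup := by
  haveI := Mazur.isGalois_QQb
  haveI : Finite (GG ⧸ F.fixingSubgroup) :=
    Subgroup.quotient_finite_of_isOpen _ F.fixingSubgroup_isOpen
  haveI : Subgroup.FiniteIndex F.fixingSubgroup := Subgroup.finiteIndex_of_finite_quotient
  have hN : ∃ N, 0 < N ∧ ((σ ^ N : Dec P) : GG) ∈ F.fixingSubgroup := by
    obtain ⟨N, hN, -, hmem⟩ := Subgroup.exists_pow_mem_of_index_ne_zero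
      (H := F.fixingSubgroup) Subgroup.FiniteIndex.index_ne_zero (σ : GG)
    exact ⟨N, hN, by rw [SubmonoidClass.coe_pow]; exact hmem⟩
  obtain ⟨N, hN0, hN⟩ := hN
  obtain ⟨k, m, hm, rfl⟩ := Nat.exists_eq_pow_mul_and_not_dvd hN0.ne' p hp.out.ne_one
  refine ⟨k, (IntermediateField.mem_fixingSubgroup_iff _ _).2 fun x hx => ?_⟩
  refine (h.pow _).fix_of_pow hP hm ?_
  rw [← pow_mul]
  exact (IntermediateField.mem_fixingSubgroup_iff _ _).1 hN x hx

end FLTAgent.FlatLocal
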