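import Fermat.Agent.FlatLocal.Tame

/-!
# Kummer elements of characters of subgroups of the decomposition group
-/

set_option autoImplicit false
set_option linter.style.haveILetI false
set_option linter.unusedSectionVars false

noncomputable section

open scoped Pointwise
open IsLocalRing

namespace FLTAgent.FlatLocal

local notation "QQb" => AlgebraicClosure ℚ
local notation "GG" => (AlgebraicClosure ℚ ≃ₐ[ℚ] AlgebraicClosure ℚ)

local instance (priority := 2000) algLevelK (L : IntermediateField ℚ (AlgebraicClosure ℚ)) :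
    Algebra ℚ L := L.algebra'

variable {P : ValuationSubring (AlgebraicClosure ℚ)}

theorem LevC.comp {α β : Type*} {f : Dec P → α} (h : LevC P f) (g : α → β) :
    LevC P fun σ => g (f σ) := by
  obtain ⟨F, hF, h⟩ := h
  exact ⟨F, hF, fun a b hb => congrArg g (h a b hb)⟩

theorem LevC.inter {α β : Type*} {f : Dec P → α} {g : Dec P → β} (hf : LevC P f) (hg : LevC P g) :
    LevC P fun σ => (f σ, g σ) := by
  obtain ⟨F, hF, hf⟩ := hf
  obtain ⟨F', hF', hg⟩ := hg
  exact ⟨F ⊔ F', inferInstance, fun a b hb => Prod.ext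
    (hf a b (IntermediateField.fixingSubgroup_antitone le_sup_left hb))
    (hg a b (IntermediateField.fixingSubgroup_antitone le_sup_right hb))⟩

theorem LevC.of_const {α : Type*} (a : α) : LevC P fun _ => a :=
  ⟨⊥, inferInstance, fun _ _ _ => rfl⟩

/-- **Kummer theory on a subgroup**: a character with values in roots of unity fixed by the subgroup
is given by a radical. -/
theorem exists_kummer_sub (S : Subgroup (Dec P)) {m : ℕ} (hm : 0 < m)
    (hroot : ∀ σ ∈ S, ∀ μ : QQb, μ ^ m = 1 → (σ : GG) μ = μ) (ψ : Dec P → QQb) (hψl : LevC P ψ)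
    (hψm : ∀ σ ∈ S, ψ σ ^ m = 1) (hψ : ∀ σ ∈ S, ∀ τ ∈ S, ψ (σ * τ) = ψ σ * ψ τ) :
    ∃ α : QQb, α ≠ 0 ∧ ∀ σ ∈ S, (σ : GG) α = ψ σ * α := by
  classical
  haveI := Mazur.isGalois_QQb
  obtain ⟨F, hF, hFl⟩ := hψl
  haveI : NeZero m := ⟨hm.ne'⟩
  obtain ⟨ζ, hζ⟩ := HasEnoughRootsOfUnity.exists_primitiveRoot QQb m
  haveI : FiniteDimensional ℚ (IntermediateField.adjoin ℚ ({ζ} : Set QQb)) :=
    IntermediateField.adjoin.finiteDimensional
      ((AlgebraicClosure.isAlgebraic ℚ).isAlgebraic ζ).isIntegral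
  haveI := hF
  let L : IntermediateField ℚ QQb :=
    IntermediateField.normalClosure ℚ (F ⊔ IntermediateField.adjoin ℚ {ζ} : IntermediateField ℚ QQb)
      QQb
  have hle := IntermediateField.le_normalClosure
    (F ⊔ IntermediateField.adjoin ℚ {ζ} : IntermediateField ℚ QQb)
  haveI : FiniteDimensional ℚ L := normalClosure.is_finiteDimensional ℚ _ _
  haveI hgal : IsGalois ℚ L := IsGalois.normalClosure ℚ _ _
  set H := L.fixingSubgroup with hH
  haveI hn : H.Normal := (InfiniteGalois.normal_iff_isGalois L).mpr hgal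
  have hHF : ∀ h ∈ H, h ∈ F.fixingSubgroup := fun h hh =>
    IntermediateField.fixingSubgroup_antitone (le_sup_left.trans hle) hh
  have hHζ : ∀ h ∈ H, ∀ μ : QQb, μ ^ m = 1 → (h : GG) μ = μ := by
    intro h hh μ hμ
    obtain ⟨i, -, rfl⟩ := hζ.eq_pow_of_pow_eq_one hμ
    rw [map_pow, (IntermediateField.mem_fixingSubgroup_iff _ _).1 hh ζ
      (hle ((le_sup_right : IntermediateField.adjoin ℚ {ζ} ≤ _)
        (IntermediateField.mem_adjoin_simple_self ℚ ζ)))]
  set S' : Subgroup GG := S.map (Dec P).subtype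
  set U := S' ⊔ H
  have hU : ∀ u : GG, u ∈ U → ∃ s ∈ S, ∃ h ∈ H, (s : GG) * h = u := by
    intro u hu
    rw [← SetLike.mem_coe, Subgroup.mul_normal] at hu
    obtain ⟨a, ⟨s, hs, rfl⟩, h, hh, rfl⟩ := hu
    exact ⟨s, hs, h, hh, rfl⟩
  choose! sS hsS hH' hHmem hdec using hU
  -- well defined
  have hwd : ∀ s ∈ S, ∀ h ∈ H, ψ (sS ((s : GG) * h)) = ψ s := by
    intro s hs h hh
    have hu : (s : GG) * h ∈ U := mul_mem (Subgroup.mem_sup_left ⟨s, hs, rfl⟩)
      (Subgroup.mem_sup_right hh)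
    set t := sS ((s : GG) * h) with ht
    have e : ((t⁻¹ * s : Dec P) : GG) ∈ H := by
      have h1 := hdec _ hu
      have : ((t⁻¹ * s : Dec P) : GG) = hH' ((s : GG) * h) * h⁻¹ := by
        rw [Subgroup.coe_mul, Subgroup.coe_inv, eq_mul_inv_iff_mul_eq, mul_assoc,
          inv_mul_eq_iff_eq_mul, ht, h1]
      rw [this]
      exact mul_mem (hHmem _ hu) (inv_mem hh)
    have h2 := hFl t (t⁻¹ * s) (hHF _ e)
    rw [mul_inv_cancel_left] at h2
    exact h2.symm
  have hfix : ∀ u ∈ U, ∀ μ : QQb, μ ^ m = 1 → u μ = μ := by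
    intro u hu μ hμ
    rw [← hdec u hu, AlgEquiv.mul_apply, hHζ _ (hHmem u hu) μ hμ, hroot _ (hsS u hu) μ hμ]
  obtain ⟨α, hα0, hα⟩ := Mazur.exists_kummer U H L.fixingSubgroup_isOpen le_sup_right
    (fun u => ψ (sS u))
    (fun u hu e => by
      have := hψm _ (hsS u hu)
      rw [e, zero_pow hm.ne'] at this
      exact zero_ne_one this)
    (fun u hu w hw => by
      rw [hfix u hu _ (hψm _ (hsS w hw)), ← hψ _ (hsS u hu) _ (hsS w hw)]
      have e : u * w = ((sS u * sS w : Dec P) : GG) *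
          ((sS w : GG)⁻¹ * hH' u * (sS w : GG) * hH' w) := by
        conv_lhs => rw [← hdec u hu, ← hdec w hw]
        rw [Subgroup.coe_mul]
        group
      rw [e, hwd _ (mul_mem (hsS u hu) (hsS w hw)) _
        (mul_mem (by simpa using hn.conj_mem _ (hHmem u hu) (sS w : GG)⁻¹) (hHmem w hw))])
    (fun h hh => by
      have h1 := hwd 1 (one_mem S) h hh
      rw [OneMemClass.coe_one, one_mul] at h1
      have h2 := hψ 1 (one_mem S) 1 (one_mem S)
      rw [one_mul] at h2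
      have h3 : ψ 1 ≠ 0 := fun e => by
        have := hψm 1 (one_mem S)
        rw [e, zero_pow hm.ne'] at this
        exact zero_ne_one this
      rw [h1]
      exact (mul_eq_left₀ h3).1 h2.symm)
  refine ⟨α, hα0, fun σ hσ => ?_⟩
  rw [hα (σ : GG) (Subgroup.mem_sup_left ⟨σ, hσ, rfl⟩)]
  congr 1
  have h1 := hwd σ hσ 1 (one_mem H)
  rwa [mul_one] at h1

namespace TameData

variable {p : ℕ} [hp : Fact p.Prime] (t : TameData P p) (hP : P.LiesOverPrime p)

include hP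

/-- Characters of inertia of order dividing `e` are trivial on `G`. -/
theorem root_char_trivial {m : ℕ} (hme : m ∣ t.e) (ψ : Dec P → QQb) (hψl : LevC P ψ)
    (hψm : ∀ σ, IsIne P σ → ψ σ ^ m = 1)
    (hψ : ∀ σ τ, IsIne P σ → IsIne P τ → ψ (σ * τ) = ψ σ * ψ τ) {g : Dec P} (hg : g ∈ t.G) :
    ψ g = 1 := by
  obtain ⟨d, hd⟩ := hme
  have hm0 : 0 < m := pos_of_mul_pos_left (hd ▸ t.e_pos) (Nat.zero_le _)
  have hpm : ¬ p ∣ m := fun h => t.not_dvd (hd ▸ h.mul_right d)
  obtain ⟨α, hα0, hα⟩ := exists_kummer_sub (Ine P) hm0 (fun σ hσ μ hμ => hσ.fix_root hP hpm hμ) ψ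
    hψl hψm fun σ hσ τ hτ => hψ σ τ hσ hτ
  have hfix : ∀ σ : Dec P, IsIne P σ → (σ : GG) (α ^ m) = α ^ m := fun σ hσ => by
    rw [map_pow, hα σ hσ, mul_pow, hψm σ hσ, one_mul]
  obtain ⟨i, hi⟩ := Mazur.exists_zpow_valuation P hp.out hP (pow_ne_zero m hα0) fun σ hσ =>
    hfix ⟨σ, Places.inertia_le_decomposition P hσ⟩ hσ
  have hπd : (t.π ^ d) ^ m = -(p : QQb) := by rw [← pow_mul, mul_comm, ← hd, t.π_pow]
  set x := α / (t.π ^ d) ^ i with hx
  have hb0 : (t.π ^ d) ^ i ≠ 0 := zpow_ne_zero _ (pow_ne_zero _ t.π_ne_zero)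
  have hxm : x ^ m = α ^ m / (-(p : QQb)) ^ i := by
    rw [hx, div_pow, ← zpow_natCast ((t.π ^ d) ^ i), ← zpow_mul, mul_comm, zpow_mul, zpow_natCast,
      hπd]
  have hxv : P.valuation x = 1 := by
    refine (pow_eq_one_iff_left hm0.ne').mp ?_
    rw [← map_pow, hxm, map_div₀, hi, map_zpow₀, Valuation.map_neg,
      div_self (zpow_ne_zero _ (val_p_pos hP).ne')]
  have h1 : (g : GG) x = x := Mazur.map_eq_self_of_unit_pow P hp.out hP hpm hxv hg.1 (by
    rw [hxm, map_div₀ (g : GG), hfix g hg.1, map_zpow₀ (g : GG), map_neg, map_natCast])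
  rw [hx, map_div₀ (g : GG), map_zpow₀ (g : GG), map_pow, hg.2, hα g hg.1,
    div_left_inj' hb0] at h1
  exact mul_right_cancel₀ hα0 (h1.trans (one_mul α).symm)

/-- A representation of inertia killing wild inertia, with exponent dividing `e`, is trivial on
`G`. -/
theorem hom_trivial {M : Type*} [Group M] [Finite M] (f : Dec P → M) (hf : LevC P f)
    (hmul : ∀ σ τ, IsIne P σ → IsIne P τ → f (σ * τ) = f σ * f τ)
    (hwild : ∀ σ, IsWild P σ → f σ = 1) (hexp : ∀ σ, IsIne P σ → f σ ^ t.e = 1)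
    {g : Dec P} (hg : g ∈ t.G) : f g = 1 := by
  classical
  let F : Ine P →* M := MonoidHom.mk' (fun σ => f σ) fun a b => hmul a b a.2 b.2
  have hc : ∀ a b : Ine P, F a * F b = F b * F a := by
    intro a b
    have h := hwild _ (isWild_commutator a.2 b.2)
    have e : F (a * b * a⁻¹ * b⁻¹) = 1 := h
    rw [map_mul, map_mul, map_mul, map_inv, map_inv, mul_inv_eq_one] at e
    exact mul_inv_eq_iff_eq_mul.1 e
  letI : CommGroup F.range :=
    { mul_comm := by
        rintro ⟨_, a, rfl⟩ ⟨_, b, rfl⟩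
        exact Subtype.ext (hc a b) }
  by_contra hne
  have hx : (⟨F ⟨g, hg.1⟩, _, rfl⟩ : F.range) ≠ 1 := fun e => hne (congrArg Subtype.val e)
  have hexp' : Monoid.exponent F.range ∣ t.e := Monoid.exponent_dvd_of_forall_pow_eq_one (by
    rintro ⟨_, a, rfl⟩
    exact Subtype.ext (hexp a a.2))
  haveI : NeZero (Monoid.exponent F.range) := ⟨Monoid.ExponentExists.of_finite.exponent_ne_zero⟩
  obtain ⟨χ, hχ⟩ := CommGroup.exists_apply_ne_one_of_hasEnoughRootsOfUnity F.range QQb hx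
  let ψ : Dec P → QQb := fun σ =>
    if h : f σ ∈ F.range then ((χ ⟨f σ, h⟩ : QQbˣ) : QQb) else 1
  have hψ0 : ∀ σ (h : IsIne P σ), ψ σ = ((χ ⟨f σ, ⟨σ, h⟩, rfl⟩ : QQbˣ) : QQb) :=
    fun σ h => dif_pos ⟨⟨σ, h⟩, rfl⟩
  refine hχ (Units.ext ((hψ0 g hg.1).symm.trans ?_))
  rw [Units.val_one]
  refine t.root_char_trivial hP hexp' ψ (hf.comp fun x : M =>
    if h : x ∈ F.range then ((χ ⟨x, h⟩ : QQbˣ) : QQb) else 1) (fun σ hσ => ?_)
    (fun σ τ hσ hτ => ?_) hg
  · rw [hψ0 σ hσ, ← Units.val_pow_eq_pow_val, ← map_pow, Monoid.pow_exponent_eq_one, map_one,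
      Units.val_one]
  · rw [hψ0 σ hσ, hψ0 τ hτ, hψ0 _ (hσ.mul hτ), ← Units.val_mul, ← map_mul]
    exact congrArg (fun z => ((χ z : QQbˣ) : QQb)) (Subtype.ext (hmul σ τ hσ hτ))

end TameData

end FLTAgent.FlatLocal
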