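import Fermat.Agent.FlatLocal.Move

/-!
# Lattices of functions: the flat representations of inertia

A finite `𝔽_p`-representation is flat (`FlatI`) if there is a finitely generated module of
inertia-equivariant integral functions over the integers of the inertia field which spans all
functions, contains `1`, and is closed under products and translations: the algebra of a finite
flat group scheme over the completed maximal unramified ring.
-/

set_option autoImplicit false
set_option linter.style.haveILetI false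
set_option linter.unusedSectionVars false

noncomputable section

open scoped Pointwise
open IsLocalRing

namespace FLTAgent.FlatLocal

local notation "QQb" => AlgebraicClosure ℚ
local notation "GG" => (AlgebraicClosure ℚ ≃ₐ[ℚ] AlgebraicClosure ℚ)

variable (P : ValuationSubring (AlgebraicClosure ℚ))

/-- The integers of the inertia field. -/
abbrev Rnr : Subring (AlgebraicClosure ℚ) := Carayol.intAt P (Carayol.K0 P)

variable {P}

theorem mem_Rnr {x : QQb} :
    x ∈ Rnr P ↔ x ∈ P ∧ ∀ σ : Dec P, IsIne P σ → (σ : GG) x = x := by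
  constructor
  · exact fun h => ⟨h.1, fun σ hσ => Carayol.mem_K0.1 h.2 σ hσ⟩
  · exact fun h => ⟨h.1, Carayol.mem_K0.2 fun σ hσ =>
      h.2 ⟨σ, Places.inertia_le_decomposition P hσ⟩ hσ⟩

theorem isPrincipalIdealRing_Rnr {p : ℕ} [Fact p.Prime] (hP : P.LiesOverPrime p) :
    IsPrincipalIdealRing (Rnr P) := by
  haveI := (Carayol.isDiscreteValuationRing_K0 (A := P) hP).1
  infer_instance

theorem Rnr_smul_def (c : Rnr P) (x : QQb) : c • x = (c : QQb) * x := rfl

/-- The tensor of two functions. -/
def tens {α β : Type*} (g : α → QQb) (h : β → QQb) : α × β → QQb := fun x => g x.1 * h x.2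

/-- Tensoring as a bilinear map. -/
def tensL (α β : Type*) :
    (α → QQb) →ₗ[Rnr P] (β → QQb) →ₗ[Rnr P] (α × β → QQb) :=
  LinearMap.mk₂ (Rnr P) (tens)
    (fun g g' h => funext fun x => by simp [tens, add_mul])
    (fun c g h => funext fun x => by simp [tens, Rnr_smul_def, mul_assoc])
    (fun g h h' => funext fun x => by simp [tens, mul_add])
    (fun c g h => funext fun x => by simp [tens, Rnr_smul_def, mul_left_comm])

theorem tens_mem_span {α β : Type*} {S : Set (α → QQb)} {T : Set (β → QQb)} {g : α → QQb}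
    {h : β → QQb} (hg : g ∈ Submodule.span (Rnr P) S) (hh : h ∈ Submodule.span (Rnr P) T) :
    tens g h ∈ Submodule.span (Rnr P) (Set.image2 tens S T) := by
  have h1 := Submodule.apply_mem_map₂ (tensL (P := P) α β) hg hh
  rwa [Submodule.map₂_span_span] at h1

variable {p : ℕ} {W : Type*} [AddCommGroup W] {F : Type*} [FunLike F W W]

/-- A lattice of functions on a representation of the decomposition group. -/
structure IsLattice (act : Dec P → F) (S : Finset (W → QQb)) : Prop where
  inj : ∀ σ : Dec P, IsIne P σ → Function.Injective (act σ)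
  int : ∀ f ∈ S, ∀ w, f w ∈ P
  equiv : ∀ f ∈ S, ∀ σ : Dec P, IsIne P σ → ∀ w, f (act σ w) = (σ : GG) (f w)
  full : Submodule.span QQb (S : Set (W → QQb)) = ⊤
  one : (1 : W → QQb) ∈ Submodule.span (Rnr P) (S : Set (W → QQb))
  mul : ∀ f ∈ S, ∀ g ∈ S, f * g ∈ Submodule.span (Rnr P) (S : Set (W → QQb))
  trans : ∀ f ∈ S, (fun x : W × W => f (x.1 + x.2)) ∈
    Submodule.span (Rnr P) (Set.image2 tens (S : Set (W → QQb)) S)

variable (P) in
/-- **Flatness of a representation of inertia.** -/
def FlatI (act : Dec P → F) : Prop := ∃ S, IsLattice act S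

theorem act_inv_apply [Module (ZMod p) W] (act : Dec P →* Module.End (ZMod p) W) (σ : Dec P) (w : W) :
    act σ (act σ⁻¹ w) = w := by
  rw [← Module.End.mul_apply, ← map_mul, mul_inv_cancel, map_one, Module.End.one_apply]

theorem act_inv_apply' [Module (ZMod p) W] (act : Dec P →* Module.End (ZMod p) W) (σ : Dec P) (w : W) :
    act σ⁻¹ (act σ w) = w := by
  rw [← Module.End.mul_apply, ← map_mul, inv_mul_cancel, map_one, Module.End.one_apply]

theorem act_injective [Module (ZMod p) W] (act : Dec P →* Module.End (ZMod p) W) (σ : Dec P) :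
    Function.Injective (act σ) :=
  Function.LeftInverse.injective (g := act σ⁻¹) (act_inv_apply' act σ)

namespace IsLattice

variable {act : Dec P → F} {S : Finset (W → QQb)}

theorem int' (h : IsLattice act S) {f : W → QQb}
    (hf : f ∈ Submodule.span (Rnr P) (S : Set (W → QQb))) (w : W) : f w ∈ P := by
  induction hf using Submodule.span_induction with
  | mem f hf => exact h.int f hf w
  | zero => exact P.zero_mem
  | add f g _ _ hf hg => exact P.add_mem _ _ hf hg
  | smul c f _ hf => exact P.mul_mem _ _ c.2.1 hf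

theorem equiv' (h : IsLattice act S) {f : W → QQb}
    (hf : f ∈ Submodule.span (Rnr P) (S : Set (W → QQb))) {σ : Dec P} (hσ : IsIne P σ) (w : W) :
    f (act σ w) = (σ : GG) (f w) := by
  induction hf using Submodule.span_induction with
  | mem f hf => exact h.equiv f hf σ hσ w
  | zero => simp
  | add f g _ _ hf hg => simp [hf, hg]
  | smul c f _ hf => simp [Rnr_smul_def, hf, (mem_Rnr.1 c.2).2 σ hσ]

theorem trans' (h : IsLattice act S) {f : W → QQb}
    (hf : f ∈ Submodule.span (Rnr P) (S : Set (W → QQb))) :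
    (fun x : W × W => f (x.1 + x.2)) ∈
      Submodule.span (Rnr P) (Set.image2 tens (S : Set (W → QQb)) S) := by
  induction hf using Submodule.span_induction with
  | mem f hf => exact h.trans f hf
  | zero => exact zero_mem _
  | add f g _ _ hf hg => exact add_mem hf hg
  | smul c f _ hf => exact Submodule.smul_mem _ c hf

theorem mul' (h : IsLattice act S) {f g : W → QQb}
    (hf : f ∈ Submodule.span (Rnr P) (S : Set (W → QQb)))
    (hg : g ∈ Submodule.span (Rnr P) (S : Set (W → QQb))) :
    f * g ∈ Submodule.span (Rnr P) (S : Set (W → QQb)) := by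
  have h1 := Submodule.mul_mem_mul hf hg
  rw [Submodule.span_mul_span] at h1
  refine Submodule.span_le.2 ?_ h1
  rintro _ ⟨a, ha, b, hb, rfl⟩
  exact h.mul a ha b hb

/-- A generating set may be replaced by any finite set with the same span. -/
theorem of_span_eq (h : IsLattice act S) {T : Finset (W → QQb)}
    (hT : Submodule.span (Rnr P) (T : Set (W → QQb)) =
      Submodule.span (Rnr P) (S : Set (W → QQb))) : IsLattice act T where
  inj := h.inj
  int f hf := h.int' (hT ▸ Submodule.subset_span hf)
  equiv f hf σ hσ := h.equiv' (hT ▸ Submodule.subset_span hf) hσ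
  full := by
    refine eq_top_iff.2 (h.full ▸ Submodule.span_le.2 fun f hf => ?_)
    have : f ∈ Submodule.span (Rnr P) (T : Set (W → QQb)) := hT ▸ Submodule.subset_span hf
    exact Submodule.span_le_restrictScalars (Rnr P) QQb _ this
  one := hT ▸ h.one
  mul f hf g hg := hT ▸ h.mul' (hT ▸ Submodule.subset_span hf) (hT ▸ Submodule.subset_span hg)
  trans f hf := by
    refine Submodule.span_le.2 ?_ (h.trans' (hT ▸ Submodule.subset_span hf))
    rintro _ ⟨a, ha, b, hb, rfl⟩
    exact tens_mem_span (hT.symm ▸ Submodule.subset_span ha) (hT.symm ▸ Submodule.subset_span hb)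

end IsLattice

/-- Equivariant functions independent over the integers of the inertia field are independent. -/
theorem linearIndependent_of_equiv [hp : Fact p.Prime] (hP : P.LiesOverPrime p)
    (act : Dec P → F) (hsurj : ∀ σ, IsIne P σ → Function.Surjective (act σ))
    {ι : Type*} [Finite ι] (f : ι → W → QQb)
    (heq : ∀ i, ∀ σ : Dec P, IsIne P σ → ∀ w, f i (act σ w) = (σ : GG) (f i w))
    (hli : LinearIndependent (Rnr P) f) : LinearIndependent QQb f := by
  classical
  cases nonempty_fintype ι
  rw [Fintype.linearIndependent_iff]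
  by_contra hall
  push Not at hall
  have hex : ∃ n, ∃ a : ι → QQb, ∑ i, a i • f i = 0 ∧ a ≠ 0 ∧
      (Finset.univ.filter fun i => a i ≠ 0).card = n := by
    obtain ⟨a, h1, i, hi⟩ := hall
    exact ⟨_, a, h1, fun e => hi (congrFun e i), rfl⟩
  obtain ⟨a, h1, h2, h3⟩ := Nat.find_spec hex
  obtain ⟨i₀, hi₀⟩ : ∃ i, a i ≠ 0 := by
    by_contra hc
    push Not at hc
    exact h2 (funext hc)
  set b : ι → QQb := fun i => a i / a i₀ with hb
  have hb1 : ∑ i, b i • f i = 0 := by
    have : ∑ i, b i • f i = (a i₀)⁻¹ • ∑ i, a i • f i := by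
      rw [Finset.smul_sum]
      exact Finset.sum_congr rfl fun i _ => by rw [smul_smul]; simp only [hb, div_eq_inv_mul]
    rw [this, h1, smul_zero]
  have hfix : ∀ σ : Dec P, IsIne P σ → ∀ i, (σ : GG) (b i) = b i := by
    intro σ hσ
    set c : ι → QQb := fun i => (σ : GG) (b i) - b i with hc
    have hc1 : ∑ i, c i • f i = 0 := by
      funext w
      have h0 := congrFun hb1 w
      obtain ⟨w', rfl⟩ := hsurj σ hσ w
      have h1' := congrArg (σ : GG) (congrFun hb1 w')
      simp only [Finset.sum_apply, Pi.smul_apply, smul_eq_mul, Pi.zero_apply, map_sum, map_mul,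
        map_zero] at h0 h1' ⊢
      simp only [hc, sub_mul, Finset.sum_sub_distrib, h0, sub_zero]
      refine Eq.trans (Finset.sum_congr rfl fun i _ => ?_) h1'
      rw [← heq i σ hσ]
    by_contra hne
    push Not at hne
    obtain ⟨j, hj⟩ := hne
    refine Nat.find_min hex (m := (Finset.univ.filter fun i => c i ≠ 0).card) ?_
      ⟨c, hc1, fun e => hj (sub_eq_zero.1 (congrFun e j)), rfl⟩
    rw [← h3]
    refine Finset.card_lt_card ((Finset.ssubset_iff_of_subset ?_).2 ⟨i₀, by simp [hi₀], ?_⟩)
    · intro i
      simp only [Finset.mem_filter, Finset.mem_univ, true_and]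
      intro hi ha
      exact hi (by simp [hc, hb, ha])
    · simp [hc, hb, div_self hi₀, div_self ((map_ne_zero_iff _ (σ : GG).injective).mpr hi₀)]
  -- clear denominators
  have hN : ∀ i, ∃ N : ℕ, b i * (p : QQb) ^ N ∈ P := by
    intro i
    rcases eq_or_ne (b i) 0 with h0 | h0
    · exact ⟨0, by simp [h0]⟩
    obtain ⟨m, hm⟩ := Mazur.exists_zpow_valuation P hp.out hP h0 fun σ hσ =>
      hfix ⟨σ, Places.inertia_le_decomposition P hσ⟩ hσ i
    refine ⟨(-m).toNat, mem_of_val_le_one ?_⟩
    rw [map_mul, map_pow, hm, ← zpow_natCast, ← zpow_add₀ (val_p_pos hP).ne']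
    rw [← zpow_zero (P.valuation (p : QQb))]
    exact (zpow_right_strictAnti₀ (val_p_pos hP) (val_p_lt_one hP)).antitone (by omega)
  choose N hN using hN
  set M := Finset.univ.sup N
  have hmem : ∀ i, b i * (p : QQb) ^ M ∈ Rnr P := fun i => by
    refine mem_Rnr.2 ⟨?_, fun σ hσ => by rw [map_mul, map_pow, map_natCast, hfix σ hσ i]⟩
    have hle : N i ≤ M := Finset.le_sup (Finset.mem_univ i)
    rw [← Nat.add_sub_cancel' hle, pow_add, ← mul_assoc]
    exact P.mul_mem _ _ (hN i) (pow_mem (natCast_mem P p) _)
  have h0 := Fintype.linearIndependent_iff.1 hli (fun i => ⟨_, hmem i⟩) ?_ i₀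
  · have h0' : b i₀ * (p : QQb) ^ M = 0 := congrArg Subtype.val h0
    exact mul_ne_zero (by rw [hb]; exact div_ne_zero hi₀ hi₀)
      (pow_ne_zero _ (Nat.cast_ne_zero.mpr hp.out.ne_zero)) h0'
  · funext w
    have h0 := congrFun hb1 w
    simp only [Finset.sum_apply, Pi.smul_apply, smul_eq_mul, Pi.zero_apply, Rnr_smul_def] at h0 ⊢
    rw [Finset.sum_congr rfl fun i _ => show b i * (p : QQb) ^ M * f i w =
      (p : QQb) ^ M * (b i * f i w) by ring, ← Finset.mul_sum, h0, mul_zero]

/-- A lattice has a basis of equivariant functions which is a basis of all functions. -/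
theorem IsLattice.exists_basis [hp : Fact p.Prime] [Finite W] (hP : P.LiesOverPrime p)
    {act : Dec P → F} {S : Finset (W → QQb)} (h : IsLattice act S) :
    ∃ (n : ℕ) (b : Module.Basis (Fin n) QQb (W → QQb)) (T : Finset (W → QQb)),
      (T : Set (W → QQb)) = Set.range b ∧ IsLattice act T ∧
      Submodule.span (Rnr P) (T : Set (W → QQb)) = Submodule.span (Rnr P) (S : Set (W → QQb)) := by
  classical
  haveI := isPrincipalIdealRing_Rnr hP
  set M := Submodule.span (Rnr P) (S : Set (W → QQb))
  haveI : Module.Finite (Rnr P) M := Module.Finite.iff_fg.2 ⟨S, rfl⟩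
  obtain ⟨n, bM⟩ := Module.basisOfFiniteTypeTorsionFree' (R := Rnr P) (M := M)
  set f : Fin n → W → QQb := fun i => (bM i : W → QQb)
  have hli : LinearIndependent (Rnr P) f :=
    bM.linearIndependent.map' M.subtype (Submodule.ker_subtype M)
  have hspan : Submodule.span (Rnr P) (Set.range f) = M := by
    rw [show Set.range f = M.subtype '' Set.range bM from (Set.range_comp _ _),
      ← Submodule.map_span, bM.span_eq, Submodule.map_top, Submodule.range_subtype]
  have hliQ := linearIndependent_of_equiv hP act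
    (fun σ hσ => Finite.injective_iff_surjective.1 (h.inj σ hσ)) f (fun i σ hσ w => h.equiv' (bM i).2 hσ w) hli
  have htop : ⊤ ≤ Submodule.span QQb (Set.range f) := by
    rw [← h.full]
    refine Submodule.span_le.2 fun g hg => ?_
    exact Submodule.span_le_restrictScalars (Rnr P) QQb _ (hspan.symm ▸ Submodule.subset_span hg)
  refine ⟨n, Module.Basis.mk hliQ htop, Finset.univ.image f, ?_, h.of_span_eq ?_, ?_⟩
  · simp
  all_goals simpa using hspan

/-! ### Closure properties -/

/-- Restriction along an injective equivariant map. -/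
theorem IsLattice.restrict [DecidableEq (W → QQb)] {V : Type*} [AddCommGroup V]
    {F' : Type*} [FunLike F' V V] {act : Dec P → F} {actV : Dec P → F'}
    {S : Finset (W → QQb)} (h : IsLattice act S) {G : Type*} [FunLike G V W] [AddMonoidHomClass G V W] (ι : G) (hι : Function.Injective ι)
    (heq : ∀ σ, IsIne P σ → ∀ v, ι (actV σ v) = act σ (ι v)) [DecidableEq (V → QQb)] :
    IsLattice actV (S.image fun f => f ∘ ι) := by
  let L : (W → QQb) →ₗ[QQb] (V → QQb) := LinearMap.funLeft QQb QQb ι
  let LR : (W → QQb) →ₗ[Rnr P] (V → QQb) := LinearMap.funLeft (Rnr P) QQb ι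
  have hmem : ∀ {f : W → QQb}, f ∈ Submodule.span (Rnr P) (S : Set (W → QQb)) →
      f ∘ ι ∈ Submodule.span (Rnr P) ((S.image fun f => f ∘ ι : Finset _) : Set (V → QQb)) := by
    intro f hf
    have := Submodule.apply_mem_span_image_of_mem_span LR hf
    rw [Finset.coe_image]
    exact this
  refine ⟨?_, ?_, ?_, ?_, hmem h.one, ?_, ?_⟩
  · intro σ hσ a b e
    apply hι
    apply h.inj σ hσ
    rw [← heq σ hσ, ← heq σ hσ, e]
  · simp only [Finset.forall_mem_image]
    exact fun f hf v => h.int f hf _
  · simp only [Finset.forall_mem_image]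
    intro f hf σ hσ v
    show f (ι (actV σ v)) = _
    rw [heq σ hσ v]
    exact h.equiv f hf σ hσ _
  · rw [Finset.coe_image, show (fun f : W → QQb => f ∘ ι) = L from rfl, ← Submodule.map_span,
      h.full, Submodule.map_top, LinearMap.range_eq_top]
    exact LinearMap.funLeft_surjective_of_injective QQb QQb ι hι
  · simp only [Finset.forall_mem_image]
    exact fun f hf g hg => hmem (h.mul f hf g hg)
  · simp only [Finset.forall_mem_image]
    intro f hf
    let LW : (W × W → QQb) →ₗ[Rnr P] (V × V → QQb) :=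
      LinearMap.funLeft (Rnr P) QQb (Prod.map ι ι)
    have h1 := Submodule.apply_mem_span_image_of_mem_span LW (h.trans f hf)
    refine Submodule.span_mono (s := LW '' Set.image2 tens (S : Set (W → QQb)) S) ?_ ?_
    · rintro _ ⟨_, ⟨a, ha, b, hb, rfl⟩, rfl⟩
      exact ⟨a ∘ ι, Finset.mem_coe.2 (Finset.mem_image_of_mem _ ha), b ∘ ι,
        Finset.mem_coe.2 (Finset.mem_image_of_mem _ hb), rfl⟩
    · have e : (fun x : V × V => (f ∘ ι) (x.1 + x.2)) =
          LW (fun x : W × W => f (x.1 + x.2)) := funext fun x => congrArg f (map_add ι _ _)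
      rw [e]
      exact h1

/-- **Subrepresentations of flat representations are flat.** -/
theorem FlatI.restrict {V : Type*} [AddCommGroup V]
    {F' : Type*} [FunLike F' V V] {act : Dec P → F} {actV : Dec P → F'}
    (h : FlatI P act) {G : Type*} [FunLike G V W] [AddMonoidHomClass G V W] (ι : G) (hι : Function.Injective ι)
    (heq : ∀ σ, IsIne P σ → ∀ v, ι (actV σ v) = act σ (ι v)) : FlatI P actV := by
  classical
  obtain ⟨S, hS⟩ := h
  exact ⟨_, hS.restrict ι hι heq⟩

/-- Flatness only depends on inertia and is invariant under isomorphism. -/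
theorem FlatI.congr {V : Type*} [AddCommGroup V]
    {F' : Type*} [FunLike F' V V] {act : Dec P → F} {actV : Dec P → F'}
    (h : FlatI P act) {G : Type*} [EquivLike G V W] [AddEquivClass G V W] (ι : G)
    (heq : ∀ σ, IsIne P σ → ∀ v, ι (actV σ v) = act σ (ι v)) : FlatI P actV :=
  h.restrict (ι : V →+ W) (EquivLike.injective ι) heq

/-- **Products of flat representations are flat.** -/
theorem FlatI.prod {V : Type*} [AddCommGroup V] [Finite W] [Finite V]
    {F' FP : Type*} [FunLike F' V V] [FunLike FP (W × V) (W × V)]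
    {act : Dec P → F} {actV : Dec P → F'}
    (h : FlatI P act) (h' : FlatI P actV) (actP : Dec P → FP)
    (heq : ∀ σ, IsIne P σ → ∀ x, actP σ x = (act σ x.1, actV σ x.2)) : FlatI P actP := by
  classical
  obtain ⟨S, hS⟩ := h
  obtain ⟨T, hT⟩ := h'
  let U : Finset (W × V → QQb) := (S ×ˢ T).image fun x => tens x.1 x.2
  have hU : (U : Set (W × V → QQb)) = Set.image2 tens (S : Set (W → QQb)) T := by
    ext f
    simp [U, Set.mem_image2, and_assoc]
  refine ⟨U, ?_, ?_, ?_, ?_, ?_, ?_, ?_⟩
  · intro σ hσ a b e
    rw [heq σ hσ, heq σ hσ, Prod.mk.injEq] at e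
    exact Prod.ext (hS.inj σ hσ e.1) (hT.inj σ hσ e.2)
  · simp only [U, Finset.forall_mem_image, Finset.mem_product]
    exact fun x hx y => P.mul_mem _ _ (hS.int _ hx.1 _) (hT.int _ hx.2 _)
  · simp only [U, Finset.forall_mem_image, Finset.mem_product]
    intro x hx σ hσ y
    rw [heq σ hσ y]
    show x.1 _ * x.2 _ = _
    rw [hS.equiv _ hx.1 σ hσ, hT.equiv _ hx.2 σ hσ, ← map_mul]
    rfl
  · rw [hU, eq_top_iff]
    intro F _
    cases nonempty_fintype W
    cases nonempty_fintype V
    have hdelta : ∀ (w : W) (v : V), tens (Pi.single w (1 : QQb)) (Pi.single v (1 : QQb)) ∈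
        Submodule.span QQb (Set.image2 tens (S : Set (W → QQb)) T) := by
      intro w v
      let B : (W → QQb) →ₗ[QQb] (V → QQb) →ₗ[QQb] (W × V → QQb) :=
        LinearMap.mk₂ QQb tens (fun g g' h => funext fun x => by simp [tens, add_mul])
          (fun c g h => funext fun x => by simp [tens, mul_assoc])
          (fun g h h' => funext fun x => by simp [tens, mul_add])
          (fun c g h => funext fun x => by simp [tens, mul_left_comm])
      have h1 := Submodule.apply_mem_map₂ B (p := Submodule.span QQb (S : Set (W → QQb)))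
        (q := Submodule.span QQb (T : Set (V → QQb))) (m := Pi.single w 1) (n := Pi.single v 1)
        (by rw [hS.full]; trivial) (by rw [hT.full]; trivial)
      rwa [Submodule.map₂_span_span] at h1
    have e : F = ∑ w, ∑ v, F (w, v) • tens (Pi.single w (1 : QQb)) (Pi.single v (1 : QQb)) := by
      funext ⟨a, b⟩
      simp [tens, Finset.sum_apply, Pi.single_apply]
    rw [e]
    exact sum_mem fun w _ => sum_mem fun v _ => Submodule.smul_mem _ _ (hdelta w v)
  · rw [hU]
    have h1 : (1 : W × V → QQb) = tens (1 : W → QQb) (1 : V → QQb) :=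
      funext fun x => (mul_one 1).symm
    rw [h1]
    exact tens_mem_span hS.one hT.one
  · simp only [U, Finset.forall_mem_image, Finset.mem_product]
    intro x hx y hy
    have h1 : tens x.1 x.2 * tens y.1 y.2 = tens (x.1 * y.1) (x.2 * y.2) :=
      funext fun z => by simp [tens, mul_mul_mul_comm]
    rw [h1, Finset.coe_image, Finset.coe_product, Set.image_prod]
    exact tens_mem_span (hS.mul _ hx.1 _ hy.1) (hT.mul _ hx.2 _ hy.2)
  · simp only [U, Finset.forall_mem_image, Finset.mem_product]
    intro x hx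
    let σ4 : (W × V) × (W × V) → (W × W) × (V × V) := fun z => ((z.1.1, z.2.1), (z.1.2, z.2.2))
    let L : ((W × W) × (V × V) → QQb) →ₗ[Rnr P] ((W × V) × (W × V) → QQb) :=
      LinearMap.funLeft (Rnr P) QQb σ4
    have h1 : tens (fun z : W × W => x.1 (z.1 + z.2)) (fun z : V × V => x.2 (z.1 + z.2)) ∈ _ :=
      tens_mem_span (P := P) (hS.trans _ hx.1) (hT.trans _ hx.2)
    have h2 := Submodule.apply_mem_span_image_of_mem_span L h1
    refine Submodule.span_mono ?_ (show _ ∈ Submodule.span (Rnr P) (L '' _) from h2)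
    rintro _ ⟨_, ⟨_, ⟨a, ha, b, hb, rfl⟩, _, ⟨c, hc, d, hd, rfl⟩, rfl⟩, rfl⟩
    rw [Finset.coe_image, Finset.coe_product, Set.image_prod]
    refine ⟨tens a c, ⟨a, ha, c, hc, rfl⟩, tens b d, ⟨b, hb, d, hd, rfl⟩, funext fun z => ?_⟩
    show a z.1.1 * c z.1.2 * (b z.2.1 * d z.2.2) = a z.1.1 * b z.2.1 * (c z.1.2 * d z.2.2)
    ring

end FLTAgent.FlatLocal
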