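import Fermat.Agent.FlatLocal.Setup

/-!
# Leading coefficients of linear combinations of classes
-/

set_option autoImplicit false
set_option linter.style.haveILetI false
set_option linter.unusedSectionVars false

noncomputable section

open scoped Pointwise
open IsLocalRing

namespace FLTAgent.FlatLocal.TameData

local notation "QQb" => AlgebraicClosure ℚ

variable {P : ValuationSubring (AlgebraicClosure ℚ)} {p : ℕ} [hp : Fact p.Prime] (t : TameData P p)
  {ζ : AlgebraicClosure ℚ} (hP : P.LiesOverPrime p) (hζ : IsPrimitiveRoot ζ p) {m : ℕ}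
  (hm : ¬ p ∣ m) (hmT : m < p * t.e1)

include hP hζ hm hmT

theorem lead_zero : t.lead ζ (fun _ => 0) m = 0 := by
  rw [t.lead_eq hP hζ hm hmT (β := 1) ⟨one_ne_zero, fun σ _ => by simp⟩ (by simp)]
  simp [leadOf]

theorem lead_smul {ν : Dec P → ZMod p} (h : t.Lev ζ ν m) (a : ZMod p) :
    t.lead ζ (fun σ => a * ν σ) m = kp hP a * t.lead ζ ν m := by
  have hm0 : 0 < m := Nat.pos_of_ne_zero fun e => hm (e ▸ dvd_zero p)
  suffices H : ∀ k : ℕ, t.lead ζ (fun σ => (k : ZMod p) * ν σ) m = k * t.lead ζ ν m by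
    have h1 := H a.val
    rwa [ZMod.natCast_zmod_val, ← kp_eq_natCast hP] at h1
  intro k
  induction k with
  | zero =>
    simp only [Nat.cast_zero, zero_mul]
    exact t.lead_zero hP hζ hm hmT
  | succ k ih =>
    have h1 := t.lead_add hP hζ hm hmT (h.smul t hP hζ hm0 (k : ZMod p)) h
    rw [ih] at h1
    rw [show (fun σ => ((k + 1 : ℕ) : ZMod p) * ν σ) = fun σ => (k : ZMod p) * ν σ + ν σ from
      funext fun σ => by push_cast; ring, h1]
    push_cast
    ring

theorem lead_lincomb {ι : Type*} (s : Finset ι) (a : ι → ZMod p) (ν : ι → Dec P → ZMod p)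
    (h : ∀ i ∈ s, t.Lev ζ (ν i) m) :
    t.Lev ζ (fun σ => ∑ i ∈ s, a i * ν i σ) m ∧
      t.lead ζ (fun σ => ∑ i ∈ s, a i * ν i σ) m = ∑ i ∈ s, kp hP (a i) * t.lead ζ (ν i) m := by
  classical
  have hm0 : 0 < m := Nat.pos_of_ne_zero fun e => hm (e ▸ dvd_zero p)
  induction s using Finset.induction with
  | empty =>
    simp only [Finset.sum_empty]
    exact ⟨t.lev_zero_fun m fun _ _ => rfl, t.lead_zero hP hζ hm hmT⟩
  | insert b s hb ih =>
    obtain ⟨h1, h2⟩ := ih fun i hi => h i (Finset.mem_insert_of_mem hi)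
    have h3 := (h b (Finset.mem_insert_self b s)).smul t hP hζ hm0 (a b)
    simp only [Finset.sum_insert hb]
    exact ⟨h3.add t hP hζ hm0 h1, by
      rw [t.lead_add hP hζ hm hmT h3 h1, t.lead_smul hP hζ hm hmT (h b (Finset.mem_insert_self b s)),
        h2]⟩

theorem lead_eq_zero_of_lev_succ {ν : Dec P → ZMod p} (h : t.Lev ζ ν (m + 1)) :
    t.lead ζ ν m = 0 := by
  obtain ⟨β, hβ, hv⟩ := h
  rw [t.lead_eq hP hζ hm hmT hβ (hv.trans ((t.pow_le hP).2 (Nat.le_succ m))), leadOf]
  refine res_eq_zero ?_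
  rw [map_div₀, map_pow, div_lt_one₀ (pow_pos t.vπ_pos _)]
  exact hv.trans_lt ((t.pow_lt hP).2 (Nat.lt_succ_self m))

end FLTAgent.FlatLocal.TameData
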