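import Fermat.Agent.FlatLocal.Kummer

/-!
# The unit filtration on Kummer classes over the tame extension
-/

set_option autoImplicit false
set_option linter.style.haveILetI false
set_option linter.unusedSectionVars false

noncomputable section

open scoped Pointwise
open IsLocalRing

namespace FLTAgent.FlatLocal

local notation "QQb" => AlgebraicClosure ℚ
local notation "GG" => (AlgebraicClosure ℚ ≃ₐ[ℚ] AlgebraicClosure ℚ)

variable {P : ValuationSubring (AlgebraicClosure ℚ)} {p : ℕ} [hp : Fact p.Prime]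

/-- The exponent of a tame datum at the first step of the filtration. -/
def TameData.e1 (t : TameData P p) : ℕ := t.e / (p - 1)

namespace TameData

variable (t : TameData P p)

theorem e1_mul : t.e1 * (p - 1) = t.e := Nat.div_mul_cancel t.dvd_e

theorem e1_pos : 0 < t.e1 := by
  rcases Nat.eq_zero_or_pos t.e1 with h | h
  · have := t.e1_mul; have := t.e_pos; rw [h, zero_mul] at *; omega
  · exact h

theorem p_mul_e1 : p * t.e1 = t.e + t.e1 := by
  have h := t.e1_mul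
  obtain ⟨q, hq⟩ : ∃ q, p = q + 1 := ⟨p - 1, by have := hp.out.pos; omega⟩
  subst hq
  simp only [Nat.add_sub_cancel] at h
  rw [add_mul, one_mul, mul_comm, h]

theorem val_zeta_sub_one (hP : P.LiesOverPrime p) {ζ : QQb} (hζ : IsPrimitiveRoot ζ p) :
    P.valuation (ζ - 1) = t.vπ ^ t.e1 := by
  have hp1 : p - 1 ≠ 0 := by have := hp.out.two_le; omega
  refine (pow_left_inj₀ zero_le zero_le hp1).1 ?_
  rw [← Carayol.valuation_natCast_eq hP hζ, ← pow_mul, t.e1_mul, t.vπ_pow]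

/-- A homomorphism on `G`. -/
structure IsHomG (ν : Dec P → ZMod p) : Prop where
  lev : LevC P ν
  add : ∀ σ ∈ t.G, ∀ τ ∈ t.G, ν (σ * τ) = ν σ + ν τ

variable (ζ : QQb)

/-- A Kummer generator of a homomorphism on `G`. -/
def Gen (ν : Dec P → ZMod p) (β : QQb) : Prop :=
  β ≠ 0 ∧ ∀ σ ∈ t.G, (σ : GG) β = ζ ^ (ν σ).val * β

/-- The class has a generator whose power is congruent to one to order `m`. -/
def Lev (ν : Dec P → ZMod p) (m : ℕ) : Prop :=
  ∃ β : QQb, t.Gen ζ ν β ∧ P.valuation (β ^ p - 1) ≤ t.vπ ^ m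

/-- The leading coefficient at order `m`. -/
def leadOf (β : QQb) (m : ℕ) : ResidueField P := res P ((β ^ p - 1) / t.π ^ m)

variable {ζ} {ν ν' : Dec P → ZMod p} {β β' : QQb}

theorem IsHomG.one (h : t.IsHomG ν) : ν 1 = 0 := by
  simpa using h.add 1 (one_mem _) 1 (one_mem _)

theorem Gen.congr (h : t.Gen ζ ν β) (e : ∀ σ ∈ t.G, ν σ = ν' σ) : t.Gen ζ ν' β :=
  ⟨h.1, fun σ hσ => by rw [h.2 σ hσ, e σ hσ]⟩

theorem Lev.congr {m : ℕ} (h : t.Lev ζ ν m) (e : ∀ σ ∈ t.G, ν σ = ν' σ) : t.Lev ζ ν' m := by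
  obtain ⟨β, hβ, hv⟩ := h
  exact ⟨β, hβ.congr t e, hv⟩

theorem lev_zero_fun (m : ℕ) (h : ∀ σ ∈ t.G, ν σ = 0) : t.Lev ζ ν m :=
  ⟨1, ⟨one_ne_zero, fun σ hσ => by simp [h σ hσ]⟩, by simp⟩

variable (hP : P.LiesOverPrime p) (hζ : IsPrimitiveRoot ζ p)

include hP hζ

theorem exists_gen (hν : t.IsHomG ν) : ∃ β, t.Gen ζ ν β := by
  obtain ⟨α, hα0, hα⟩ := exists_kummer_sub t.G hp.out.pos (fun σ hσ μ hμ => by
      obtain ⟨i, -, rfl⟩ := hζ.eq_pow_of_pow_eq_one hμ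
      rw [map_pow, t.fix_zeta hP hσ hζ]) (fun σ => ζ ^ (ν σ).val)
    (hν.lev.comp fun x => ζ ^ x.val)
    (fun σ _ => by rw [← pow_mul, mul_comm, pow_mul, hζ.pow_eq_one, one_pow])
    (fun σ hσ τ hτ => by rw [hν.add σ hσ τ hτ, Mazur.zpowZMod_add hζ])
  exact ⟨α, hα0, hα⟩

theorem Gen.pow_fixed (h : t.Gen ζ ν β) {σ : Dec P} (hσ : σ ∈ t.G) :
    (σ : GG) (β ^ p) = β ^ p := by
  rw [map_pow, h.2 σ hσ, mul_pow, ← pow_mul, mul_comm _ p, pow_mul, hζ.pow_eq_one, one_pow, one_mul]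

theorem Gen.ratio_fixed (h : t.Gen ζ ν β) (h' : t.Gen ζ ν β') {σ : Dec P} (hσ : σ ∈ t.G) :
    (σ : GG) (β' / β) = β' / β := by
  rw [map_div₀, h.2 σ hσ, h'.2 σ hσ, mul_div_mul_left _ _ (pow_ne_zero _ (hζ.ne_zero hp.out.ne_zero))]

theorem Gen.mul (h : t.Gen ζ ν β) (h' : t.Gen ζ ν' β') :
    t.Gen ζ (fun σ => ν σ + ν' σ) (β * β') := by
  refine ⟨mul_ne_zero h.1 h'.1, fun σ hσ => ?_⟩
  rw [map_mul, h.2 σ hσ, h'.2 σ hσ, Mazur.zpowZMod_add hζ]
  ring

theorem Gen.mul_fixed (h : t.Gen ζ ν β) {u : QQb} (hu : u ≠ 0)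
    (hfix : ∀ σ ∈ t.G, (σ : GG) u = u) : t.Gen ζ ν (β * u) := by
  refine ⟨mul_ne_zero h.1 hu, fun σ hσ => ?_⟩
  rw [map_mul, h.2 σ hσ, hfix σ hσ, mul_assoc]

/-- A generator close to one has value one. -/
theorem val_eq_one {m : ℕ} (hm : 0 < m) (hv : P.valuation (β ^ p - 1) ≤ t.vπ ^ m) :
    P.valuation β = 1 ∧ res P (β ^ p) = 1 := by
  have hlt : P.valuation (β ^ p - 1) < 1 :=
    hv.trans_lt (pow_lt_one₀ zero_le (t.vπ_lt_one hP) hm.ne')
  have h1 : P.valuation (β ^ p) = 1 := by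
    have h := P.valuation.map_add_eq_of_lt_left (x := (1 : QQb)) (y := β ^ p - 1)
      (by rwa [map_one])
    rwa [add_sub_cancel, map_one] at h
  refine ⟨(pow_eq_one_iff_left hp.out.ne_zero).mp (by rw [← map_pow, h1]), ?_⟩
  rw [← res_one (P := P), res_eq_iff (mem_of_val_le_one h1.le) P.one_mem]
  exact hlt

theorem Lev.anti {m n : ℕ} (h : t.Lev ζ ν n) (hmn : m ≤ n) : t.Lev ζ ν m := by
  obtain ⟨β, hβ, hv⟩ := h
  exact ⟨β, hβ, hv.trans ((t.pow_le hP).2 hmn)⟩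

theorem val_mul_sub_one {m : ℕ} (hm : 0 < m) (hv : P.valuation (β ^ p - 1) ≤ t.vπ ^ m)
    (hv' : P.valuation (β' ^ p - 1) ≤ t.vπ ^ m) :
    P.valuation ((β * β') ^ p - 1) ≤ t.vπ ^ m := by
  have e : (β * β') ^ p - 1 = (β ^ p - 1) * β' ^ p + (β' ^ p - 1) := by ring
  rw [e]
  refine (P.valuation.map_add _ _).trans (max_le ?_ hv')
  rw [map_mul, map_pow, (t.val_eq_one hP hζ hm hv').1, one_pow, mul_one]
  exact hv

theorem Lev.add {m : ℕ} (hm : 0 < m) (h : t.Lev ζ ν m) (h' : t.Lev ζ ν' m) :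
    t.Lev ζ (fun σ => ν σ + ν' σ) m := by
  obtain ⟨β, hβ, hv⟩ := h
  obtain ⟨β', hβ', hv'⟩ := h'
  exact ⟨β * β', hβ.mul t hP hζ hβ', t.val_mul_sub_one hP hζ hm hv hv'⟩

theorem Lev.smul {m : ℕ} (hm : 0 < m) (h : t.Lev ζ ν m) (r : ZMod p) :
    t.Lev ζ (fun σ => r * ν σ) m := by
  suffices H : ∀ k : ℕ, t.Lev ζ (fun σ => (k : ZMod p) * ν σ) m by
    simpa [ZMod.natCast_zmod_val] using H r.val
  intro k
  induction k with
  | zero => exact t.lev_zero_fun m fun σ _ => by simp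
  | succ k ih => exact (ih.add t hP hζ hm h).congr t fun σ _ => by push_cast; ring

omit hζ in
theorem exists_fixed_residue_pow (r : ResidueField P) :
    ∃ u : QQb, u ∈ P ∧ res P u ^ p = r ∧ ∀ σ ∈ t.G, (σ : GG) u = u := by
  haveI := FrobTrace.isAlgClosed_residueField P
  obtain ⟨s, hs⟩ := IsAlgClosed.exists_pow_nat_eq r hp.out.pos
  obtain ⟨u, huP, hu, hfix⟩ := exists_fixed_residue hP s
  exact ⟨u, huP, by rw [hu, hs], fun σ hσ => hfix σ hσ.1⟩

/-- Either the class is ramified by a power of the uniformiser, or it is a unit class. -/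
theorem lev_one_or (hν : t.IsHomG ν) :
    (∃ (β : QQb) (k : ℤ), t.Gen ζ ν β ∧ P.valuation (β ^ p) = t.vπ ^ k ∧ ¬ (p : ℤ) ∣ k) ∨
      t.Lev ζ ν 1 := by
  haveI := FrobTrace.charP_residueField hP
  obtain ⟨β, hβ⟩ := t.exists_gen hP hζ hν
  obtain ⟨k, hk⟩ := t.exists_zpow hP (pow_ne_zero p hβ.1) fun σ hσ => hβ.pow_fixed t hP hζ hσ
  by_cases hd : (p : ℤ) ∣ k
  swap
  · exact Or.inl ⟨β, k, hβ, hk, hd⟩
  obtain ⟨j, rfl⟩ := hd
  right
  set β₁ := β * (t.π ^ j)⁻¹ with hβ₁def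
  have hj0 : (t.π ^ j)⁻¹ ≠ 0 := inv_ne_zero (zpow_ne_zero _ t.π_ne_zero)
  have hβ₁ : t.Gen ζ ν β₁ := hβ.mul_fixed t hP hζ hj0 fun σ hσ => by
    rw [map_inv₀, map_zpow₀ (σ : GG), hσ.2]
  have hv₁ : P.valuation (β₁ ^ p) = 1 := by
    rw [hβ₁def, mul_pow, map_mul, hk, map_pow, map_inv₀, map_zpow₀, inv_pow, ← zpow_natCast,
      ← zpow_mul, mul_comm j, mul_inv_cancel₀ (zpow_ne_zero _ t.vπ_ne_zero)]
  have hmem : β₁ ^ p ∈ P := mem_of_val_le_one hv₁.le
  obtain ⟨u, huP, hu, hufix⟩ := t.exists_fixed_residue_pow hP (res P (β₁ ^ p))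
  have hu0 : res P u ≠ 0 := fun e => res_ne_zero hv₁ (by rw [← hu, e, zero_pow hp.out.ne_zero])
  have huv : P.valuation u = 1 := le_antisymm (val_le_one_of_mem huP)
    (not_lt.1 fun h => hu0 (res_eq_zero h))
  have hu' : u ≠ 0 := fun e => by rw [e, map_zero] at huv; exact zero_ne_one huv
  have hβ₂ : t.Gen ζ ν (β₁ * u⁻¹) := hβ₁.mul_fixed t hP hζ (inv_ne_zero hu') fun σ hσ => by
    rw [map_inv₀, hufix σ hσ]
  refine ⟨_, hβ₂, t.le_of_lt_one hP (i := 0) (fun σ hσ => ?_) ?_⟩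
  · rw [map_sub, map_one, hβ₂.pow_fixed t hP hζ hσ]
  · have e : (β₁ * u⁻¹) ^ p - 1 = (β₁ ^ p - u ^ p) / u ^ p := by
      rw [sub_div, div_self (pow_ne_zero _ hu'), mul_pow, inv_pow, div_eq_mul_inv]
    rw [e, pow_zero, map_div₀, map_pow, huv, one_pow, div_one,
      ← res_eq_iff hmem (pow_mem huP p), res_pow huP, hu]

/-- The next step of the filtration. -/
theorem lev_succ_or {m : ℕ} (hm : 0 < m) (hmT : m < p * t.e1) (h : t.Lev ζ ν m) :
    (¬ p ∣ m ∧ ∃ β, t.Gen ζ ν β ∧ P.valuation (β ^ p - 1) = t.vπ ^ m) ∨ t.Lev ζ ν (m + 1) := by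
  obtain ⟨β, hβ, hv⟩ := h
  have hfix : ∀ σ ∈ t.G, (σ : GG) (β ^ p - 1) = β ^ p - 1 := fun σ hσ => by
    rw [map_sub, map_one, hβ.pow_fixed t hP hζ hσ]
  rcases hv.lt_or_eq with hlt | heq
  · exact Or.inr ⟨β, hβ, t.le_of_lt_one hP hfix hlt⟩
  by_cases hd : p ∣ m
  swap
  · exact Or.inl ⟨hd, β, hβ, heq⟩
  right
  obtain ⟨m', rfl⟩ := hd
  have hπm : t.π ^ (p * m') ≠ 0 := pow_ne_zero _ t.π_ne_zero
  set r := (β ^ p - 1) / t.π ^ (p * m') with hr
  have hrv : P.valuation r = 1 := by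
    rw [hr, map_div₀, heq, map_pow, div_self (pow_ne_zero _ t.vπ_ne_zero)]
  obtain ⟨u, huP, hu, hufix⟩ := t.exists_fixed_residue_pow hP (res P r)
  set y := u * t.π ^ m' with hy
  have hyP : y ∈ P :=
    mul_mem huP (pow_mem (mem_of_val_le_one (t.vπ_lt_one hP).le) _)
  obtain ⟨c, hc⟩ := exists_add_pow_prime_eq hp.out (1 : P) ⟨y, hyP⟩
  have hc' : (1 + y) ^ p = 1 + y ^ p + (p : QQb) * y * (c : QQb) := by
    have h := congrArg (Subtype.val) hc
    push_cast at h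
    rw [h]; ring
  have hm' : 0 < m' := pos_of_mul_pos_right hm (Nat.zero_le _)
  have hm'1 : m' < t.e1 := Nat.lt_of_mul_lt_mul_left hmT
  have herr : P.valuation ((p : QQb) * y * (c : QQb)) < t.vπ ^ (p * m') := by
    rw [map_mul, map_mul]
    refine (mul_le_of_le_one_right' (val_le_one_of_mem c.2)).trans_lt ?_
    rw [hy, map_mul, map_pow, ← t.vπ_pow, ← mul_assoc, mul_right_comm]
    refine (mul_le_of_le_one_right' (val_le_one_of_mem huP)).trans_lt ?_
    rw [← pow_add, t.pow_lt hP]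
    have h1 := t.e1_mul
    obtain ⟨q, hq⟩ : ∃ q, p = q + 1 := ⟨p - 1, by have := hp.out.pos; omega⟩
    subst hq
    simp only [Nat.add_sub_cancel] at h1
    have h2 : 1 ≤ q := by have := hp.out.two_le; omega
    nlinarith
  have hyv : P.valuation y < 1 := by
    rw [hy, map_mul, map_pow]
    exact (mul_le_of_le_one_left' (val_le_one_of_mem huP)).trans_lt
      (pow_lt_one₀ zero_le (t.vπ_lt_one hP) hm'.ne')
  have hg1 : P.valuation (1 + y) = 1 := by
    rw [P.valuation.map_add_eq_of_lt_left (by rwa [map_one]), map_one]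
  have hg0 : 1 + y ≠ 0 := fun e => by rw [e, map_zero] at hg1; exact zero_ne_one hg1
  have hyfix : ∀ σ ∈ t.G, (σ : GG) (1 + y) = 1 + y := fun σ hσ => by
    rw [hy, map_add, map_one, map_mul, map_pow, hσ.2, hufix σ hσ]
  have hβ' : t.Gen ζ ν (β * (1 + y)⁻¹) := hβ.mul_fixed t hP hζ (inv_ne_zero hg0) fun σ hσ => by
    rw [map_inv₀, hyfix σ hσ]
  refine ⟨_, hβ', t.le_of_lt_one hP (fun σ hσ => ?_) ?_⟩
  · rw [map_sub, map_one, hβ'.pow_fixed t hP hζ hσ]
  · have e : (β * (1 + y)⁻¹) ^ p - 1 =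
        ((β ^ p - 1 - y ^ p) - (p : QQb) * y * (c : QQb)) / (1 + y) ^ p := by
      rw [eq_div_iff (pow_ne_zero _ hg0), sub_mul, one_mul, mul_pow, inv_pow,
        inv_mul_cancel_right₀ (pow_ne_zero _ hg0), hc']
      ring
    rw [e, map_div₀, map_pow, hg1, one_pow, div_one]
    refine P.valuation.map_sub _ _ |>.trans_lt (max_lt ?_ herr)
    have e2 : β ^ p - 1 - y ^ p = (r - u ^ p) * t.π ^ (p * m') := by
      rw [sub_mul, hr, div_mul_cancel₀ _ hπm, hy, mul_pow, ← pow_mul, mul_comm m' p]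
    rw [e2, map_mul, map_pow]
    refine mul_lt_of_lt_one_left (pow_pos t.vπ_pos _) ?_
    rw [← res_eq_iff (mem_of_val_le_one hrv.le) (pow_mem huP p), res_pow huP, hu]

/-- A class at the top of the filtration is trivial on `G`. -/
theorem eq_zero_of_lev_top (h : t.Lev ζ ν (p * t.e1)) {σ : Dec P} (hσ : σ ∈ t.G) : ν σ = 0 := by
  haveI := FrobTrace.charP_residueField hP
  obtain ⟨β, hβ, hv⟩ := h
  have hT : 0 < p * t.e1 := Nat.mul_pos hp.out.pos t.e1_pos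
  have hβ1 := (t.val_eq_one hP hζ hT hv).1
  have hβP : β ∈ P := mem_of_val_le_one hβ1.le
  have hd0 : ζ - 1 ≠ 0 := sub_ne_zero.2 (hζ.ne_one hp.out.one_lt)
  set z := (β - 1) / (ζ - 1) with hz
  have hzP : z ∈ P := by
    refine mem_of_val_le_one (not_lt.1 fun hlt => ?_)
    rw [hz, map_div₀, t.val_zeta_sub_one hP hζ, one_lt_div₀ (pow_pos t.vπ_pos _)] at hlt
    obtain ⟨c, hc⟩ := exists_add_pow_prime_eq hp.out (1 : P) (⟨β, hβP⟩ - 1)
    have hc' : β ^ p - 1 = (β - 1) ^ p + (p : QQb) * (β - 1) * (c : QQb) := by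
      have h := congrArg (Subtype.val) hc
      push_cast at h
      rw [add_sub_cancel] at h
      rw [h]; ring
    have hy0 : (0 : P.ValueGroup) < P.valuation (β - 1) := (pow_pos t.vπ_pos _).trans hlt
    have h1 : P.valuation ((p : QQb) * (β - 1) * (c : QQb)) < P.valuation ((β - 1) ^ p) := by
      rw [map_mul, map_mul]
      refine (mul_le_of_le_one_right' (val_le_one_of_mem c.2)).trans_lt ?_
      rw [map_pow, ← t.vπ_pow, ← t.e1_mul, pow_mul]
      conv_rhs => rw [show p = (p - 1) + 1 by have := hp.out.pos; omega, pow_succ]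
      exact mul_lt_mul_of_pos_right (pow_lt_pow_left₀ hlt zero_le
        (by have := hp.out.two_le; omega)) hy0
    rw [hc', P.valuation.map_add_eq_of_lt_left h1, map_pow, mul_comm p, pow_mul] at hv
    exact absurd (pow_lt_pow_left₀ hlt zero_le hp.out.ne_zero) (not_lt.2 hv)
  set n := (ν σ).val
  have hζP : ζ ∈ P := mem_of_val_le_one (val_root hp.out.ne_zero hζ.pow_eq_one).le
  have hd : (σ : GG) z - z = (∑ j ∈ Finset.range n, ζ ^ j) * β := by
    rw [hz, map_div₀ (σ : GG), map_sub, map_sub, map_one, t.fix_zeta hP hσ hζ, hβ.2 σ hσ,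
      div_sub_div_same, div_eq_iff hd0, mul_right_comm, geom_sum_mul]
    ring
  have h0 := res_eq_zero (hσ.1.val_sub_lt_one hzP)
  have hres1 : res P ζ = 1 := by
    rw [← res_one (P := P), res_eq_iff hζP P.one_mem]
    exact Carayol.valuation_sub_one_lt hP hζ
  rw [hd, res_mul (sum_mem fun j _ => pow_mem hζP j) hβP, res_sum _ _ fun j _ => pow_mem hζP j,
    Finset.sum_congr rfl fun j _ => show res P (ζ ^ j) = 1 by rw [res_pow hζP, hres1, one_pow]]
    at h0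
  simp only [Finset.sum_const, Finset.card_range, nsmul_eq_mul, mul_one, mul_eq_zero,
    res_ne_zero hβ1, or_false] at h0
  have h3 := (CharP.cast_eq_zero_iff (ResidueField P) p n).1 h0
  exact (ZMod.val_eq_zero _).1 (Nat.eq_zero_of_dvd_of_lt h3 (ZMod.val_lt _))

/-! ### The leading coefficient -/

/-- Two generators have the same leading coefficient. -/
theorem leadOf_unique {m : ℕ} (hm : ¬ p ∣ m) (hmT : m < p * t.e1) (hβ : t.Gen ζ ν β)
    (hβ' : t.Gen ζ ν β') (hv : P.valuation (β ^ p - 1) ≤ t.vπ ^ m)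
    (hv' : P.valuation (β' ^ p - 1) ≤ t.vπ ^ m) : t.leadOf β m = t.leadOf β' m := by
  haveI := FrobTrace.charP_residueField hP
  have hm0 : 0 < m := Nat.pos_of_ne_zero fun e => hm (e ▸ dvd_zero p)
  have hb := t.val_eq_one hP hζ hm0 hv
  have hb' := t.val_eq_one hP hζ hm0 hv'
  set γ := β' / β with hγ
  have hγv : P.valuation γ = 1 := by rw [hγ, map_div₀, hb.1, hb'.1, div_one]
  have hγP : γ ∈ P := mem_of_val_le_one hγv.le
  have hγp : γ ^ p - 1 = ((β' ^ p - 1) - (β ^ p - 1)) / β ^ p := by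
    rw [hγ, div_pow, sub_sub_sub_cancel_right, sub_div, div_self (pow_ne_zero _ hβ.1)]
  have hlt : P.valuation (γ ^ p - 1) < t.vπ ^ m := by
    have hle : P.valuation (γ ^ p - 1) ≤ t.vπ ^ m := by
      rw [hγp, map_div₀, map_pow, hb.1, one_pow, div_one]
      exact (P.valuation.map_sub _ _).trans (max_le hv' hv)
    set y := γ - 1 with hy
    have hy1 : P.valuation y < 1 := by
      rw [hy, ← res_eq_iff hγP P.one_mem, res_one]
      have h1 : res P (γ ^ p) = 1 := by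
        rw [← res_one (P := P), res_eq_iff (pow_mem hγP p) P.one_mem]
        exact hle.trans_lt (pow_lt_one₀ zero_le (t.vπ_lt_one hP) hm0.ne')
      rw [res_pow hγP] at h1
      exact frobenius_inj (ResidueField P) p (by simpa [frobenius_def] using h1)
    rcases eq_or_ne y 0 with h0 | h0
    · rw [show γ = 1 from sub_eq_zero.1 h0, one_pow, sub_self, map_zero]
      exact pow_pos t.vπ_pos _
    obtain ⟨j, hj⟩ := t.exists_pow hP h0 (mem_of_val_le_one hy1.le) fun σ hσ => by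
      rw [hy, map_sub, map_one, hβ.ratio_fixed t hP hζ hβ' hσ]
    have hj0 : 0 < j := Nat.pos_of_ne_zero fun e => by rw [e, pow_zero] at hj; exact hy1.ne hj
    obtain ⟨c, hc⟩ := exists_add_pow_prime_eq hp.out (1 : P) (⟨γ, hγP⟩ - 1)
    have hc' : γ ^ p - 1 = y ^ p + (p : QQb) * y * (c : QQb) := by
      have h := congrArg (Subtype.val) hc
      push_cast at h
      rw [add_sub_cancel] at h
      rw [hy, h]; ring
    have hpy : P.valuation ((p : QQb) * y * (c : QQb)) ≤ t.vπ ^ (t.e + j) := by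
      rw [map_mul, map_mul, pow_add, ← hj, t.vπ_pow]
      exact mul_le_of_le_one_right' (val_le_one_of_mem c.2)
    have hyp : P.valuation (y ^ p) = t.vπ ^ (p * j) := by rw [map_pow, hj, ← pow_mul, mul_comm]
    have hT := t.p_mul_e1
    rcases lt_or_ge j t.e1 with hj1 | hj1
    · have hlt2 : P.valuation ((p : QQb) * y * (c : QQb)) < P.valuation (y ^ p) := by
        rw [hyp]
        refine hpy.trans_lt ((t.pow_lt hP).2 ?_)
        obtain ⟨q, hq⟩ : ∃ q, p = q + 1 := ⟨p - 1, by have := hp.out.pos; omega⟩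
        have h1 := t.e1_mul
        subst hq
        simp only [Nat.add_sub_cancel] at h1
        have h2 : 1 ≤ q := by have := hp.out.two_le; omega
        nlinarith
      have he : P.valuation (γ ^ p - 1) = t.vπ ^ (p * j) := by
        rw [hc', P.valuation.map_add_eq_of_lt_left hlt2, hyp]
      rw [he] at hle ⊢
      refine lt_of_le_of_ne hle fun e => hm ?_
      exact ⟨j, (t.pow_inj hP e).symm⟩
    · refine lt_of_le_of_lt ?_ ((t.pow_lt hP).2 hmT)
      rw [hc']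
      refine (P.valuation.map_add _ _).trans (max_le ?_ (hpy.trans ((t.pow_le hP).2 (by omega))))
      rw [hyp]
      exact (t.pow_le hP).2 (Nat.mul_le_mul_left p hj1)
  have hd : P.valuation (((β' ^ p - 1) - (β ^ p - 1)) / t.π ^ m) < 1 := by
    rw [map_div₀, map_pow, div_lt_one₀ (pow_pos t.vπ_pos _)]
    have e : (β' ^ p - 1) - (β ^ p - 1) = (γ ^ p - 1) * β ^ p := by
      rw [hγp, div_mul_cancel₀ _ (pow_ne_zero _ hβ.1)]
    rw [e, map_mul, map_pow, hb.1, one_pow, mul_one]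
    exact hlt
  have hmem : ∀ {b : QQb}, P.valuation (b ^ p - 1) ≤ t.vπ ^ m → (b ^ p - 1) / t.π ^ m ∈ P :=
    fun h => mem_of_val_le_one (by
      rw [map_div₀, map_pow]; exact div_le_one_of_le₀ h zero_le)
  rw [leadOf, leadOf, eq_comm, res_eq_iff (hmem hv') (hmem hv), ← sub_div]
  exact hd

open scoped Classical in
omit hP hζ in
/-- The leading coefficient of a class at order `m`. -/
def lead (t : TameData P p) (ζ : QQb) (ν : Dec P → ZMod p) (m : ℕ) : ResidueField P :=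
  if h : t.Lev ζ ν m then t.leadOf h.choose m else 0

theorem lead_eq {m : ℕ} (hm : ¬ p ∣ m) (hmT : m < p * t.e1) (hβ : t.Gen ζ ν β)
    (hv : P.valuation (β ^ p - 1) ≤ t.vπ ^ m) : t.lead ζ ν m = t.leadOf β m := by
  have h : t.Lev ζ ν m := ⟨β, hβ, hv⟩
  rw [lead, dif_pos h]
  exact t.leadOf_unique hP hζ hm hmT h.choose_spec.1 hβ h.choose_spec.2 hv

theorem lead_congr {m : ℕ} (hm : ¬ p ∣ m) (hmT : m < p * t.e1) (h : t.Lev ζ ν m)
    (e : ∀ σ ∈ t.G, ν σ = ν' σ) : t.lead ζ ν m = t.lead ζ ν' m := by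
  obtain ⟨β, hβ, hv⟩ := h
  rw [t.lead_eq hP hζ hm hmT hβ hv, t.lead_eq hP hζ hm hmT (hβ.congr t e) hv]

theorem lead_add {m : ℕ} (hm : ¬ p ∣ m) (hmT : m < p * t.e1) (h : t.Lev ζ ν m)
    (h' : t.Lev ζ ν' m) :
    t.lead ζ (fun σ => ν σ + ν' σ) m = t.lead ζ ν m + t.lead ζ ν' m := by
  obtain ⟨β, hβ, hv⟩ := h
  obtain ⟨β', hβ', hv'⟩ := h'
  have hm0 : 0 < m := Nat.pos_of_ne_zero fun e => hm (e ▸ dvd_zero p)
  rw [t.lead_eq hP hζ hm hmT (hβ.mul t hP hζ hβ') (t.val_mul_sub_one hP hζ hm0 hv hv'),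
    t.lead_eq hP hζ hm hmT hβ hv, t.lead_eq hP hζ hm hmT hβ' hv', leadOf, leadOf, leadOf]
  have hmem : ∀ {b : QQb}, P.valuation (b ^ p - 1) ≤ t.vπ ^ m → (b ^ p - 1) / t.π ^ m ∈ P :=
    fun h => mem_of_val_le_one (by
      rw [map_div₀, map_pow]; exact div_le_one_of_le₀ h zero_le)
  have hb' := t.val_eq_one hP hζ hm0 hv'
  have hbP : β' ^ p ∈ P := mem_of_val_le_one (by rw [map_pow, hb'.1, one_pow])
  have e : ((β * β') ^ p - 1) / t.π ^ m =
      (β ^ p - 1) / t.π ^ m * β' ^ p + (β' ^ p - 1) / t.π ^ m := by ring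
  rw [e, res_add (mul_mem (hmem hv) hbP) (hmem hv'), res_mul (hmem hv) hbP, hb'.2, mul_one]

theorem lev_succ_of_lead {m : ℕ} (hm : ¬ p ∣ m) (hmT : m < p * t.e1) (h : t.Lev ζ ν m)
    (h0 : t.lead ζ ν m = 0) : t.Lev ζ ν (m + 1) := by
  have hm0 : 0 < m := Nat.pos_of_ne_zero fun e => hm (e ▸ dvd_zero p)
  rcases t.lev_succ_or hP hζ hm0 hmT h with ⟨-, β, hβ, hv⟩ | h1
  · rw [t.lead_eq hP hζ hm hmT hβ hv.le, leadOf] at h0
    exact absurd h0 (res_ne_zero (by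
      rw [map_div₀, hv, map_pow, div_self (pow_ne_zero _ t.vπ_ne_zero)]))
  · exact h1

/-! ### Conjugation by the decomposition group -/

theorem Gen.conj (h : t.Gen ζ ν β) (g : Dec P) :
    t.Gen ζ (fun σ => Mazur.expChar p ζ (g : GG) * ν (g⁻¹ * σ * g)) ((g : GG) β) := by
  refine ⟨(map_ne_zero_iff _ (g : GG).injective).mpr h.1, fun σ hσ => ?_⟩
  have h1 := congrArg (g : GG) (h.2 _ (t.G_conj_inv hP hσ g))
  rw [map_mul, map_pow, Mazur.isExp_expChar hζ (g : GG), ← Mazur.zpowZMod_mul hζ] at h1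
  rw [← h1]
  show (σ : GG) ((g : GG) β) = (g : GG) (((g⁻¹ : Dec P) : GG) ((σ : GG) ((g : GG) β)))
  rw [coe_inv_apply]

omit hP hζ in
theorem val_conj (g : Dec P) (β : QQb) :
    P.valuation ((g : GG) β ^ p - 1) = P.valuation (β ^ p - 1) := by
  rw [← val_map g (β ^ p - 1), map_sub (g : GG), map_one (g : GG), map_pow (g : GG)]

theorem Lev.conj {m : ℕ} (h : t.Lev ζ ν m) (g : Dec P) :
    t.Lev ζ (fun σ => Mazur.expChar p ζ (g : GG) * ν (g⁻¹ * σ * g)) m := by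
  obtain ⟨β, hβ, hv⟩ := h
  exact ⟨(g : GG) β, hβ.conj t hP hζ g, (val_conj g β).trans_le hv⟩

theorem lead_conj {m : ℕ} (hm : ¬ p ∣ m) (hmT : m < p * t.e1) (h : t.Lev ζ ν m) (g : Dec P) :
    t.lead ζ (fun σ => Mazur.expChar p ζ (g : GG) * ν (g⁻¹ * σ * g)) m =
      g • t.lead ζ ν m * t.th g ^ m := by
  obtain ⟨β, hβ, hv⟩ := h
  rw [t.lead_eq hP hζ hm hmT (hβ.conj t hP hζ g) ((val_conj g β).trans_le hv),
    t.lead_eq hP hζ hm hmT hβ hv, leadOf, leadOf]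
  have hx : (β ^ p - 1) / t.π ^ m ∈ P := mem_of_val_le_one (by
    rw [map_div₀, map_pow]; exact div_le_one_of_le₀ hv zero_le)
  have hq := div_map_mem g t.π_ne_zero
  rw [th, thx, ← res_pow hq, smul_res g hx, ← res_mul (map_mem g hx) (pow_mem hq m)]
  congr 1
  rw [map_div₀ (g : GG), map_sub, map_one, map_pow, map_pow, div_pow,
    div_mul_div_cancel₀ (pow_ne_zero _ ((map_ne_zero_iff _ (g : GG).injective).mpr t.π_ne_zero))]

end TameData

end FLTAgent.FlatLocal
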