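import Fermat.Agent.FlatLocal.Levels

/-!
# How far an integral element of a Kummer extension of degree `p` can move
-/

set_option autoImplicit false
set_option linter.style.haveILetI false
set_option linter.unusedSectionVars false

noncomputable section

open scoped Pointwise
open IsLocalRing

namespace FLTAgent.FlatLocal

local notation "QQb" => AlgebraicClosure ℚ
local notation "GG" => (AlgebraicClosure ℚ ≃ₐ[ℚ] AlgebraicClosure ℚ)

variable {P : ValuationSubring (AlgebraicClosure ℚ)} {p : ℕ} [hp : Fact p.Prime]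

/-- Summands of pairwise different values are bounded by the sum. -/
theorem val_le_sum_of_distinct {ι : Type*} (s : Finset ι) (f : ι → QQb)
    (h : ∀ i ∈ s, ∀ j ∈ s, f i ≠ 0 → P.valuation (f i) = P.valuation (f j) → i = j) :
    ∀ i ∈ s, P.valuation (f i) ≤ P.valuation (∑ j ∈ s, f j) := by
  classical
  intro i hi
  obtain ⟨j, hj, hmax⟩ := s.exists_max_image (fun j => P.valuation (f j)) ⟨i, hi⟩
  refine (hmax i hi).trans (le_of_eq ?_)
  rcases eq_or_ne (f j) 0 with h0 | h0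
  · have hall : ∀ k ∈ s, f k = 0 := fun k hk => by
      have := hmax k hk
      rw [h0, map_zero, le_zero_iff, Valuation.zero_iff] at this
      exact this
    rw [Finset.sum_eq_zero hall, h0]
  rw [← Finset.add_sum_erase s f hj, P.valuation.map_add_eq_of_lt_left]
  refine P.valuation.map_sum_lt ((Valuation.ne_zero_iff _).2 h0) fun k hk => ?_
  obtain ⟨hne, hks⟩ := Finset.mem_erase.1 hk
  exact lt_of_le_of_ne (hmax k hks) fun e => hne (h j hj k hks h0 e.symm).symm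

theorem val_pow_sub_one_le {u : QQb} (hu : u ∈ P) (n : ℕ) :
    P.valuation (u ^ n - 1) ≤ P.valuation (u - 1) := by
  rw [← geom_sum_mul, map_mul]
  exact mul_le_of_le_one_left' (val_le_one_of_mem (sum_mem fun i _ => pow_mem hu i))

namespace TameData

variable (t : TameData P p) {ζ : QQb} (hP : P.LiesOverPrime p) (hζ : IsPrimitiveRoot ζ p)
  {ν : Dec P → ZMod p}

include hP hζ

omit hP hζ in
/-- The field fixed by `G`. -/
def fixG : IntermediateField ℚ QQb :=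
  IntermediateField.fixedField (t.G.map (Dec P).subtype)

omit hP hζ in
theorem mem_fixG {x : QQb} : x ∈ t.fixG ↔ ∀ σ ∈ t.G, (σ : GG) x = x := by
  rw [fixG, IntermediateField.mem_fixedField_iff]
  constructor
  · exact fun h σ hσ => h _ ⟨σ, hσ, rfl⟩
  · rintro h _ ⟨σ, hσ, rfl⟩
    exact h σ hσ

/-- Elements fixed by the kernel of a nontrivial class are polynomials in a generator. -/
theorem mem_span_pow {β : QQb} (hν : t.IsHomG ν) (hβ : t.Gen ζ ν β) {σ₁ : Dec P}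
    (hσ₁ : σ₁ ∈ t.G) (hν₁ : ν σ₁ = 1) {z : QQb}
    (hz : ∀ σ ∈ t.G, ν σ = 0 → (σ : GG) z = z) :
    z ∈ Submodule.span t.fixG (Set.range fun j : Fin p => β ^ (j : ℕ)) := by
  classical
  have hp0 : (p : QQb) ≠ 0 := Nat.cast_ne_zero.mpr hp.out.ne_zero
  have hζ0 : ζ ≠ 0 := hζ.ne_zero hp.out.ne_zero
  let S : ℕ → QQb := fun l => ((σ₁ ^ l : Dec P) : GG) z
  have hνpow : ∀ l : ℕ, ν (σ₁ ^ l) = l := by
    intro l
    induction l with
    | zero => simp [hν.one t]
    | succ l ih =>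
      rw [pow_succ, hν.add _ (pow_mem hσ₁ l) _ hσ₁, ih, hν₁, Nat.cast_succ]
  have hdep : ∀ σ ∈ t.G, ∀ l : ℕ, (σ : GG) (S l) = S ((ν σ).val + l) := by
    intro σ hσ l
    have hmem : (σ₁ ^ ((ν σ).val + l))⁻¹ * (σ * σ₁ ^ l) ∈ t.G :=
      mul_mem (inv_mem (pow_mem hσ₁ _)) (mul_mem hσ (pow_mem hσ₁ _))
    have h0 : ν ((σ₁ ^ ((ν σ).val + l))⁻¹ * (σ * σ₁ ^ l)) = 0 := by
      have h1 := hν.add _ (pow_mem hσ₁ ((ν σ).val + l)) _ hmem
      rw [mul_inv_cancel_left, hν.add _ hσ _ (pow_mem hσ₁ l), hνpow, hνpow, Nat.cast_add,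
        ZMod.natCast_zmod_val] at h1
      exact (add_eq_left.1 h1.symm)
    have h2 := congrArg (((σ₁ ^ ((ν σ).val + l) : Dec P) : GG)) (hz _ hmem h0)
    show (σ : GG) (S l) = ((σ₁ ^ ((ν σ).val + l) : Dec P) : GG) z
    rw [← h2]
    exact (coe_inv_apply (σ₁ ^ ((ν σ).val + l)) (((σ * σ₁ ^ l : Dec P) : GG) z)).symm
  have hper : ∀ l : ℕ, S l = S (l % p) := by
    intro l
    have hm : (σ₁ ^ (l % p))⁻¹ * σ₁ ^ l ∈ t.G :=
      mul_mem (inv_mem (pow_mem hσ₁ _)) (pow_mem hσ₁ _)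
    have h0 : ν ((σ₁ ^ (l % p))⁻¹ * σ₁ ^ l) = 0 := by
      have h1 := hν.add _ (pow_mem hσ₁ (l % p)) _ hm
      rw [mul_inv_cancel_left, hνpow, hνpow, ZMod.natCast_mod] at h1
      exact (add_eq_left.1 h1.symm)
    have h2 := congrArg (((σ₁ ^ (l % p) : Dec P) : GG)) (hz _ hm h0)
    exact (coe_inv_apply (σ₁ ^ (l % p)) (((σ₁ ^ l : Dec P) : GG) z)).symm.trans h2
  -- the resolvents
  let R : ℕ → QQb := fun j => ∑ l ∈ Finset.range p, (ζ ^ (j * l))⁻¹ * S l
  have hR : ∀ σ ∈ t.G, ∀ j, (σ : GG) (R j) = ζ ^ (j * (ν σ).val) * R j := by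
    intro σ hσ j
    rw [map_sum, Finset.mul_sum]
    refine Finset.sum_bij' (fun l _ => ((ν σ).val + l) % p)
      (fun l _ => (l + (p - (ν σ).val)) % p)
      (fun l _ => Finset.mem_range.2 (Nat.mod_lt _ hp.out.pos))
      (fun l _ => Finset.mem_range.2 (Nat.mod_lt _ hp.out.pos)) ?_ ?_ ?_
    · intro l hl
      have hn := ZMod.val_lt (ν σ)
      have hl' := Finset.mem_range.1 hl
      rw [Nat.mod_add_mod, show (ν σ).val + l + (p - (ν σ).val) = l + p by omega,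
        Nat.add_mod_right, Nat.mod_eq_of_lt hl']
    · intro l hl
      have hn := ZMod.val_lt (ν σ)
      have hl' := Finset.mem_range.1 hl
      rw [Nat.add_mod_mod, show (ν σ).val + (l + (p - (ν σ).val)) = l + p by omega,
        Nat.add_mod_right, Nat.mod_eq_of_lt hl']
    · intro l _
      rw [map_mul, map_inv₀, map_pow, t.fix_zeta hP hσ hζ, hdep σ hσ l, hper ((ν σ).val + l),
        ← mul_assoc]
      congr 1
      have hk : ∀ k : ℕ, ζ ^ (j * (k % p)) = ζ ^ (j * k) := by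
        intro k
        rw [pow_eq_pow_mod (j * (k % p)) hζ.pow_eq_one, Nat.mul_mod_mod,
          ← pow_eq_pow_mod (j * k) hζ.pow_eq_one]
      rw [hk, mul_add, pow_add]
      field_simp
  have hf : ∀ j : ℕ, R j / β ^ j ∈ t.fixG := by
    intro j
    rw [t.mem_fixG]
    intro σ hσ
    rw [map_div₀, map_pow, hR σ hσ, hβ.2 σ hσ, mul_pow, ← pow_mul, mul_comm (ν σ).val,
      mul_div_mul_left _ _ (pow_ne_zero _ hζ0)]
  have hsum : ∑ j ∈ Finset.range p, R j = (p : QQb) * z := by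
    simp only [R]
    rw [Finset.sum_comm, Finset.sum_eq_single 0]
    · simp [S]
    · intro l hl hl0
      rw [← Finset.sum_mul, Finset.sum_congr rfl fun j _ => show (ζ ^ (j * l))⁻¹ = ((ζ ^ l)⁻¹) ^ j by
        rw [inv_pow, ← pow_mul, mul_comm]]
      have hne : (ζ ^ l)⁻¹ ≠ 1 := by
        rw [ne_eq, inv_eq_one]
        exact fun e => hl0 (Nat.eq_zero_of_dvd_of_lt (hζ.dvd_of_pow_eq_one l e)
          (Finset.mem_range.1 hl))
      have := geom_sum_mul ((ζ ^ l)⁻¹) p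
      rw [inv_pow, ← pow_mul, mul_comm l, pow_mul, hζ.pow_eq_one, one_pow, inv_one, sub_self,
        mul_eq_zero] at this
      rw [this.resolve_right (sub_ne_zero.2 hne), zero_mul]
    · intro h; exact absurd (Finset.mem_range.2 hp.out.pos) h
  have hz' : z = ∑ j : Fin p, (⟨(R j / β ^ (j : ℕ)) / p, div_mem (hf j) (natCast_mem t.fixG p)⟩ :
      t.fixG) • β ^ (j : ℕ) := by
    rw [Fin.sum_univ_eq_sum_range fun j : ℕ =>
      (⟨(R j / β ^ j) / p, div_mem (hf j) (natCast_mem t.fixG p)⟩ : t.fixG) • β ^ j]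
    simp only [IntermediateField.smul_def, smul_eq_mul]
    rw [Finset.sum_congr rfl fun j _ => show R j / β ^ j / p * β ^ j = R j / p by
      rw [div_right_comm, div_mul_cancel₀ _ (pow_ne_zero _ hβ.1)], ← Finset.sum_div, hsum,
      mul_div_cancel_left₀ _ hp0]
  rw [hz']
  exact sum_mem fun j _ => Submodule.smul_mem _ _ (Submodule.subset_span ⟨j, rfl⟩)

/-- The moving bound for a class given by a generator `β` and an element `y` of exact value. -/
theorem move_bound {β y : QQb} (hν : t.IsHomG ν) (hβ : t.Gen ζ ν β) {σ₁ : Dec P} (hσ₁ : σ₁ ∈ t.G)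
    (hν₁ : ν σ₁ = 1) {k : ℤ} (hk : ¬ (p : ℤ) ∣ k) (hy : P.valuation (y ^ p) = t.vπ ^ k)
    (hyker : ∀ σ ∈ t.G, ν σ = 0 → (σ : GG) y = y) {d : ℤ}
    (hδ : ∀ σ ∈ t.G, P.valuation ((σ : GG) y / y - 1) ^ p ≤ t.vπ ^ d)
    {z : QQb} (hzP : z ∈ P) (hz : ∀ σ ∈ t.G, ν σ = 0 → (σ : GG) z = z) {σ : Dec P} (hσ : σ ∈ t.G) :
    P.valuation ((σ : GG) z - z) ^ p ≤ t.vπ ^ (1 + d) := by
  classical
  have hy0 : y ≠ 0 := by
    intro e
    rw [e, zero_pow hp.out.ne_zero, map_zero, eq_comm] at hy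
    exact zpow_ne_zero k t.vπ_ne_zero hy
  obtain ⟨A, B, hAB⟩ : ∃ (A : ℕ) (B : ℤ), (A : ℤ) * k + B * p = 1 := by
    haveI : NeZero p := ⟨hp.out.ne_zero⟩
    have hk0 : (k : ZMod p) ≠ 0 := fun e => hk ((ZMod.intCast_zmod_eq_zero_iff_dvd k p).1 e)
    set A := ((k : ZMod p)⁻¹).val with hA
    have h1 : (((A : ℤ) * k - 1 : ℤ) : ZMod p) = 0 := by
      push_cast
      rw [hA, ZMod.natCast_zmod_val, inv_mul_cancel₀ hk0, sub_self]
    obtain ⟨B, hB⟩ := (ZMod.intCast_zmod_eq_zero_iff_dvd _ p).1 h1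
    exact ⟨A, -B, by linarith⟩
  set ϖ := y ^ A * t.π ^ B with hϖ
  have hϖ0 : ϖ ≠ 0 := mul_ne_zero (pow_ne_zero _ hy0) (zpow_ne_zero _ t.π_ne_zero)
  have hϖv : P.valuation ϖ ^ p = t.vπ := by
    rw [hϖ, map_mul, map_pow, map_zpow₀, mul_pow, pow_right_comm, ← map_pow, hy, ← zpow_natCast,
      ← zpow_natCast (t.vπ ^ B), ← zpow_mul, ← zpow_mul, ← zpow_add₀ t.vπ_ne_zero, mul_comm k, hAB,
      zpow_one]
  have hϖker : ∀ σ ∈ t.G, ν σ = 0 → (σ : GG) ϖ = ϖ := fun σ hσ h0 => by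
    rw [hϖ, map_mul, map_pow, map_zpow₀ (σ : GG), hyker σ hσ h0, hσ.2]
  -- the values of a combination of the powers of `ϖ`
  have hval : ∀ (c : Fin p → t.fixG) (j : Fin p), (c j : QQb) ≠ 0 →
      ∃ i : ℤ, P.valuation ((c j : QQb) * ϖ ^ (j : ℕ)) ^ p = t.vπ ^ (p * i + j : ℤ) := by
    intro c j hc
    obtain ⟨i, hi⟩ := t.exists_zpow hP hc (t.mem_fixG.1 (c j).2)
    refine ⟨i, ?_⟩
    rw [map_mul, map_pow, mul_pow, pow_right_comm, hϖv, hi, zpow_add₀ t.vπ_ne_zero, zpow_natCast,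
      ← zpow_natCast, ← zpow_mul, mul_comm i]
  have hdist : ∀ (c : Fin p → t.fixG), ∀ i ∈ (Finset.univ : Finset (Fin p)), ∀ j ∈ Finset.univ,
      (c i : QQb) * ϖ ^ (i : ℕ) ≠ 0 →
      P.valuation ((c i : QQb) * ϖ ^ (i : ℕ)) = P.valuation ((c j : QQb) * ϖ ^ (j : ℕ)) → i = j := by
    intro c i _ j _ hne e
    have hci : (c i : QQb) ≠ 0 := fun h => hne (by rw [h, zero_mul])
    have hcj : (c j : QQb) ≠ 0 := fun h => by
      rw [h, zero_mul, map_zero, Valuation.zero_iff] at e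
      exact hne e
    obtain ⟨a, ha⟩ := hval c i hci
    obtain ⟨b, hb⟩ := hval c j hcj
    rw [e, hb] at ha
    have h := t.zpow_inj hP ha
    have h1 : ((j : ℕ) : ZMod p) = ((i : ℕ) : ZMod p) := by
      have h2 := congrArg (fun n : ℤ => (n : ZMod p)) h
      simpa using h2
    exact Fin.ext ((ZMod.natCast_eq_natCast_iff' _ _ p).1 h1.symm |> fun h3 => by
      rwa [Nat.mod_eq_of_lt i.2, Nat.mod_eq_of_lt j.2] at h3)
  set V := Submodule.span t.fixG (Set.range fun j : Fin p => β ^ (j : ℕ))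
  haveI : FiniteDimensional t.fixG V := FiniteDimensional.span_of_finite _ (Set.finite_range _)
  let b : Fin p → V := fun j => ⟨ϖ ^ (j : ℕ), t.mem_span_pow hP hζ hν hβ hσ₁ hν₁ fun σ hσ h0 => by
    rw [map_pow, hϖker σ hσ h0]⟩
  have hli : LinearIndependent t.fixG b := by
    rw [Fintype.linearIndependent_iff]
    intro c hc i
    have hc' : ∑ j : Fin p, (c j : QQb) * ϖ ^ (j : ℕ) = 0 := by
      have h := congrArg (fun v : V => (v : QQb)) hc
      simpa [b, IntermediateField.smul_def] using h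
    have h := val_le_sum_of_distinct Finset.univ (fun j : Fin p => (c j : QQb) * ϖ ^ (j : ℕ))
      (hdist c) i (Finset.mem_univ i)
    rw [hc', map_zero, le_zero_iff, Valuation.zero_iff, mul_eq_zero] at h
    exact Subtype.ext (h.resolve_right (pow_ne_zero _ hϖ0))
  have hfin : Module.finrank t.fixG V ≤ p :=
    (finrank_range_le_card (R := t.fixG) fun j : Fin p => β ^ (j : ℕ)).trans_eq (Fintype.card_fin p)
  have hspan : Submodule.span t.fixG (Set.range b) = ⊤ := by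
    refine Submodule.eq_top_of_finrank_eq ?_
    rw [finrank_span_eq_card hli, Fintype.card_fin]
    exact le_antisymm (by simpa using hli.fintype_card_le_finrank) hfin
  obtain ⟨c, hc⟩ := Submodule.mem_span_range_iff_exists_fun t.fixG |>.1
    (hspan ▸ Submodule.mem_top : (⟨z, t.mem_span_pow hP hζ hν hβ hσ₁ hν₁ hz⟩ : V) ∈ _)
  have hzc : z = ∑ j : Fin p, (c j : QQb) * ϖ ^ (j : ℕ) := by
    have h := congrArg (fun v : V => (v : QQb)) hc
    simpa [b, IntermediateField.smul_def] using h.symm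
  have hle : ∀ j : Fin p, P.valuation ((c j : QQb) * ϖ ^ (j : ℕ)) ≤ 1 := fun j =>
    (val_le_sum_of_distinct Finset.univ _ (hdist c) j (Finset.mem_univ j)).trans
      (hzc ▸ val_le_one_of_mem hzP)
  have hterm : ∀ j : Fin p, P.valuation ((σ : GG) ((c j : QQb) * ϖ ^ (j : ℕ)) -
      (c j : QQb) * ϖ ^ (j : ℕ)) ^ p ≤ t.vπ ^ (1 + d) := by
    intro j
    rw [map_mul, map_pow, t.mem_fixG.1 (c j).2 σ hσ, ← mul_sub]
    rcases Nat.eq_zero_or_pos (j : ℕ) with hj | hj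
    · simp [hj, hp.out.ne_zero]
    rcases eq_or_ne (c j : QQb) 0 with h0 | h0
    · simp [h0, hp.out.ne_zero]
    obtain ⟨i, hi⟩ := hval c j h0
    have hn : 1 ≤ (p : ℤ) * i + j := by
      have h1 : t.vπ ^ ((p : ℤ) * i + j) ≤ t.vπ ^ (0 : ℤ) := by
        rw [zpow_zero, ← hi]; exact pow_le_one₀ zero_le (hle j)
      have h2 := (t.zpow_le hP).1 h1
      rcases h2.lt_or_eq with h3 | h3
      · omega
      · exfalso
        have h4 : (p : ℤ) ∣ ((j : ℕ) : ℤ) := ⟨-i, by linarith⟩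
        exact absurd (Nat.le_of_dvd hj (Int.natCast_dvd_natCast.1 h4)) (not_le.2 j.2)
    have e : (c j : QQb) * (((σ : GG) ϖ) ^ (j : ℕ) - ϖ ^ (j : ℕ)) =
        ((c j : QQb) * ϖ ^ (j : ℕ)) * (((σ : GG) y / y) ^ (A * j) - 1) := by
      have hr : (σ : GG) ϖ = ((σ : GG) y / y) ^ A * ϖ := by
        rw [hϖ, map_mul, map_pow, map_zpow₀ (σ : GG), hσ.2, div_pow, ← mul_assoc,
          div_mul_cancel₀ _ (pow_ne_zero _ hy0)]
      rw [hr, mul_pow, ← pow_mul]
      ring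
    rw [e, map_mul, mul_pow, hi, zpow_add₀ t.vπ_ne_zero (1 : ℤ) d]
    refine mul_le_mul' ((t.zpow_le hP).2 hn) ?_
    exact (pow_le_pow_left₀ zero_le (val_pow_sub_one_le (div_map_mem σ hy0) _) p).trans (hδ σ hσ)
  rw [hzc, map_sum, ← Finset.sum_sub_distrib]
  obtain ⟨j, -, hj⟩ := Finset.exists_max_image (Finset.univ : Finset (Fin p))
    (fun j => P.valuation ((σ : GG) ((c j : QQb) * ϖ ^ (j : ℕ)) - (c j : QQb) * ϖ ^ (j : ℕ)))
    ⟨⟨0, hp.out.pos⟩, Finset.mem_univ _⟩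
  exact (pow_le_pow_left₀ zero_le (P.valuation.map_sum_le fun i hi => hj i hi) p).trans (hterm j)

/-- **A class that moves integral numbers a lot is deep in the filtration.** -/
theorem lev_of_move (hν : t.IsHomG ν) {n : ℕ} (hn : n ≤ t.e1) {z : QQb} (hzP : z ∈ P)
    (hz : ∀ σ ∈ t.G, ν σ = 0 → (σ : GG) z = z) {σ : Dec P} (hσ : σ ∈ t.G)
    (hmove : t.vπ ^ n ≤ P.valuation ((σ : GG) z - z)) :
    t.Lev ζ ν (1 + p * (t.e1 - n)) := by
  classical
  set M := 1 + p * (t.e1 - n) with hM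
  have hn0 : 0 < n := Nat.pos_of_ne_zero fun e => by
    rw [e, pow_zero] at hmove
    exact absurd (hσ.1.val_sub_lt_one hzP) (not_lt.2 hmove)
  have hMT : M ≤ p * t.e1 := by
    have h1 : p * (t.e1 - n) + p * n = p * t.e1 := by rw [← mul_add, Nat.sub_add_cancel hn]
    have h2 : p ≤ p * n := Nat.le_mul_of_pos_right p hn0
    have := hp.out.two_le
    omega
  by_cases htriv : ∀ σ ∈ t.G, ν σ = 0
  · exact t.lev_zero_fun M htriv
  push Not at htriv
  obtain ⟨σ₀, hσ₀, hν₀⟩ := htriv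
  obtain ⟨σ₁, hσ₁, hν₁⟩ : ∃ σ₁ ∈ t.G, ν σ₁ = 1 := by
    refine ⟨σ₀ ^ ((ν σ₀)⁻¹).val, pow_mem hσ₀ _, ?_⟩
    have h : ∀ l : ℕ, ν (σ₀ ^ l) = l * ν σ₀ := by
      intro l
      induction l with
      | zero => simp [hν.one t]
      | succ l ih =>
        rw [pow_succ, hν.add _ (pow_mem hσ₀ l) _ hσ₀, ih, Nat.cast_succ, add_mul, one_mul]
    rw [h, ZMod.natCast_zmod_val, inv_mul_cancel₀ hν₀]
  by_contra hno
  have key : ∀ (β y : QQb) (k : ℤ) (i : ℕ), t.Gen ζ ν β → ¬ (p : ℤ) ∣ k →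
      P.valuation (y ^ p) = t.vπ ^ k → (∀ σ ∈ t.G, ν σ = 0 → (σ : GG) y = y) → i < M →
      (∀ σ ∈ t.G, P.valuation ((σ : GG) y / y - 1) ^ p ≤ t.vπ ^ ((p * t.e1 : ℕ) - i : ℤ)) →
      False := by
    intro β y k i hβ hk hy hker hi hδ
    have h := t.move_bound hP hζ hν hβ hσ₁ hν₁ hk hy hker hδ hzP hz hσ
    have h2 : t.vπ ^ ((p * n : ℕ) : ℤ) ≤ P.valuation ((σ : GG) z - z) ^ p := by
      rw [zpow_natCast, mul_comm, pow_mul]
      exact pow_le_pow_left₀ zero_le hmove p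
    have h3 := (t.zpow_le hP).1 (h2.trans h)
    have h4 : p * (t.e1 - n) + p * n = p * t.e1 := by rw [← mul_add, Nat.sub_add_cancel hn]
    omega
  have hζe : ∀ a : ℕ, P.valuation (ζ ^ a - 1) ≤ t.vπ ^ t.e1 := fun a => by
    rw [← t.val_zeta_sub_one hP hζ]
    exact val_pow_sub_one_le (mem_of_val_le_one (val_root hp.out.ne_zero hζ.pow_eq_one).le) a
  rcases t.lev_one_or hP hζ hν with ⟨β, k, hβ, hv, hk⟩ | h1
  · refine key β β k 0 hβ hk hv (fun σ hσ h0 => by simp [hβ.2 σ hσ, h0]) (by omega) fun σ hσ => ?_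
    rw [hβ.2 σ hσ, mul_div_cancel_right₀ _ hβ.1, Nat.cast_zero, sub_zero, zpow_natCast,
      mul_comm p, pow_mul]
    exact pow_le_pow_left₀ zero_le (hζe _) p
  let Q : ℕ → Prop := fun i => t.Lev ζ ν i
  have hQ1 : Q 1 := h1
  set i := Nat.findGreatest Q M with hi
  have hi1 : 1 ≤ i := Nat.le_findGreatest (by omega) hQ1
  have hQi : Q i := Nat.findGreatest_spec (P := Q) (m := 1) (by omega) hQ1
  have hiM : i < M := lt_of_le_of_ne (Nat.findGreatest_le M) fun e => hno (e ▸ hQi)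
  have hnext : ¬ t.Lev ζ ν (i + 1) :=
    Nat.findGreatest_is_greatest (P := Q) (n := M) (by omega) (by omega)
  rcases t.lev_succ_or hP hζ hi1 (by omega) hQi with ⟨hd, β, hβ, hv⟩ | h
  swap
  · exact hnext h
  have hb := t.val_eq_one hP hζ hi1 hv.le
  have hβP : β ∈ P := mem_of_val_le_one hb.1.le
  obtain ⟨c, hc⟩ := exists_add_pow_prime_eq hp.out (1 : P) (⟨β, hβP⟩ - 1)
  have hc' : β ^ p - 1 = (β - 1) ^ p + (p : QQb) * (β - 1) * (c : QQb) := by
    have h := congrArg (Subtype.val) hc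
    push_cast at h
    rw [add_sub_cancel] at h
    rw [h]; ring
  have hyv : P.valuation ((β - 1) ^ p) = t.vπ ^ i := by
    have hpc : P.valuation ((p : QQb) * (β - 1) * (c : QQb)) ≤
        P.valuation (p : QQb) * P.valuation (β - 1) := by
      rw [map_mul, map_mul]
      exact mul_le_of_le_one_right' (val_le_one_of_mem c.2)
    have hlarge : t.vπ ^ t.e1 < P.valuation (β - 1) := by
      by_contra hle
      push Not at hle
      have h1 : P.valuation (β ^ p - 1) ≤ t.vπ ^ (p * t.e1) := by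
        rw [hc']
        refine (P.valuation.map_add _ _).trans (max_le ?_ (hpc.trans ?_))
        · rw [map_pow, mul_comm, pow_mul]
          exact pow_le_pow_left₀ zero_le hle p
        · rw [t.p_mul_e1, pow_add, ← t.vπ_pow]
          exact mul_le_mul' le_rfl hle
      rw [hv, t.pow_le hP] at h1
      omega
    rw [← hv, hc', P.valuation.map_add_eq_of_lt_left]
    refine hpc.trans_lt ?_
    rw [map_pow, ← t.vπ_pow, ← t.e1_mul, pow_mul]
    conv_rhs => rw [show p = (p - 1) + 1 by have := hp.out.pos; omega, pow_succ]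
    exact mul_lt_mul_of_pos_right (pow_lt_pow_left₀ hlarge zero_le
      (by have := hp.out.two_le; omega)) ((pow_pos t.vπ_pos _).trans hlarge)
  have hy0 : β - 1 ≠ 0 := fun e => by
    rw [e, zero_pow hp.out.ne_zero, map_zero, eq_comm] at hyv
    exact pow_ne_zero i t.vπ_ne_zero hyv
  refine key β (β - 1) i i hβ (by exact_mod_cast hd) (by rw [hyv, zpow_natCast])
    (fun σ hσ h0 => by simp [hβ.2 σ hσ, h0]) hiM fun σ hσ => ?_
  rw [map_sub (σ : GG), map_one, hβ.2 σ hσ, div_sub_one hy0,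
    show ζ ^ (ν σ).val * β - 1 - (β - 1) = (ζ ^ (ν σ).val - 1) * β by ring, map_div₀, map_mul, hb.1,
    mul_one, div_pow, ← map_pow P.valuation (β - 1), hyv, zpow_sub₀ t.vπ_ne_zero, zpow_natCast,
    zpow_natCast, mul_comm p, pow_mul]
  exact div_le_div_of_nonneg_right (pow_le_pow_left₀ zero_le (hζe _) p) zero_le

end TameData

end FLTAgent.FlatLocal
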