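import Fermat.Agent.FlatLocal.OrdLift

/-!
# The count of flat lifts of a plane with a stable line
-/

set_option autoImplicit false
set_option linter.style.haveILetI false
set_option linter.unusedSectionVars false

noncomputable section

open scoped Pointwise Matrix
open IsLocalRing

namespace FLTAgent.FlatLocal

local notation "QQb" => AlgebraicClosure ℚ

variable {P : ValuationSubring (AlgebraicClosure ℚ)} {p : ℕ} [hp : Fact p.Prime]

/-- One step of an elimination. -/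
theorem exists_finset_step {V : Type*} [AddCommGroup V] [Module (ZMod p) V] (D : V → Prop)
    (R : V → ZMod p → Prop) (hR : ∀ v, D v → ∃ i, R v i)
    (hsub : ∀ v w a i j, D v → D w → R v i → R w j → D (v - a • w) ∧ R (v - a • w) (i - a * j))
    (B : Finset V) (hker : ∀ v, D v → R v 0 → v ∈ Submodule.span (ZMod p) (B : Set V)) :
    ∃ s : Finset V, s.card ≤ B.card + 1 ∧ ∀ v, D v → v ∈ Submodule.span (ZMod p) (s : Set V) := by
  classical
  by_cases hex : ∃ w j, D w ∧ R w j ∧ j ≠ 0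
  · obtain ⟨w, j, hw, hwj, hj⟩ := hex
    refine ⟨insert w B, Finset.card_insert_le _ _, fun v hv => ?_⟩
    obtain ⟨i, hi⟩ := hR v hv
    obtain ⟨h1, h2⟩ := hsub v w (i / j) i j hv hw hi hwj
    rw [div_mul_cancel₀ _ hj, sub_self] at h2
    rw [← sub_add_cancel v ((i / j) • w), Finset.coe_insert]
    exact add_mem (Submodule.span_mono (Set.subset_insert _ _) (hker _ h1 h2))
      (Submodule.smul_mem _ _ (Submodule.subset_span (Set.mem_insert _ _)))
  · push Not at hex
    refine ⟨B, Nat.le_succ _, fun v hv => ?_⟩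
    obtain ⟨i, hi⟩ := hR v hv
    exact hker v hv (hex v i hv hi ▸ hi)

/-- The cocycles that flat lifts give after subtracting a coboundary. -/
structure IsOrdDeep (t : TameData P p) (ζ : AlgebraicClosure ℚ) (r : Dec P →* Mat2 p)
    (c : Dec P → Mat2 p) : Prop where
  cocycle : IsCocycle r c
  low : ∀ σ, c σ 1 0 = 0
  diag : ∀ σ, IsIne P σ → c σ 0 0 = 0
  lev : t.Lev ζ (fun σ => c σ 0 1) 1

namespace IsOrd

variable {t : TameData P p} {ζ : QQb} {r : Dec P →* Mat2 p} {τ : Dec P} (h : IsOrd t ζ r τ)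
  (hP : P.LiesOverPrime p) (hp3 : 3 ≤ p) (hζ : IsPrimitiveRoot ζ p)

include h hP hp3 hζ

theorem deep_sub_smul {c c' : Dec P → Mat2 p} (hc : IsOrdDeep t ζ r c) (hc' : IsOrdDeep t ζ r c')
    (a : ZMod p) : IsOrdDeep t ζ r (c - a • c') where
  cocycle := hc.cocycle.sub (hc'.cocycle.smul a)
  low σ := by simp [hc.low σ, hc'.low σ]
  diag σ hσ := by simp [hc.diag σ hσ, hc'.diag σ hσ]
  lev := (hc.lev.add t hP hζ one_pos (hc'.lev.smul t hP hζ one_pos (-a))).congr t
    fun σ _ => by simp [sub_eq_add_neg]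

omit hp3 hζ in
theorem pred_lt : p - 1 < p * t.e1 := by
  rw [h.e1_eq, mul_one]
  have := hp.out.pos
  omega

theorem not_dvd_of_lt {m : ℕ} (hm : 0 < m) (hmp : m < p) : ¬ p ∣ m := fun hd =>
  absurd (Nat.le_of_dvd hm hd) (by omega)

/-- Below order `p - 1` the weight forbids leading terms. -/
theorem lev_pred {c : Dec P → Mat2 p} (hd : IsOrdDeep t ζ r c) {m : ℕ} (hm : 1 ≤ m)
    (hmp : m ≤ p - 1) : t.Lev ζ (fun σ => c σ 0 1) m := by
  induction m, hm using Nat.le_induction with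
  | base => exact hd.lev
  | succ m hm ih =>
    have hlev := ih (by omega)
    have hnd := h.not_dvd_of_lt hP hp3 hζ hm (by omega)
    have hmT : m < p * t.e1 := lt_trans (by omega) (h.pred_lt hP)
    refine t.lev_succ_of_lead hP hζ hnd hmT hlev ?_
    have hfun : ∀ σ ∈ t.G,
        Mazur.expChar p ζ (τ : AlgebraicClosure ℚ ≃ₐ[ℚ] AlgebraicClosure ℚ) * c (τ⁻¹ * σ * τ) 0 1 =
          c σ 0 1 := by
      intro σ hσ
      have hg := t.G_conj_inv hP hσ τ
      have e1 := h.corner_mul hd.cocycle hd.low τ (hd.diag _ hg.1)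
      rw [show τ * (τ⁻¹ * σ * τ) = σ * τ by group,
        h.corner_mul hd.cocycle hd.low σ (hd.diag τ h.ine), h.twist_up hζ hσ.1,
        h.omega_G hP hp3 hζ hσ, one_mul, h.twist_up hζ h.ine, add_comm] at e1
      exact (add_left_cancel e1).symm
    have e := t.lead_congr hP hζ hnd hmT (hlev.conj t hP hζ τ) hfun
    rw [t.lead_conj hP hζ hnd hmT hlev τ, h.ine.smul_eq] at e
    by_contra hne
    exact t.th_tau_pow_ne_one hp3 h.he h.prim hm (by omega) ((mul_eq_left₀ hne).1 e)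

/-- The leading term at order `p - 1` satisfies an additive equation of degree `p`. -/
theorem lead_pow_eq {φ : Dec P} (hφ : ∀ z : ResidueField P, φ • z = z ^ p) :
    ∃ κ : ResidueField P, ∀ c, IsOrdDeep t ζ r c → c φ 0 0 = 0 →
      t.lead ζ (fun σ => c σ 0 1) (p - 1) ^ p = κ * t.lead ζ (fun σ => c σ 0 1) (p - 1) := by
  set k : ZMod p := omega ζ φ / (r φ 0 0 * r φ⁻¹ 1 1) with hk
  refine ⟨kp hP k / t.th φ ^ (p - 1), fun c hd h0 => ?_⟩
  have hnd := h.not_dvd_of_lt hP hp3 hζ (m := p - 1) (by omega) (by omega)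
  have hmT := h.pred_lt hP
  have hlev := h.lev_pred hP hp3 hζ hd (m := p - 1) (by omega) le_rfl
  have hu : r φ 0 0 * r φ⁻¹ 1 1 ≠ 0 :=
    mul_ne_zero (left_ne_zero_of_mul_eq_one (h.r00_inv φ))
      (right_ne_zero_of_mul_eq_one (h.r11_inv φ))
  have hfun : ∀ σ ∈ t.G,
      Mazur.expChar p ζ (φ : AlgebraicClosure ℚ ≃ₐ[ℚ] AlgebraicClosure ℚ) * c (φ⁻¹ * σ * φ) 0 1 =
        k * c σ 0 1 := by
    intro σ hσ
    have hg := t.G_conj_inv hP hσ φ
    have e1 := h.corner_mul hd.cocycle hd.low φ (hd.diag _ hg.1)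
    rw [show φ * (φ⁻¹ * σ * φ) = σ * φ by group, h.corner_mul hd.cocycle hd.low σ h0,
      h.twist_up hζ hσ.1, h.omega_G hP hp3 hζ hσ, one_mul, add_comm] at e1
    rw [add_left_cancel e1, hk]
    show omega ζ φ * _ = _
    rw [← mul_assoc, div_mul_cancel₀ _ hu]
  have e := t.lead_congr hP hζ hnd hmT (hlev.conj t hP hζ φ) hfun
  rw [t.lead_conj hP hζ hnd hmT hlev φ, t.lead_smul hP hζ hnd hmT hlev, hφ] at e
  rw [div_mul_eq_mul_div, eq_div_iff (pow_ne_zero _ (t.th_ne_zero φ))]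
  exact e

/-- With trivial last leading term only a coboundary is left. -/
theorem eq_coboundary (hr : LevC P r) {φ : Dec P} (hφ : ∀ z : ResidueField P, φ • z = z ^ p)
    {c : Dec P → Mat2 p}
    (hd : IsOrdDeep t ζ r c) (h0 : c φ 0 0 = 0)
    (hlead : t.lead ζ (fun σ => c σ 0 1) (p - 1) = 0) :
    ∃ K : ZMod p, c = K • coboundary r !![0, 1; 0, 0] := by
  have hc := hd.cocycle
  have hdiag : ∀ σ, c σ 0 0 = 0 := twisted_eq_zero hP hφ (u := fun _ => 1)
    (hc.lev.comp fun A => A 0 0) (fun a b => by rw [one_mul]; exact h.diag_mul hc hd.low a b)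
    hd.diag h0
  have hnd := h.not_dvd_of_lt hP hp3 hζ (m := p - 1) (by omega) (by omega)
  have hG : ∀ g ∈ t.G, c g 0 1 = 0 := fun g hg => by
    refine t.eq_zero_of_lev_top (ν := fun σ => c σ 0 1) hP hζ ?_ hg
    have h1 := t.lev_succ_of_lead hP hζ hnd (h.pred_lt hP)
      (h.lev_pred hP hp3 hζ hd (m := p - 1) (by omega) le_rfl) hlead
    exact h1.anti t hP hζ (by rw [h.e1_eq]; omega)
  set u : Dec P → ZMod p := fun σ => r σ 0 0 * r σ⁻¹ 1 1 with hu
  have hu1 : omega (p := p) ζ τ - 1 ≠ 0 := sub_ne_zero.2 (h.omega_ne hP hp3 hζ)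
  set K := c τ 0 1 / (omega (p := p) ζ τ - 1) with hK
  set ν : Dec P → ZMod p := fun σ => c σ 0 1 - K * (u σ - 1) with hν
  have humul : ∀ a b, u (a * b) = u a * u b := fun a b => by
    simp only [hu]
    rw [h.r00_mul, mul_inv_rev, h.r11_mul]
    ring
  have hmul : ∀ a b, ν (a * b) = ν a + u a * ν b := fun a b => by
    simp only [hν]
    rw [h.corner_mul hc hd.low a (hdiag b), humul]
    simp only [hu]
    ring
  have hνG : ∀ g ∈ t.G, ν g = 0 := fun g hg => by
    simp only [hν, hu]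
    rw [hG g hg, h.twist_up hζ hg.1, h.omega_G hP hp3 hζ hg, sub_self, mul_zero, sub_zero]
  have hντ : ν τ = 0 := by
    simp only [hν, hu]
    rw [h.twist_up hζ h.ine, hK, div_mul_cancel₀ _ hu1, sub_self]
  have hI : ∀ σ, IsIne P σ → ν σ = 0 := by
    intro σ hσ
    obtain ⟨k, g, hg, rfl⟩ := t.ine_decomp hP h.ine h.prim hσ
    rw [hmul, hνG g hg, mul_zero, add_zero]
    clear hσ
    induction k with
    | zero => rw [pow_zero]; exact hνG 1 (one_mem _)
    | succ k ih => rw [pow_succ, hmul, ih, hντ, mul_zero, add_zero]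
  have hlev : LevC P ν := by
    have h1 := ((hc.sub ((isCocycle_coboundary hr !![0, 1; 0, 0]).smul K)).lev).comp fun A => A 0 1
    convert h1 using 1
    funext σ
    simp [hν, hu, coboundary, Matrix.mul_apply, Fin.sum_univ_two, h.low σ]
  refine ⟨K, funext fun σ => ?_⟩
  have hz := twisted_eq_zero hP hφ hlev hmul hI
    (twisted_frob hmul hI h.ine (τ := τ) (by
      simp only [hu]
      rw [h.twist_up hζ (h.ine.conj φ)]
      exact h.omega_conj_ne hP hp3 hζ φ)) σ
  simp only [hν, hu, sub_eq_zero] at hz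
  ext i j
  fin_cases i <;> fin_cases j <;>
    simp [coboundary, Matrix.mul_apply, Fin.sum_univ_two, h.low σ, h.low σ⁻¹, hd.low σ, hdiag σ,
      eq_neg_corner hc σ, hz]

/-- **The tangent bound for a plane with a stable line.** -/
theorem exists_span (hr : LevC P r) :
    ∃ s : Finset (Dec P → Mat2 p), s.card ≤ 4 ∧ ∀ c, IsCocycle r c → FlatI P (actW r c) →
      c ∈ Submodule.span (ZMod p) (s : Set (Dec P → Mat2 p)) := by
  classical
  obtain ⟨φ, hφ⟩ := exists_frob hP
  obtain ⟨κ, hκ⟩ := h.lead_pow_eq hP hp3 hζ hφ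
  obtain ⟨z₀, hz₀⟩ := exists_line_of_pow_eq hP κ
  have hnd := h.not_dvd_of_lt hP hp3 hζ (m := p - 1) (by omega) (by omega)
  have hmT := h.pred_lt hP
  set m := p - 1 with hm
  set D₂ : (Dec P → Mat2 p) → Prop := fun c => IsOrdDeep t ζ r c ∧ c φ 0 0 = 0 with hD₂
  obtain ⟨s₂, hs₂, hs₂'⟩ := exists_finset_step D₂
    (fun c i => t.lead ζ (fun σ => c σ 0 1) m = kp hP i * z₀)
    (fun c hc => hz₀ _ (hκ c hc.1 hc.2))
    (fun v w a i j hv hw hi hj => by
      refine ⟨⟨h.deep_sub_smul hP hp3 hζ hv.1 hw.1 a, by simp [hv.2, hw.2]⟩, ?_⟩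
      have hl := h.lev_pred hP hp3 hζ hv.1 (m := m) (by omega) le_rfl
      have hl' := h.lev_pred hP hp3 hζ hw.1 (m := m) (by omega) le_rfl
      have hm0 : 0 < m := by omega
      rw [t.lead_congr hP hζ hnd hmT
        (h.lev_pred hP hp3 hζ (h.deep_sub_smul hP hp3 hζ hv.1 hw.1 a) (m := m) (by omega) le_rfl)
        (ν' := fun σ => v σ 0 1 + -a * w σ 0 1) (fun σ _ => by simp [sub_eq_add_neg]),
        t.lead_add hP hζ hnd hmT hl (hl'.smul t hP hζ hm0 _),
        t.lead_smul hP hζ hnd hmT hl', hi, hj, map_sub, map_mul, map_neg]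
      ring)
    {coboundary r !![0, 1; 0, 0]} fun c hc h0 => by
      rw [map_zero, zero_mul] at h0
      obtain ⟨K, hK⟩ := h.eq_coboundary hP hp3 hζ hr hφ hc.1 hc.2 h0
      rw [hK]
      exact Submodule.smul_mem _ _ (Submodule.subset_span (by simp))
  obtain ⟨s₁, hs₁, hs₁'⟩ := exists_finset_step (fun c => IsOrdDeep t ζ r c)
    (fun c i => c φ 0 0 = i) (fun c _ => ⟨_, rfl⟩)
    (fun v w a i j hv hw hi hj => ⟨h.deep_sub_smul hP hp3 hζ hv hw a, by simp [← hi, ← hj]⟩)
    s₂ fun c hc h0 => hs₂' c ⟨hc, h0⟩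
  refine ⟨insert (coboundary r !![0, 0; 1, 0]) s₁, (Finset.card_insert_le _ _).trans (by
    rw [Finset.card_singleton] at hs₂; omega), fun c hc hflat => ?_⟩
  obtain ⟨γ, hγ⟩ := h.exists_low hP hp3 hζ hr hc hflat
  have hc' : IsCocycle r (c + γ • coboundary r !![0, 0; 1, 0]) :=
    hc.add ((isCocycle_coboundary hr _).smul γ)
  have hflat' : FlatI P (actW r (c + γ • coboundary r !![0, 0; 1, 0])) := by
    rw [← coboundary_smul]
    exact flat_add_coboundary hflat _
  have hdeep : IsOrdDeep t ζ r (c + γ • coboundary r !![0, 0; 1, 0]) :=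
    ⟨hc', hγ, fun σ hσ => h.diag_eq_zero hP hp3 hζ hc' hγ hflat' hσ,
      h.lev_corner hP hp3 hζ hc' hγ hflat'⟩
  rw [← add_sub_cancel_right c (γ • coboundary r !![0, 0; 1, 0]), Finset.coe_insert]
  exact sub_mem (Submodule.span_mono (Set.subset_insert _ _) (hs₁' _ hdeep))
    (Submodule.smul_mem _ _ (Submodule.subset_span (Set.mem_insert _ _)))

end IsOrd

end FLTAgent.FlatLocal
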