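import Fermat.Agent.FlatLocal.SSLift
import Fermat.Agent.FlatLocal.LeadLinear

/-!
# The count of deep cocycles on a plane without stable line
-/

set_option autoImplicit false
set_option linter.style.haveILetI false
set_option linter.unusedSectionVars false

noncomputable section

open scoped Pointwise Matrix
open IsLocalRing

namespace FLTAgent.FlatLocal

local notation "QQb" => AlgebraicClosure ℚ

variable {P : ValuationSubring (AlgebraicClosure ℚ)} {p : ℕ} [hp : Fact p.Prime]

/-- The cocycles deep enough to come from flat lifts. -/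
structure IsDeep (t : TameData P p) (ζ : AlgebraicClosure ℚ) (r : Dec P →* Mat2 p) (τ : Dec P)
    (c : Dec P → Mat2 p) : Prop where
  cocycle : IsCocycle r c
  entry : ∀ i j : Fin 2, t.Lev ζ (fun σ => c σ i j) (p + 1)
  diag : t.Lev ζ (fun σ => (jz (r τ) * c σ).trace) (p + 2)

theorem two_ne_zero_zmod (hp3 : 3 ≤ p) : (2 : ZMod p) ≠ 0 := by
  intro e
  have h1 := (ZMod.natCast_eq_zero_iff 2 p).1 (by exact_mod_cast e)
  exact absurd (Nat.le_of_dvd (by norm_num) h1) (by omega)

theorem two_ne_zero_residue (hP : P.LiesOverPrime p) (hp3 : 3 ≤ p) :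
    (2 : ResidueField P) ≠ 0 := by
  rw [← map_ofNat (kp hP) 2]
  exact fun e => two_ne_zero_zmod hp3 ((kp hP).injective (e.trans (map_zero _).symm))

theorem coboundary_smul (r : Dec P →* Mat2 p) (a : ZMod p) (M : Mat2 p) :
    coboundary r (a • M) = a • coboundary r M := by
  funext σ
  simp [coboundary, smul_sub, mul_smul_comm, smul_mul_assoc]

theorem coboundary_add (r : Dec P →* Mat2 p) (M N : Mat2 p) :
    coboundary r (M + N) = coboundary r M + coboundary r N := by
  funext σ
  simp [coboundary, mul_add, add_mul]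
  abel

theorem trace_zero_basis {M : Mat2 p} (hM : M.trace = 0) :
    M = M 0 0 • !![1, 0; 0, -1] + M 0 1 • !![0, 1; 0, 0] + M 1 0 • !![0, 0; 1, 0] := by
  rw [Matrix.trace_fin_two] at hM
  ext i j
  fin_cases i <;> fin_cases j <;> simp [eq_neg_of_add_eq_zero_right hM]

/-- The coboundaries of traceless matrices are spanned by three of them. -/
theorem coboundary_mem_span (r : Dec P →* Mat2 p) {M : Mat2 p} (hM : M.trace = 0)
    {s : Set (Dec P → Mat2 p)}
    (h1 : coboundary r !![1, 0; 0, -1] ∈ s) (h2 : coboundary r !![0, 1; 0, 0] ∈ s)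
    (h3 : coboundary r !![0, 0; 1, 0] ∈ s) : coboundary r M ∈ Submodule.span (ZMod p) s := by
  rw [trace_zero_basis hM, coboundary_add, coboundary_add, coboundary_smul, coboundary_smul,
    coboundary_smul]
  exact add_mem (add_mem (Submodule.smul_mem _ _ (Submodule.subset_span h1))
    (Submodule.smul_mem _ _ (Submodule.subset_span h2)))
    (Submodule.smul_mem _ _ (Submodule.subset_span h3))

theorem leadMatrix_anti {k : Type*} [Field k] (h2 : (2 : k) ≠ 0)
    {J Ji X : Matrix (Fin 2) (Fin 2) k} {d t ρ μ : k} (hJ : J * J + d • 1 = t • J)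
    (hJt : J.trace = t) (hJi : J * Ji = 1) (hρ : ρ ≠ 0) (hX : X.trace = 0)
    (hcomm : ρ • (X * J) = μ • (J * X)) (hy : μ = ρ → (jz J * X).trace = 0) :
    ((μ + ρ) • J - (ρ * t) • 1) * X = 0 := by
  have hy0 : (jz J * X).trace = 0 := by
    by_cases hμ : μ = ρ
    · exact hy hμ
    have h1 := congrArg (fun A => (jz J * Ji * A).trace) hcomm
    have hJiJ : Ji * J = 1 := mul_eq_one_comm.1 hJi
    have hjJ : J * jz J = jz J * J := jz_commute rfl
    simp only [mul_smul_comm, Matrix.trace_smul, smul_eq_mul] at h1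
    rw [show (jz J * Ji * (J * X)) = jz J * X by
        rw [mul_assoc, ← mul_assoc Ji, hJiJ, one_mul],
      show (jz J * Ji * (X * J)).trace = (jz J * X).trace by
        rw [← mul_assoc, Matrix.trace_mul_comm, ← mul_assoc, ← mul_assoc, hjJ, mul_assoc (jz J),
          hJi, mul_one]] at h1
    have h3 : (ρ - μ) * (jz J * X).trace = 0 := by rw [sub_mul, h1, sub_self]
    exact (mul_eq_zero.1 h3).resolve_left (sub_ne_zero.2 (Ne.symm hμ))
  have hac := anticomm (jz_trace J) hX
  rw [hy0, zero_smul] at hac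
  have hXJ : X * J = t • X - J * X := by
    simp only [jz, hJt, sub_mul, mul_sub, smul_mul_assoc, mul_smul_comm, one_mul, mul_one] at hac
    have h4 : (2 : k) • (X * J - (t • X - J * X)) = 0 := by
      rw [← hac, smul_sub, smul_sub, two_smul k (t • X)]
      abel
    exact sub_eq_zero.1 ((smul_eq_zero.1 h4).resolve_left h2)
  rw [sub_mul, smul_mul_assoc, smul_mul_assoc, one_mul, add_smul, ← hcomm, hXJ, smul_sub, smul_smul]
  abel

namespace IsSS

variable {t : TameData P p} {r : Dec P →* Mat2 p} {τ : Dec P} (h : IsSS t r τ)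
  (hP : P.LiesOverPrime p) (hp3 : 3 ≤ p) {ζ : QQb} (hζ : IsPrimitiveRoot ζ p)
  (hdet : ∀ σ, (r σ).det = omega ζ σ)

include h hP hp3 hζ hdet

theorem isDeep_of_flat {c : Dec P → Mat2 p} (hc : IsCocycle r c) (hflat : FlatI P (actW r c)) :
    IsDeep t ζ r τ c :=
  ⟨hc, h.lev_entry hP hp3 hζ hdet hc hflat, h.lev_diag hP hp3 hζ hdet hc hflat⟩

theorem isDeep_sub_smul {c c' : Dec P → Mat2 p} (hc : IsDeep t ζ r τ c) (hc' : IsDeep t ζ r τ c')
    (a : ZMod p) : IsDeep t ζ r τ (c - a • c') := by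
  refine ⟨hc.cocycle.sub (hc'.cocycle.smul a), fun i j => ?_, ?_⟩
  · exact ((hc.entry i j).add t hP hζ (by omega) ((hc'.entry i j).smul t hP hζ (by omega) (-a))).congr t
      fun σ _ => by simp [sub_eq_add_neg]
  · exact (hc.diag.add t hP hζ (by omega) (hc'.diag.smul t hP hζ (by omega) (-a))).congr t
      fun σ _ => by simp [sub_eq_add_neg, mul_add]

/-- The trace of the generator through the tame character. -/
theorem kp_trace (hflat : FlatI P (actV r)) :
    kp hP (r τ).trace = t.th τ + t.th τ ^ p := by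
  obtain ⟨S, hS⟩ := hflat
  have hx : (![1, 0] : Vec2 p) ≠ 0 := fun e => by simpa using congrFun e 0
  have h1 := h.dist_eq hP hp3 hζ hdet hS hx
  rw [← pow_one t.vπ] at h1
  have h2 := congrArg (fun A => A *ᵥ (![1, 0] : Vec2 p)) (cayley (r τ))
  simp only [Matrix.add_mulVec, ← Matrix.mulVec_mulVec, Matrix.smul_mulVec, Matrix.one_mulVec] at h2
  have h3 := t.quad_eq hP hS one_pos h1 h.ine (a := (r τ).trace) (b := (r τ).det) h2
  rw [pow_one, h.kp_det hP hζ hdet] at h3
  refine mul_right_cancel₀ (t.th_ne_zero τ) (h3.symm.trans ?_)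
  rw [pow_succ]
  ring

/-- The generator and its Frobenius conjugate differ. -/
theorem pow_prime_ne (hflat : FlatI P (actV r)) : r τ ^ p = (r τ).trace • 1 - r τ := by
  refine h.noEigen.pow_prime_cases.resolve_left fun e => ?_
  obtain ⟨S, hS⟩ := hflat
  have hx : (![1, 0] : Vec2 p) ≠ 0 := fun e => by simpa using congrFun e 0
  have h1 := h.dist_eq hP hp3 hζ hdet hS hx
  rw [← pow_one t.vπ] at h1
  obtain ⟨f, hf, hne⟩ := t.exists_lfun_ne_zero hP hS h1 0
  have hact : actV r (τ ^ p) ![1, 0] = actV r τ ![1, 0] := by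
    rw [actV_apply, actV_apply, map_pow, e]
  have h2 := congrArg (fun u => t.lfun 1 0 u f) hact
  simp only [t.lfun_act hP hS hf h1.le (h.ine.pow p), t.lfun_act hP hS hf h1.le h.ine, pow_one,
    t.th_pow_ine hP h.ine] at h2
  refine h.th_pow_ne_kp hP hp3 (i := p - 1) (fun hd => ?_) 1 ?_
  · exact absurd (Nat.le_of_dvd (by omega) hd) (by omega)
  · rw [map_one]
    refine mul_left_cancel₀ (mul_ne_zero hne (t.th_ne_zero τ)) ?_
    rw [mul_one, mul_assoc, ← pow_succ', Nat.sub_add_cancel hp.out.one_le]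
    exact h2

omit hp3 hdet in
/-- The matrix of leading coefficients. -/
def leadMat (t : TameData P p) (ζ : QQb) (c : Dec P → Mat2 p) (m : ℕ) :
    Matrix (Fin 2) (Fin 2) (ResidueField P) :=
  fun i j => t.lead ζ (fun σ => c σ i j) m

/-- The transformation of leading coefficients under conjugation. -/
theorem leadMat_conj {c : Dec P → Mat2 p} (hc : IsCocycle r c) {m : ℕ} (hm : ¬ p ∣ m)
    (hmT : m < p * t.e1) (hlev : ∀ i j, t.Lev ζ (fun σ => c σ i j) m) (g : Dec P) (i j : Fin 2) :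
    kp hP (omega ζ g) *
        (((r g⁻¹).map (kp hP)) * leadMat t ζ c m * ((r g).map (kp hP))) i j =
      g • leadMat t ζ c m i j * t.th g ^ m := by
  have hm0 : 0 < m := Nat.pos_of_ne_zero fun e => hm (e ▸ dvd_zero p)
  let a : Fin 2 × Fin 2 → ZMod p := fun x => omega ζ g * (r g⁻¹ i x.1 * r g x.2 j)
  obtain ⟨hl, he⟩ := t.lead_lincomb hP hζ hm hmT Finset.univ a (fun x σ => c σ x.1 x.2)
    fun x _ => hlev x.1 x.2
  have hfun : ∀ σ ∈ t.G,
      omega ζ g * c (g⁻¹ * σ * g) i j = ∑ x, a x * c σ x.1 x.2 := fun σ hσ => by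
    rw [hc.conj (h.triv σ hσ) (h.triv _ (t.G_conj_inv hP hσ g))]
    simp only [a, Matrix.mul_apply, Fintype.sum_prod_type, Fin.sum_univ_two]
    ring
  rw [leadMat, ← t.lead_conj hP hζ hm hmT (hlev i j) g,
    t.lead_congr hP hζ hm hmT ((hlev i j).conj t hP hζ g) hfun, he]
  simp only [a, Matrix.mul_apply, Matrix.map_apply, Fintype.sum_prod_type, Fin.sum_univ_two, map_mul,
    leadMat]
  ring

/-- The linear equations on the leading matrix. -/
theorem leadMat_eq (hflat : FlatI P (actV r)) {c : Dec P → Mat2 p} (hd : IsDeep t ζ r τ c) {m : ℕ}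
    (hm1 : p + 1 ≤ m) (hm : ¬ p ∣ m) (hmT : m < p * t.e1)
    (hlev : ∀ i j, t.Lev ζ (fun σ => c σ i j) m) :
    ((t.th τ ^ m + t.th τ ^ (p + 1)) • (r τ).map (kp hP) -
        (t.th τ ^ (p + 1) * (t.th τ + t.th τ ^ p)) • 1) * leadMat t ζ c m = 0 ∧
      (leadMat t ζ c m).trace = 0 := by
  haveI := FrobTrace.charP_residueField hP
  have hm0 : 0 < m := by omega
  set X := leadMat t ζ c m with hXdef
  set Jk := (r τ).map (kp hP) with hJk
  set Ji := (r τ⁻¹).map (kp hP) with hJi
  have hmap : ∀ A B : Mat2 p, (A * B).map (kp hP) = A.map (kp hP) * B.map (kp hP) := fun A B =>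
    Matrix.map_mul
  have hJJi : Jk * Ji = 1 := by
    rw [hJk, hJi, ← hmap, mulVec_r_inv]
    exact Matrix.map_one _ (map_zero _) (map_one _)
  have hquad : Jk * Jk + t.th τ ^ (p + 1) • 1 = (t.th τ + t.th τ ^ p) • Jk := by
    rw [← h.kp_det hP hζ hdet, ← h.kp_trace hP hp3 hζ hdet hflat]
    have h1 := cayley (r τ)
    ext i j
    have h2 := congrArg (kp hP) (congrFun (congrFun h1 i) j)
    fin_cases i <;> fin_cases j <;>
      simpa [hJk, Matrix.mul_apply, Fin.sum_univ_two, map_add, map_mul] using h2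
  have hJt : Jk.trace = t.th τ + t.th τ ^ p := by
    rw [← h.kp_trace hP hp3 hζ hdet hflat, hJk, Matrix.trace_fin_two, Matrix.trace_fin_two,
      map_add]
    rfl
  have hX : X.trace = 0 := by
    rw [Matrix.trace_fin_two, hXdef]
    show t.lead ζ (fun σ => c σ 0 0) m + t.lead ζ (fun σ => c σ 1 1) m = 0
    rw [← t.lead_add hP hζ hm hmT (hlev 0 0) (hlev 1 1),
      t.lead_congr hP hζ hm hmT ((hlev 0 0).add t hP hζ hm0 (hlev 1 1)) (ν' := fun _ => 0)
        (fun σ _ => by
          have h1 := hd.cocycle.trace σ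
          rwa [Matrix.trace_fin_two] at h1), t.lead_zero hP hζ hm hmT]
  have hcomm : t.th τ ^ (p + 1) • (X * Jk) = t.th τ ^ m • (Jk * X) := by
    have e : t.th τ ^ (p + 1) • (Ji * X * Jk) = t.th τ ^ m • X := by
      ext i j
      have h1 := h.leadMat_conj hP hp3 hζ hdet hd.cocycle hm hmT hlev τ i j
      rw [h.ine.smul_eq, ← hdet, h.kp_det hP hζ hdet] at h1
      simp only [Matrix.smul_apply, smul_eq_mul]
      rw [mul_comm (t.th τ ^ m)]
      exact h1
    have e2 := congrArg (fun A => Jk * A) e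
    simpa only [mul_smul_comm, ← mul_assoc, hJJi, one_mul] using e2
  refine ⟨leadMatrix_anti (two_ne_zero_residue hP hp3) hquad hJt hJJi
    (pow_ne_zero _ (t.th_ne_zero τ)) hX hcomm fun hμ => ?_, hX⟩
  -- the scalar part at order `p + 1`
  have hm2 : m = p + 1 := by
    have hinj : t.e ∣ m - (p + 1) := by
      refine h.prim.dvd_of_pow_eq_one _ ?_
      refine mul_right_cancel₀ (pow_ne_zero (p + 1) (t.th_ne_zero τ)) ?_
      rw [one_mul, ← pow_add, Nat.sub_add_cancel hm1]
      exact hμ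
    have hlt : m - (p + 1) < t.e := by
      have h1 := t.p_mul_e1
      have h2 := h.e1_eq
      omega
    have := Nat.eq_zero_of_dvd_of_lt hinj hlt
    omega
  obtain ⟨-, he⟩ := t.lead_lincomb hP hζ hm hmT Finset.univ
    (fun x : Fin 2 × Fin 2 => jz (r τ) x.1 x.2) (fun x σ => c σ x.2 x.1) fun x _ => hlev x.2 x.1
  have hfun : (fun σ => ∑ x : Fin 2 × Fin 2, jz (r τ) x.1 x.2 * c σ x.2 x.1) =
      fun σ => (jz (r τ) * c σ).trace := funext fun σ => by
    simp [Matrix.trace_fin_two, Matrix.mul_apply, Fintype.sum_prod_type, Fin.sum_univ_two]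
  rw [hfun, t.lead_eq_zero_of_lev_succ hP hζ hm hmT (hm2 ▸ hd.diag)] at he
  rw [he]
  simp only [hXdef, leadMat, Matrix.trace_fin_two, Matrix.mul_apply, Fintype.sum_prod_type,
    Fin.sum_univ_two]
  simp [jz, hJk, Matrix.trace_fin_two, map_sub, map_add, map_mul, map_ofNat]

omit hdet in
theorem det_shift_ne_zero {m : ℕ} (hm1 : p + 1 ≤ m) (hm : ¬ p ∣ m) (hmT : m < p * t.e1)
    (hne : m ≠ p * p + 1) {x : ResidueField P} (hx : x = t.th τ) :
    (x * x ^ m - x ^ p * x ^ (p + 1)) * (x ^ p * x ^ m - x * x ^ (p + 1)) ≠ 0 := by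
  subst hx
  set θ := t.th τ
  have hθ := t.th_ne_zero τ
  have he := h.he
  have hT := t.p_mul_e1
  have h2 := h.e1_eq
  have hp2 := hp.out.two_le
  have h3p : p * 3 ≤ p * p := Nat.mul_le_mul_left p hp3
  refine mul_ne_zero ?_ ?_ <;> rw [sub_ne_zero]
  · intro e
    rw [← pow_succ', ← pow_add] at e
    rcases le_total (m + 1) (p + (p + 1)) with hle | hle
    · have h1 : t.e ∣ (p + (p + 1)) - (m + 1) := h.prim.dvd_of_pow_eq_one _
        (mul_right_cancel₀ (pow_ne_zero (m + 1) hθ) (by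
          rw [one_mul, ← pow_add, Nat.sub_add_cancel hle, e]))
      have := Nat.eq_zero_of_dvd_of_lt h1 (by omega)
      exact hm ⟨2, by omega⟩
    · have h1 : t.e ∣ (m + 1) - (p + (p + 1)) := h.prim.dvd_of_pow_eq_one _
        (mul_right_cancel₀ (pow_ne_zero (p + (p + 1)) hθ) (by
          rw [one_mul, ← pow_add, Nat.sub_add_cancel hle, e]))
      have := Nat.eq_zero_of_dvd_of_lt h1 (by omega)
      exact hm ⟨2, by omega⟩
  · intro e
    rw [← pow_succ', ← pow_add] at e
    have hle : p + 1 + 1 ≤ p + m := by omega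
    have h1 : t.e ∣ (p + m) - (p + 1 + 1) := h.prim.dvd_of_pow_eq_one _
      (mul_right_cancel₀ (pow_ne_zero (p + 1 + 1) hθ) (by
        rw [one_mul, ← pow_add, Nat.sub_add_cancel hle, e]))
    obtain ⟨k, hk⟩ := h1
    have hklt : k < 2 := by
      by_contra hk2
      have : t.e * 2 ≤ t.e * k := Nat.mul_le_mul_left _ (by omega)
      omega
    interval_cases k
    · omega
    · exact hne (by omega)

/-- Off the special order the filtration jumps. -/
theorem lev_step (hflat : FlatI P (actV r)) {c : Dec P → Mat2 p} (hd : IsDeep t ζ r τ c) {m : ℕ}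
    (hm1 : p + 1 ≤ m) (hmT : m < p * t.e1)
    (h0 : m = p * p + 1 → t.lead ζ (fun σ => c σ 0 0) m = 0)
    (hlev : ∀ i j, t.Lev ζ (fun σ => c σ i j) m) (i j : Fin 2) :
    t.Lev ζ (fun σ => c σ i j) (m + 1) := by
  by_cases hm : p ∣ m
  · exact (t.lev_succ_or hP hζ (by omega) hmT (hlev i j)).resolve_left fun h1 => h1.1 hm
  refine t.lev_succ_of_lead hP hζ hm hmT (hlev i j) ?_
  obtain ⟨hM, hX⟩ := h.leadMat_eq hP hp3 hζ hdet hflat hd hm1 hm hmT hlev
  set X := leadMat t ζ c m with hXdef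
  set Jk := (r τ).map (kp hP) with hJk
  show X i j = 0
  set A := (t.th τ ^ m + t.th τ ^ (p + 1)) • Jk -
    (t.th τ ^ (p + 1) * (t.th τ + t.th τ ^ p)) • (1 : Matrix (Fin 2) (Fin 2) (ResidueField P))
  rcases eq_or_ne m (p * p + 1) with hs | hs
  · -- the special order: the matrix is determined by its corner
    have hμ : t.th τ ^ m + t.th τ ^ (p + 1) ≠ 0 := by
      intro e
      rw [hs, add_eq_zero_iff_eq_neg] at e
      have h2 : t.th τ ^ (p * p + 1) = t.th τ ^ 2 := by
        rw [show p * p + 1 = t.e + 2 by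
          rw [h.he]
          have : 1 ≤ p * p := Nat.mul_pos hp.out.pos hp.out.pos
          omega, pow_add, h.prim.pow_eq_one, one_mul]
      rw [h2, show p + 1 = (p - 1) + 2 by omega, pow_add] at e
      have h3 : t.th τ ^ (p - 1) = -1 := mul_right_cancel₀ (pow_ne_zero 2 (t.th_ne_zero τ))
        (by rw [neg_one_mul]; exact (neg_eq_iff_eq_neg.mpr e).symm)
      refine h.th_pow_ne_kp hP hp3 (i := p - 1) (fun hd => ?_) (-1) (by rw [h3, map_neg, map_one])
      exact absurd (Nat.le_of_dvd (by omega) hd) (by omega)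
    have hk : ∀ x : ZMod p, x ≠ 0 → kp hP x ≠ 0 := fun x hx e =>
      hx ((kp hP).injective (e.trans (map_zero _).symm))
    have h10 : A 1 0 ≠ 0 := by
      simp only [A, hJk, Matrix.sub_apply, Matrix.smul_apply, Matrix.map_apply, smul_eq_mul,
        Matrix.one_apply_ne (show (1 : Fin 2) ≠ 0 by decide), mul_zero, sub_zero]
      exact mul_ne_zero hμ (hk _ h.noEigen.apply_one_zero)
    have h01 : A 0 1 ≠ 0 := by
      simp only [A, hJk, Matrix.sub_apply, Matrix.smul_apply, Matrix.map_apply, smul_eq_mul,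
        Matrix.one_apply_ne (show (0 : Fin 2) ≠ 1 by decide), mul_zero, sub_zero]
      exact mul_ne_zero hμ (hk _ h.noEigen.apply_zero_one)
    have hx0 : X 0 0 = 0 := h0 hs
    rw [Matrix.trace_fin_two, hx0, zero_add] at hX
    have e00 := congrFun (congrFun hM 0) 0
    have e11 := congrFun (congrFun hM 1) 1
    simp only [Matrix.mul_apply, Fin.sum_univ_two, Matrix.zero_apply, hx0, hX, mul_zero, zero_add,
      add_zero] at e00 e11
    fin_cases i <;> fin_cases j
    · exact hx0
    · exact (mul_eq_zero.1 e11).resolve_left h10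
    · exact (mul_eq_zero.1 e00).resolve_left h01
    · exact hX
  · have hdet' : A.det ≠ 0 := by
      have e : A.det = (t.th τ * t.th τ ^ m - t.th τ ^ p * t.th τ ^ (p + 1)) *
          (t.th τ ^ p * t.th τ ^ m - t.th τ * t.th τ ^ (p + 1)) := by
        have htr : kp hP (r τ 0 0) + kp hP (r τ 1 1) = t.th τ + t.th τ ^ p := by
          rw [← map_add, ← Matrix.trace_fin_two, h.kp_trace hP hp3 hζ hdet hflat]
        have hdt : kp hP (r τ 0 0) * kp hP (r τ 1 1) - kp hP (r τ 0 1) * kp hP (r τ 1 0) =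
            t.th τ * t.th τ ^ p := by
          rw [← map_mul, ← map_mul, ← map_sub, ← Matrix.det_fin_two, h.kp_det hP hζ hdet, pow_succ']
        simp only [A, hJk, Matrix.det_fin_two, Matrix.sub_apply, Matrix.smul_apply, Matrix.map_apply,
          smul_eq_mul, Matrix.one_apply_eq,
          Matrix.one_apply_ne (show (0 : Fin 2) ≠ 1 by decide),
          Matrix.one_apply_ne (show (1 : Fin 2) ≠ 0 by decide), mul_zero, sub_zero, mul_one]
        linear_combination (t.th τ ^ m + t.th τ ^ (p + 1)) ^ 2 * hdt -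
          (t.th τ ^ m + t.th τ ^ (p + 1)) * (t.th τ ^ (p + 1) * (t.th τ + t.th τ ^ p)) * htr
      rw [e]
      exact h.det_shift_ne_zero hP hp3 hζ hm1 hm hmT hs rfl
    have hu : IsUnit A := (Matrix.isUnit_iff_isUnit_det A).2 (isUnit_iff_ne_zero.2 hdet')
    rw [hu.mul_right_eq_zero.1 hM]
    rfl

theorem lev_special (hflat : FlatI P (actV r)) {c : Dec P → Mat2 p} (hd : IsDeep t ζ r τ c) {m : ℕ}
    (hm1 : p + 1 ≤ m) (hm : m ≤ p * p + 1) (i j : Fin 2) : t.Lev ζ (fun σ => c σ i j) m := by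
  induction m, hm1 using Nat.le_induction generalizing i j with
  | base => exact hd.entry i j
  | succ m hm1 ih =>
    refine h.lev_step hP hp3 hζ hdet hflat hd hm1 ?_ (fun e => absurd e (by omega))
      (fun i j => ih (by omega) i j) i j
    have := t.p_mul_e1
    have := h.e1_eq
    have := h.he
    omega

/-- A deep class with trivial special corner is trivial on `G`. -/
theorem eq_zero_on_G (hflat : FlatI P (actV r)) {c : Dec P → Mat2 p} (hd : IsDeep t ζ r τ c)
    (h0 : t.lead ζ (fun σ => c σ 0 0) (p * p + 1) = 0) {g : Dec P} (hg : g ∈ t.G) : c g = 0 := by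
  have hall : ∀ m, p + 1 ≤ m → m ≤ p * t.e1 → ∀ i j, t.Lev ζ (fun σ => c σ i j) m := by
    intro m hm1
    induction m, hm1 using Nat.le_induction with
    | base => exact fun _ i j => hd.entry i j
    | succ m hm1 ih =>
      exact fun hmT i j => h.lev_step hP hp3 hζ hdet hflat hd hm1 (by omega) (fun e => e ▸ h0)
        (ih (by omega)) i j
  have hle : p + 1 ≤ p * t.e1 := by
    rw [← h.e1_eq]; exact Nat.le_mul_of_pos_left _ hp.out.pos
  exact Matrix.ext fun i j => t.eq_zero_of_lev_top hP hζ (hall _ hle le_rfl i j) hg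

/-- A deep class trivial on `G` is a coboundary. -/
theorem eq_coboundary (hflat : FlatI P (actV r)) {c : Dec P → Mat2 p} (hc : IsCocycle r c)
    (hcG : ∀ g ∈ t.G, c g = 0) (hr : LevC P r) : ∃ M : Mat2 p, M.trace = 0 ∧ c = coboundary r M := by
  have h2 := two_ne_zero_zmod (p := p) hp3
  set J := r τ with hJdef
  set J0 := jz J with hJ0
  set D : ZMod p := J.trace * J.trace - 4 * J.det with hD
  have hsq : J0 * J0 = D • 1 := by
    ext i j
    fin_cases i <;> fin_cases j <;>
      simp [hJ0, hD, jz, Matrix.mul_apply, Fin.sum_univ_two, Matrix.trace_fin_two,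
        Matrix.det_fin_two] <;> ring
  have hD0 : D ≠ 0 := fun e => h.noEigen.irreducible_charpoly (J.trace / 2) (by
    rw [hD, sub_eq_zero] at e
    field_simp
    linear_combination -e)
  have hcJ : ∀ σ, IsIne P σ → r σ * J0 = J0 * r σ := fun σ hσ => jz_commute (h.commute_ine hP hσ)
  -- the scalar part vanishes at the generator
  have htr : (J0 * c τ).trace = 0 := by
    set ν : Dec P → ZMod p := fun σ => (J0 * c σ).trace with hν
    have hadd : ∀ σ σ', IsIne P σ → ν (σ * σ') = ν σ + ν σ' := fun σ σ' hσ => by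
      rw [hν]
      dsimp only
      rw [hc.mul, mul_add, Matrix.trace_add]
      congr 1
      rw [mul_assoc (r σ), ← mul_assoc J0, ← hcJ σ hσ, mul_assoc, Matrix.trace_mul_comm, mul_assoc,
        mul_assoc, r_inv_mul, mul_one]
    have hpow : ∀ k : ℕ, ν (τ ^ k) = (k : ZMod p) * ν τ := by
      intro k
      induction k with
      | zero => simp [hν, hc.one]
      | succ k ih => rw [pow_succ, hadd _ _ (h.ine.pow k), ih, Nat.cast_succ, add_mul, one_mul]
    have hmem : τ ^ t.e ∈ t.G :=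
      (t.th_eq_one_iff hP (h.ine.pow _)).1 (by rw [t.th_pow_ine hP h.ine, t.th_pow])
    have h1 := hpow t.e
    rw [hν] at h1
    dsimp only at h1
    rw [hcG _ hmem, mul_zero, Matrix.trace_zero, eq_comm, mul_eq_zero] at h1
    exact h1.resolve_left fun e => t.not_dvd ((ZMod.natCast_eq_zero_iff _ p).1 e)
  have hac : J0 * c τ + c τ * J0 = 0 := by
    rw [anticomm (jz_trace J) (hc.trace τ), htr, zero_smul]
  have hcτJ : c τ * J = (J.trace • 1 - J) * c τ := by
    simp only [hJ0, jz, sub_mul, mul_sub, smul_mul_assoc, mul_smul_comm, one_mul, mul_one] at hac ⊢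
    have h3 : (2 : ZMod p) • (c τ * J - (J.trace • c τ - J * c τ)) = 0 := by
      rw [← hac, smul_sub, smul_sub, two_smul (ZMod p) (J.trace • c τ)]
      abel
    exact sub_eq_zero.1 ((smul_eq_zero.1 h3).resolve_left h2)
  set M₁ : Mat2 p := D⁻¹ • ((J.trace • 1 - J) * J0 * c τ) with hM₁
  have hM₁t : M₁.trace = 0 := by
    have e : (J.trace • 1 - J) * J0 = (J.trace * (2 : ZMod p)⁻¹) • J0 - (D * (2 : ZMod p)⁻¹) • 1 := by
      ext i j
      fin_cases i <;> fin_cases j <;>
        simp [hJ0, hD, jz, Matrix.mul_apply, Fin.sum_univ_two, Matrix.trace_fin_two,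
          Matrix.det_fin_two] <;> field_simp <;> ring
    rw [hM₁, Matrix.trace_smul, e, sub_mul, Matrix.trace_sub, smul_mul_assoc, smul_mul_assoc,
      one_mul, Matrix.trace_smul, Matrix.trace_smul, htr, hc.trace, smul_zero, smul_zero, sub_zero,
      smul_zero]
  have hM₁τ : coboundary r M₁ τ = c τ := by
    have e : J * M₁ - M₁ * J = c τ * J := by
      rw [hM₁, mul_smul_comm, smul_mul_assoc, mul_assoc _ (c τ) J, hcτJ, ← smul_sub]
      have hJJ0 : J * J0 = J0 * J := jz_commute rfl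
      have hJ'J : J * (J.trace • 1 - J) = (J.trace • 1 - J) * J := by
        simp [mul_sub, sub_mul]
      have e1 : J * ((J.trace • 1 - J) * J0 * c τ) -
          (J.trace • 1 - J) * J0 * ((J.trace • 1 - J) * c τ) =
          (J.trace • 1 - J) * J0 * ((J - (J.trace • 1 - J)) * c τ) := by
        rw [← mul_assoc J, ← mul_assoc J, hJ'J, mul_assoc _ J J0, hJJ0, ← mul_assoc, sub_mul (J),
          mul_sub, mul_assoc _ J (c τ)]
      have e2 : J - (J.trace • 1 - J) = J0 := by
        rw [hJ0, jz, two_smul]; abel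
      rw [e1, e2, mul_assoc, ← mul_assoc J0, hsq, smul_mul_assoc, one_mul, mul_smul_comm, smul_smul,
        inv_mul_cancel₀ hD0, one_smul]
    have e3 := congrArg (fun A => A * r τ⁻¹) e
    have hJJi : J * r τ⁻¹ = 1 := mulVec_r_inv r τ
    simp only [sub_mul, mul_assoc, hJJi, mul_one] at e3
    rw [coboundary, mul_assoc]
    exact e3
  set c₁ := c - coboundary r M₁ with hc₁
  have hc₁c : IsCocycle r c₁ := hc.sub (isCocycle_coboundary hr M₁)
  have hc₁I : ∀ σ, IsIne P σ → c₁ σ = 0 := by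
    intro σ hσ
    obtain ⟨k, g, hg, rfl⟩ := t.ine_decomp hP h.ine h.prim hσ
    have hg0 : c₁ g = 0 := by
      rw [hc₁, Pi.sub_apply, hcG g hg, coboundary, h.triv g hg, h.triv g⁻¹ (inv_mem hg)]
      simp
    have hτ0 : c₁ τ = 0 := by rw [hc₁, Pi.sub_apply, hM₁τ, sub_self]
    have hpow : c₁ (τ ^ k) = 0 := by
      clear hσ
      induction k with
      | zero => rw [pow_zero]; exact hc₁c.one
      | succ k ih => rw [pow_succ, hc₁c.mul, ih, hτ0, mul_zero, zero_mul, zero_add]
    rw [hc₁c.mul, hpow, hg0, mul_zero, zero_mul, zero_add]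
  -- Frobenius
  obtain ⟨φ, hφ⟩ := exists_frob hP
  obtain ⟨g, hg, hconj⟩ := t.frob_conj_decomp hP hφ h.ine
  have hrconj : r (φ * τ * φ⁻¹) = J.trace • 1 - J := by
    rw [hconj, map_mul, h.triv g hg, mul_one, map_pow, h.pow_prime_ne hP hp3 hζ hdet hflat]
  have hcJφ : c₁ φ * J = J * c₁ φ := by
    have e1 : c₁ (φ * τ) = c₁ φ := by rw [hc₁c.mul, hc₁I τ h.ine, mul_zero, zero_mul, add_zero]
    have e2 := hc₁c.mul (φ * τ * φ⁻¹) φ
    rw [inv_mul_cancel_right, e1, hc₁I _ (h.ine.conj φ), zero_add] at e2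
    have e3 := congrArg (fun A => A * r (φ * τ * φ⁻¹)) e2
    rw [mul_assoc _ (r (φ * τ * φ⁻¹)⁻¹), r_inv_mul, mul_one, hrconj] at e3
    simp only [sub_mul, mul_sub, smul_mul_assoc, mul_smul_comm, one_mul, mul_one] at e3
    exact (sub_right_inj.1 e3)
  obtain ⟨a, b, hab⟩ := h.noEigen.exists_of_commute hcJφ
  have hb : c₁ φ = (b / 2) • J0 := by
    have h1 := hc₁c.trace φ
    rw [hab, Matrix.trace_fin_two] at h1
    simp at h1
    rw [hab]
    ext i j
    fin_cases i <;> fin_cases j <;> simp [hJ0, jz, Matrix.trace_fin_two] <;> field_simp <;>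
      first
        | linear_combination h1
        | linear_combination (1 : ZMod p) * h1
        | ring
  have hη : r φ * J0 * r φ⁻¹ = -J0 := by
    have e1 : r φ * J * r φ⁻¹ = J.trace • 1 - J := by rw [← hrconj, map_mul, map_mul]
    rw [hJ0, jz, mul_sub, sub_mul, mul_smul_comm, mul_smul_comm, smul_mul_assoc, smul_mul_assoc,
      mul_one, mulVec_r_inv, e1, two_smul, two_smul]
    abel
  set M₂ : Mat2 p := (-(b / 2) / 2) • J0 with hM₂
  have hc₂ : c₁ - coboundary r M₂ = 0 := by
    refine (hc₁c.sub (isCocycle_coboundary hr M₂)).eq_zero hP hφ ?_ fun σ hσ => ?_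
    · rw [Pi.sub_apply, hb, coboundary, hM₂, mul_smul_comm, smul_mul_assoc, hη, smul_neg,
        ← neg_smul, ← sub_smul, ← sub_smul]
      convert zero_smul (ZMod p) J0 using 2
      field_simp
      ring
    · rw [Pi.sub_apply, hc₁I σ hσ, coboundary, hM₂, mul_smul_comm, smul_mul_assoc, hcJ σ hσ,
        mul_assoc, mulVec_r_inv, mul_one, sub_self, sub_zero]
  refine ⟨M₁ + M₂, ?_, ?_⟩
  · rw [Matrix.trace_add, hM₁t, hM₂, Matrix.trace_smul, jz_trace, smul_zero, add_zero]
  · rw [coboundary_add, ← sub_eq_zero, ← hc₂, hc₁]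
    abel

/-- **The tangent bound for a plane without stable line.** -/
theorem exists_span (hr : LevC P r) (hflat : FlatI P (actV r)) :
    ∃ s : Finset (Dec P → Mat2 p), s.card ≤ 4 ∧ ∀ c, IsCocycle r c → FlatI P (actW r c) →
      c ∈ Submodule.span (ZMod p) (s : Set (Dec P → Mat2 p)) := by
  classical
  set m := p * p + 1 with hm
  have hpm : ¬ p ∣ m := fun hd => hp.out.not_dvd_one ((Nat.dvd_add_right (dvd_mul_right p p)).1 hd)
  have hm1 : p + 1 ≤ m := by
    have : p ≤ p * p := Nat.le_mul_of_pos_left p hp.out.pos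
    omega
  have hmT : m < p * t.e1 := by
    have := t.p_mul_e1
    have := h.e1_eq
    have := h.he
    omega
  set B : Finset (Dec P → Mat2 p) :=
    {coboundary r !![1, 0; 0, -1], coboundary r !![0, 1; 0, 0], coboundary r !![0, 0; 1, 0]} with hB
  have hBcard : B.card ≤ 3 := Finset.card_le_three
  have hker : ∀ c, IsDeep t ζ r τ c → t.lead ζ (fun σ => c σ 0 0) m = 0 →
      c ∈ Submodule.span (ZMod p) (B : Set (Dec P → Mat2 p)) := by
    intro c hd h0
    obtain ⟨M, hM, rfl⟩ := h.eq_coboundary hP hp3 hζ hdet hflat hd.cocycle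
      (fun g hg => h.eq_zero_on_G hP hp3 hζ hdet hflat hd h0 hg) hr
    exact coboundary_mem_span r hM (by simp [hB]) (by simp [hB]) (by simp [hB])
  -- the corner satisfies an additive polynomial equation of degree `p`
  obtain ⟨φ, hφ⟩ := exists_frob hP
  have hk : ∃ κ : ResidueField P, ∀ c, IsDeep t ζ r τ c →
      t.lead ζ (fun σ => c σ 0 0) m ^ p = κ * t.lead ζ (fun σ => c σ 0 0) m := by
    set A := (t.th τ ^ m + t.th τ ^ (p + 1)) • (r τ).map (kp hP) -
      (t.th τ ^ (p + 1) * (t.th τ + t.th τ ^ p)) • (1 : Matrix (Fin 2) (Fin 2) (ResidueField P))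
      with hA
    set N : Matrix (Fin 2) (Fin 2) (ResidueField P) := !![1, A 1 1 / A 1 0; -(A 0 0 / A 0 1), -1]
    refine ⟨kp hP (omega ζ φ) * ((r φ⁻¹).map (kp hP) * N * (r φ).map (kp hP)) 0 0 / t.th φ ^ m,
      fun c hd => ?_⟩
    have hlev := h.lev_special hP hp3 hζ hdet hflat hd hm1 le_rfl
    obtain ⟨hM, hX⟩ := h.leadMat_eq hP hp3 hζ hdet hflat hd hm1 hpm hmT hlev
    have hconj := h.leadMat_conj hP hp3 hζ hdet hd.cocycle hpm hmT hlev φ 0 0
    rw [hφ] at hconj
    set x := t.lead ζ (fun σ => c σ 0 0) m with hx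
    have hμ : t.th τ ^ m + t.th τ ^ (p + 1) ≠ 0 := by
      intro e
      rw [add_eq_zero_iff_eq_neg] at e
      have h2 : t.th τ ^ m = t.th τ ^ 2 := by
        rw [hm, show p * p + 1 = t.e + 2 by
          rw [h.he]
          have : 1 ≤ p * p := Nat.mul_pos hp.out.pos hp.out.pos
          omega, pow_add, h.prim.pow_eq_one, one_mul]
      rw [h2, show p + 1 = (p - 1) + 2 by omega, pow_add] at e
      have h3 : t.th τ ^ (p - 1) = -1 := mul_right_cancel₀ (pow_ne_zero 2 (t.th_ne_zero τ))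
        (by rw [neg_one_mul]; exact (neg_eq_iff_eq_neg.mpr e).symm)
      refine h.th_pow_ne_kp hP hp3 (i := p - 1) (fun hd => ?_) (-1) (by rw [h3, map_neg, map_one])
      exact absurd (Nat.le_of_dvd (by omega) hd) (by omega)
    have hk0 : ∀ z : ZMod p, z ≠ 0 → kp hP z ≠ 0 := fun z hz e =>
      hz ((kp hP).injective (e.trans (map_zero _).symm))
    have h10 : A 1 0 ≠ 0 := by
      simp only [hA, Matrix.sub_apply, Matrix.smul_apply, Matrix.map_apply, smul_eq_mul,
        Matrix.one_apply_ne (show (1 : Fin 2) ≠ 0 by decide), mul_zero, sub_zero]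
      exact mul_ne_zero hμ (hk0 _ h.noEigen.apply_one_zero)
    have h01 : A 0 1 ≠ 0 := by
      simp only [hA, Matrix.sub_apply, Matrix.smul_apply, Matrix.map_apply, smul_eq_mul,
        Matrix.one_apply_ne (show (0 : Fin 2) ≠ 1 by decide), mul_zero, sub_zero]
      exact mul_ne_zero hμ (hk0 _ h.noEigen.apply_zero_one)
    have hXN : leadMat t ζ c m = x • N := by
      have e00 := congrFun (congrFun hM 0) 0
      have e11 := congrFun (congrFun hM 1) 1
      rw [Matrix.trace_fin_two] at hX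
      have h11 : leadMat t ζ c m 1 1 = -x := eq_neg_of_add_eq_zero_right hX
      simp only [Matrix.mul_apply, Fin.sum_univ_two, Matrix.zero_apply, ← hA] at e00 e11
      rw [show leadMat t ζ c m 0 0 = x from rfl] at e00
      ext i j
      fin_cases i <;> fin_cases j <;> simp [N]
      · rfl
      · rw [h11] at e11
        field_simp
        linear_combination e11
      · field_simp
        linear_combination e00
      · exact h11
    rw [hXN, mul_smul_comm, smul_mul_assoc, Matrix.smul_apply, smul_eq_mul] at hconj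
    rw [div_mul_eq_mul_div, eq_div_iff (pow_ne_zero _ (t.th_ne_zero φ))]
    simp only [Matrix.smul_apply, smul_eq_mul, N, Matrix.of_apply, Matrix.cons_val_zero,
      mul_one] at hconj ⊢
    linear_combination -hconj
  obtain ⟨κ, hκ⟩ := hk
  obtain ⟨z₀, hz₀⟩ := exists_line_of_pow_eq hP κ
  by_cases hex : ∃ c₀, IsDeep t ζ r τ c₀ ∧ t.lead ζ (fun σ => c₀ σ 0 0) m ≠ 0
  · obtain ⟨c₀, hd₀, hne⟩ := hex
    refine ⟨insert c₀ B, (Finset.card_insert_le _ _).trans (by omega), fun c hc hf => ?_⟩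
    have hd := h.isDeep_of_flat hP hp3 hζ hdet hc hf
    obtain ⟨i, hi⟩ := hz₀ _ (hκ c hd)
    obtain ⟨i₀, hi₀⟩ := hz₀ _ (hκ c₀ hd₀)
    have hi00 : i₀ ≠ 0 := fun e => hne (by rw [hi₀, e, map_zero, zero_mul])
    have hd' := h.isDeep_sub_smul hP hp3 hζ hdet hd hd₀ (i / i₀)
    have h0 := hker _ hd' (by
      have hl := h.lev_special hP hp3 hζ hdet hflat hd hm1 le_rfl
      have hl₀ := h.lev_special hP hp3 hζ hdet hflat hd₀ hm1 le_rfl
      have hm0 : 0 < m := by omega
      rw [t.lead_congr hP hζ hpm hmT (h.lev_special hP hp3 hζ hdet hflat hd' hm1 le_rfl 0 0)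
        (ν' := fun σ => c σ 0 0 + -(i / i₀) * c₀ σ 0 0) (fun σ _ => by simp [sub_eq_add_neg]),
        t.lead_add hP hζ hpm hmT (hl 0 0) ((hl₀ 0 0).smul t hP hζ hm0 _),
        t.lead_smul hP hζ hpm hmT (hl₀ 0 0), hi, hi₀, ← mul_assoc, ← map_mul, neg_mul,
        div_mul_cancel₀ _ hi00, map_neg]
      ring)
    rw [show c = (c - (i / i₀) • c₀) + (i / i₀) • c₀ from (sub_add_cancel _ _).symm, Finset.coe_insert]
    exact add_mem (Submodule.span_mono (Set.subset_insert _ _) h0)
      (Submodule.smul_mem _ _ (Submodule.subset_span (Set.mem_insert _ _)))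
  · push Not at hex
    exact ⟨B, by omega, fun c hc hf =>
      hker c (h.isDeep_of_flat hP hp3 hζ hdet hc hf) (hex c (h.isDeep_of_flat hP hp3 hζ hdet hc hf))⟩

end IsSS

end FLTAgent.FlatLocal
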