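import Fermat.Agent.FlatLocal.OrdResidual
import Fermat.Agent.FlatLocal.SSCount

/-!
# Flat lifts of a plane with a stable line

After subtracting a coboundary a flat lift is upper triangular with diagonal trivial on inertia
and an upper right corner of level at least one on `G`.
-/

set_option autoImplicit false
set_option linter.style.haveILetI false
set_option linter.unusedSectionVars false

noncomputable section

open scoped Pointwise Matrix
open IsLocalRing

namespace FLTAgent.FlatLocal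

local notation "QQb" => AlgebraicClosure ℚ

variable {P : ValuationSubring (AlgebraicClosure ℚ)} {p : ℕ} [hp : Fact p.Prime]

theorem tri_one_zero {X A Y : Mat2 p} (hX : X 1 0 = 0) (hY : Y 1 0 = 0) :
    (X * A * Y) 1 0 = X 1 1 * A 1 0 * Y 0 0 := by
  simp [Matrix.mul_apply, Fin.sum_univ_two, hX, hY]

theorem tri_zero_zero {X A Y : Mat2 p} (hY : Y 1 0 = 0) (hA : A 1 0 = 0) :
    (X * A * Y) 0 0 = X 0 0 * A 0 0 * Y 0 0 := by
  simp [Matrix.mul_apply, Fin.sum_univ_two, hY, hA]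

theorem tri_zero_one {X A Y : Mat2 p} (hA : A 1 0 = 0) :
    (X * A * Y) 0 1 = X 0 0 * A 0 0 * Y 0 1 + (X 0 0 * A 0 1 + X 0 1 * A 1 1) * Y 1 1 := by
  simp [Matrix.mul_apply, Fin.sum_univ_two, hA]

theorem eq_neg_corner {r : Dec P →* Mat2 p} {c : Dec P → Mat2 p} (hc : IsCocycle r c) (σ : Dec P) :
    c σ 1 1 = -c σ 0 0 := by
  have h := hc.trace σ
  rw [Matrix.trace_fin_two] at h
  exact eq_neg_of_add_eq_zero_right h

/-- A twisted additive function trivial on inertia and at Frobenius vanishes. -/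
theorem twisted_eq_zero (hP : P.LiesOverPrime p) {φ : Dec P}
    (hφ : ∀ z : ResidueField P, φ • z = z ^ p) {ν u : Dec P → ZMod p} (hlev : LevC P ν)
    (hmul : ∀ σ τ, ν (σ * τ) = ν σ + u σ * ν τ) (hI : ∀ σ, IsIne P σ → ν σ = 0) (h0 : ν φ = 0)
    (σ : Dec P) : ν σ = 0 := by
  obtain ⟨F, hF, hl⟩ := hlev
  haveI := hF
  have hpow : ∀ k : ℕ, ν (φ ^ k) = 0 := by
    intro k
    induction k with
    | zero => rw [pow_zero]; exact hI 1 isIne_one
    | succ k ih => rw [pow_succ, hmul, ih, h0, mul_zero, add_zero]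
  obtain ⟨k, ι, s, hι, hs, rfl⟩ := exists_decomp hP hφ F σ
  rw [hl _ _ hs, hmul, hpow, hI ι hι, mul_zero, add_zero]

/-- A twisted additive function trivial on inertia vanishes at Frobenius if the twist is ramified. -/
theorem twisted_frob {φ τ : Dec P} {ν u : Dec P → ZMod p}
    (hmul : ∀ σ τ, ν (σ * τ) = ν σ + u σ * ν τ) (hI : ∀ σ, IsIne P σ → ν σ = 0)
    (hτ : IsIne P τ) (hu : u (φ * τ * φ⁻¹) ≠ 1) : ν φ = 0 := by
  have e1 := hmul φ τ
  rw [hI τ hτ, mul_zero, add_zero, show φ * τ = φ * τ * φ⁻¹ * φ by group, hmul,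
    hI _ (hτ.conj φ), zero_add] at e1
  by_contra hne
  exact hu ((mul_eq_right₀ hne).1 e1)

theorem flat_add_coboundary {r : Dec P →* Mat2 p} {c : Dec P → Mat2 p} (hflat : FlatI P (actW r c))
    (M : Mat2 p) : FlatI P (actW r (c + coboundary r M)) := by
  let Φ : Vec2 p × Vec2 p →ₗ[ZMod p] Vec2 p × Vec2 p :=
    (LinearMap.fst _ _ _).prod (LinearMap.snd _ _ _ + M.mulVecLin ∘ₗ LinearMap.fst _ _ _)
  have hΦ : ∀ x v, Φ (x, v) = (x, v + M *ᵥ x) := fun x v => by simp [Φ]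
  refine hflat.restrict Φ (fun a b e => ?_) fun σ _ y => ?_
  · obtain ⟨a1, a2⟩ := a
    obtain ⟨b1, b2⟩ := b
    rw [hΦ, hΦ, Prod.mk.injEq] at e
    obtain ⟨rfl, e2⟩ := e
    rw [add_left_inj] at e2
    rw [e2]
  · obtain ⟨x, v⟩ := y
    rw [hΦ, actW_apply, actW_apply, hΦ]
    refine Prod.ext rfl ?_
    rw [Pi.add_apply, coboundary, Matrix.mulVec_add, Matrix.mulVec_mulVec, Matrix.mulVec_mulVec,
      Matrix.mulVec_mulVec, Matrix.mulVec_mulVec, add_mul, sub_mul,
      mul_assoc (r σ * M), r_inv_mul, mul_one, Matrix.add_mulVec, Matrix.sub_mulVec]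
    funext i
    simp only [Pi.add_apply, Pi.sub_apply]
    ring

namespace IsOrd

variable {t : TameData P p} {ζ : QQb} {r : Dec P →* Mat2 p} {τ : Dec P} (h : IsOrd t ζ r τ)
  (hP : P.LiesOverPrime p) (hp3 : 3 ≤ p) (hζ : IsPrimitiveRoot ζ p)

include h

theorem r00_mul (σ σ' : Dec P) : r (σ * σ') 0 0 = r σ 0 0 * r σ' 0 0 := by
  rw [map_mul]; simp [Matrix.mul_apply, Fin.sum_univ_two, h.low σ']

theorem r11_mul (σ σ' : Dec P) : r (σ * σ') 1 1 = r σ 1 1 * r σ' 1 1 := by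
  rw [map_mul]; simp [Matrix.mul_apply, Fin.sum_univ_two, h.low σ]

theorem r00_inv (σ : Dec P) : r σ 0 0 * r σ⁻¹ 0 0 = 1 := by
  rw [← h.r00_mul, mul_inv_cancel, map_one, Matrix.one_apply_eq]

theorem r11_inv (σ : Dec P) : r σ 1 1 * r σ⁻¹ 1 1 = 1 := by
  rw [← h.r11_mul, mul_inv_cancel, map_one, Matrix.one_apply_eq]

/-- The cocycle relation of the lower corner. -/
theorem low_mul {c : Dec P → Mat2 p} (hc : IsCocycle r c) (σ σ' : Dec P) :
    c (σ * σ') 1 0 = c σ 1 0 + r σ 1 1 * r σ⁻¹ 0 0 * c σ' 1 0 := by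
  rw [hc.mul, Matrix.add_apply, tri_one_zero (h.low σ) (h.low σ⁻¹), mul_right_comm]

/-- The diagonal of an upper triangular cocycle is additive. -/
theorem diag_mul {c : Dec P → Mat2 p} (hc : IsCocycle r c) (hlow : ∀ σ, c σ 1 0 = 0) (σ σ' : Dec P) :
    c (σ * σ') 0 0 = c σ 0 0 + c σ' 0 0 := by
  rw [hc.mul, Matrix.add_apply, tri_zero_zero (h.low σ⁻¹) (hlow σ'), mul_right_comm, h.r00_inv,
    one_mul]

/-- The upper corner of a cocycle with zero diagonal. -/
theorem corner_mul {c : Dec P → Mat2 p} (hc : IsCocycle r c) (hlow : ∀ σ, c σ 1 0 = 0)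
    (σ : Dec P) {σ' : Dec P} (hd : c σ' 0 0 = 0) :
    c (σ * σ') 0 1 = c σ 0 1 + r σ 0 0 * r σ⁻¹ 1 1 * c σ' 0 1 := by
  rw [hc.mul, Matrix.add_apply, tri_zero_one (hlow σ'), eq_neg_corner hc σ', hd]
  ring

theorem coboundary_low (σ : Dec P) :
    coboundary r !![0, 0; 1, 0] σ 1 0 = r σ 1 1 * r σ⁻¹ 0 0 - 1 := by
  rw [coboundary, Matrix.sub_apply, tri_one_zero (h.low σ) (h.low σ⁻¹)]
  simp

include hζ

theorem twist_low {σ : Dec P} (hσ : IsIne P σ) :
    r σ 1 1 * r σ⁻¹ 0 0 = (omega (p := p) ζ σ)⁻¹ := by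
  rw [h.diag1 σ hσ, h.diag0 _ hσ.inv, one_mul, omega_inv hζ]

theorem twist_up {σ : Dec P} (hσ : IsIne P σ) :
    r σ 0 0 * r σ⁻¹ 1 1 = omega (p := p) ζ σ := by
  rw [h.diag0 σ hσ, h.diag1 _ hσ.inv, mul_one]

include hP hp3

theorem omega_conj_ne (φ : Dec P) : omega (p := p) ζ (φ * τ * φ⁻¹) ≠ 1 := by
  have h1 := omega_conj (p := p) hζ φ⁻¹ τ
  rw [inv_inv] at h1
  rw [h1]
  exact h.omega_ne hP hp3 hζ

/-- **Step one**: a flat lift is upper triangular up to a coboundary. -/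
theorem exists_low (hr : LevC P r) {c : Dec P → Mat2 p} (hc : IsCocycle r c)
    (hflat : FlatI P (actW r c)) :
    ∃ γ : ZMod p, ∀ σ, (c + γ • coboundary r !![0, 0; 1, 0]) σ 1 0 = 0 := by
  classical
  obtain ⟨S, hS⟩ := hflat
  have hS0 : IsLattice (actV r) (S.image fun f => f ∘ LinearMap.inr (ZMod p) (Vec2 p) (Vec2 p)) :=
    hS.restrict _ LinearMap.inr_injective fun σ _ v => by simp [actW_apply, actV_apply]
  set w := omega (p := p) ζ τ with hw
  set k := (w - 1)⁻¹ * w with hk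
  have hu : ((eOne p, k • (c τ *ᵥ eOne p)) : Vec2 p × Vec2 p) ∈ hS.conn := by
    have h1 : actW r c τ (eOne p, 0) - (eOne p, 0) ∈ hS.conn := hS.dist_act_sub_lt h.ine _
    rw [actW_apply, h.mulVec_eOne h.ine, Matrix.mulVec_zero, zero_add, Matrix.mulVec_smul,
      Prod.mk_sub_mk, sub_zero, ← hw] at h1
    have h2 := hS.conn.smul_mem (w - 1)⁻¹ h1
    rwa [show w • eOne p - eOne p = (w - 1) • eOne p by rw [sub_smul, one_smul], Prod.smul_mk,
      smul_smul, smul_smul, inv_mul_cancel₀ (sub_ne_zero.2 (h.omega_ne hP hp3 hζ)), one_smul] at h2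
  set γ := k * c τ 1 0 with hγ
  have hI : ∀ σ, IsIne P σ → (c + γ • coboundary r !![0, 0; 1, 0]) σ 1 0 = 0 := by
    intro σ hσ
    have h1 := hS.conn.sub_mem (show actW r c σ (eOne p, k • (c τ *ᵥ eOne p)) ∈ hS.conn from by
      show dist P S _ < 1
      rw [hS.dist_act hσ]; exact hu) (hS.conn.smul_mem (omega (p := p) ζ σ) hu)
    rw [actW_apply, h.mulVec_eOne hσ, Prod.smul_mk, Prod.mk_sub_mk, sub_self] at h1
    have h2 : dist P S ((LinearMap.inr (ZMod p) (Vec2 p) (Vec2 p))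
        (r σ *ᵥ (k • (c τ *ᵥ eOne p)) + c σ *ᵥ (omega (p := p) ζ σ • eOne p) -
          omega (p := p) ζ σ • (k • (c τ *ᵥ eOne p)))) < 1 := h1
    rw [← dist_image_comp, h.dist_lt_one_iff hP hp3 hζ hS0] at h2
    simp only [Pi.sub_apply, Pi.add_apply, h.mulVec_snd hσ, Matrix.mulVec_smul, Pi.smul_apply,
      smul_eq_mul, show ∀ A : Mat2 p, (A *ᵥ eOne p) 1 = A 1 0 from fun A => by
        simp [eOne, Matrix.mulVec, dotProduct, Fin.sum_univ_two]] at h2
    have hw0 := omega_ne_zero (p := p) hζ σ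
    simp only [Pi.add_apply, Pi.smul_apply, Matrix.add_apply, Matrix.smul_apply, smul_eq_mul,
      h.coboundary_low, h.twist_low hζ hσ]
    field_simp
    linear_combination h2
  have hc' : IsCocycle r (c + γ • coboundary r !![0, 0; 1, 0]) :=
    hc.add ((isCocycle_coboundary hr _).smul γ)
  obtain ⟨φ, hφ⟩ := exists_frob hP
  refine ⟨γ, fun σ => twisted_eq_zero hP hφ (u := fun σ => r σ 1 1 * r σ⁻¹ 0 0)
    (ν := fun σ => (c + γ • coboundary r !![0, 0; 1, 0]) σ 1 0) (hc'.lev.comp fun A => A 1 0)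
    (h.low_mul hc') hI (twisted_frob (h.low_mul hc') hI h.ine (τ := τ) ?_) σ⟩
  rw [h.twist_low hζ (h.ine.conj φ), inv_ne_one]
  exact h.omega_conj_ne hP hp3 hζ φ

/-- The action on the connected extension of the line by itself. -/
def actE {c : Dec P → Mat2 p} (hc : IsCocycle r c) (hlow : ∀ σ, c σ 1 0 = 0) :
    Dec P →* Module.End (ZMod p) (ZMod p × ZMod p) where
  toFun σ := r σ 0 0 •
    (LinearMap.fst (ZMod p) (ZMod p) (ZMod p)).prod
      (LinearMap.snd _ _ _ + c σ 0 0 • LinearMap.fst _ _ _)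
  map_one' := LinearMap.ext fun x => by simp [hc.one]
  map_mul' σ σ' := LinearMap.ext fun x => by
    rw [Module.End.mul_apply, h.r00_mul, h.diag_mul hc hlow]
    refine Prod.ext ?_ ?_
    · simp only [LinearMap.smul_apply, Prod.smul_fst, LinearMap.prod_apply, Function.prod,
        LinearMap.fst_apply, smul_eq_mul]
      ring
    · simp only [LinearMap.smul_apply, Prod.smul_snd, Prod.smul_fst, LinearMap.prod_apply,
        Function.prod, LinearMap.add_apply, LinearMap.fst_apply, LinearMap.snd_apply, smul_eq_mul]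
      ring

omit hP hp3 hζ in
theorem actE_apply {c : Dec P → Mat2 p} (hc : IsCocycle r c) (hlow : ∀ σ, c σ 1 0 = 0) (σ : Dec P)
    (x : ZMod p × ZMod p) :
    h.actE hc hlow σ x = (r σ 0 0 * x.1, r σ 0 0 * (x.2 + c σ 0 0 * x.1)) := rfl

/-- **Step two**: the diagonal of a flat upper triangular lift is unramified. -/
theorem diag_eq_zero {c : Dec P → Mat2 p} (hc : IsCocycle r c) (hlow : ∀ σ, c σ 1 0 = 0)
    (hflat : FlatI P (actW r c)) {σ₀ : Dec P} (hσ₀ : IsIne P σ₀) : c σ₀ 0 0 = 0 := by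
  classical
  by_contra hne
  let e := LinearMap.toSpanSingleton (ZMod p) (Vec2 p) (eOne p)
  obtain ⟨S, hS⟩ : FlatI P (h.actE hc hlow) := hflat.restrict (e.prodMap e)
    (fun a b eq => by
      have h1 := congrFun (congrArg Prod.fst eq) 0
      have h2 := congrFun (congrArg Prod.snd eq) 0
      simp [e, eOne] at h1 h2
      exact Prod.ext h1 h2)
    fun σ hσ x => by
      rw [h.actE_apply]
      show ((r σ 0 0 * x.1) • eOne p, (r σ 0 0 * (x.2 + c σ 0 0 * x.1)) • eOne p) =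
        actW r c σ (x.1 • eOne p, x.2 • eOne p)
      rw [actW_apply, Matrix.mulVec_smul, Matrix.mulVec_smul, h.mulVec_eOne hσ, h.diag0 σ hσ]
      refine Prod.ext (by simp [smul_smul, mul_comm]) (funext fun i => ?_)
      fin_cases i <;>
        simp [eOne, Matrix.mulVec, dotProduct, Fin.sum_univ_two, hlow σ] <;> ring
  obtain ⟨T, hT, -⟩ := IsLattice.exists_dual hP hζ hS
  haveI := finite_dual (p := p) (W := ZMod p × ZMod p)
  let l : Module.Dual (ZMod p) (ZMod p × ZMod p) := LinearMap.snd _ _ _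
  let m : Module.Dual (ZMod p) (ZMod p × ZMod p) := LinearMap.fst _ _ _
  have hinv : ∀ σ, c σ⁻¹ 0 0 = -c σ 0 0 := fun σ => by
    refine eq_neg_of_add_eq_zero_left ?_
    rw [← h.diag_mul hc hlow, inv_mul_cancel, hc.one]
    rfl
  have hl : ∀ σ, IsIne P σ → dualAct hζ (h.actE hc hlow) σ l = l - c σ 0 0 • m :=
    fun σ hσ => LinearMap.ext fun x => by
      rw [dualAct_apply, h.actE_apply, h.diag0 _ hσ.inv, omega_inv hζ, hinv]
      simp only [l, m, LinearMap.snd_apply, LinearMap.sub_apply, LinearMap.smul_apply,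
        LinearMap.fst_apply, smul_eq_mul]
      field_simp [omega_ne_zero (p := p) hζ σ]
      ring
  have hm : ∀ σ, IsIne P σ → dualAct hζ (h.actE hc hlow) σ m = m :=
    fun σ hσ => LinearMap.ext fun x => by
      rw [dualAct_apply, h.actE_apply, h.diag0 _ hσ.inv, omega_inv hζ]
      simp only [m, LinearMap.fst_apply]
      rw [← mul_assoc, mul_inv_cancel₀ (omega_ne_zero hζ σ), one_mul]
  have hmc : m ∈ hT.conn := by
    have h1 : dualAct hζ (h.actE hc hlow) σ₀ l - l ∈ hT.conn := hT.dist_act_sub_lt hσ₀ l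
    rw [hl σ₀ hσ₀, sub_sub_cancel_left] at h1
    replace h1 : (-c σ₀ 0 0) • m ∈ hT.conn := by
      convert h1 using 1
      exact LinearMap.ext fun x => by simp
    have h2 := hT.conn.smul_mem (-c σ₀ 0 0)⁻¹ h1
    rwa [smul_smul, inv_mul_cancel₀ (neg_ne_zero.2 hne), one_smul] at h2
  have hm0 : m ≠ 0 := fun e => by simpa [m] using LinearMap.congr_fun e (1, 0)
  obtain ⟨n, hn, hd⟩ := t.exists_dist_pow hP hT hm0 fun g hg => hm g hg.1
  have hn0 : 0 < n := Nat.pos_of_ne_zero fun e => by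
    have h1 : dist P T m < 1 := hmc
    rw [hd, e, pow_zero] at h1
    exact lt_irrefl _ h1
  rw [h.e1_eq] at hn
  have h1 := t.eigen_eq hP hT hn0 hd h.ine (a := 1) (by rw [one_smul]; exact hm τ h.ine)
  rw [map_one] at h1
  exact t.th_tau_pow_ne_one hp3 h.he h.prim hn0 (by omega) h1

/-- The action on the quotient by the line in the first component. -/
def actQ (r : Dec P →* Mat2 p) (ν : Dec P → ZMod p) (σ : Dec P) :
    Module.End (ZMod p) (ZMod p × Vec2 p) :=
  (LinearMap.fst _ _ _).prod ((r σ).mulVecLin ∘ₗ LinearMap.snd _ _ _ +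
    ν σ • (LinearMap.toSpanSingleton (ZMod p) (Vec2 p) (eOne p) ∘ₗ LinearMap.fst _ _ _))

omit h hP hp3 hζ in
theorem actQ_apply (r : Dec P →* Mat2 p) (ν : Dec P → ZMod p) (σ : Dec P) (x : ZMod p) (v : Vec2 p) :
    actQ r ν σ (x, v) = (x, r σ *ᵥ v + (ν σ * x) • eOne p) := by
  simp [actQ, smul_smul]

theorem isHomG_corner {c : Dec P → Mat2 p} (hc : IsCocycle r c) (hlow : ∀ σ, c σ 1 0 = 0)
    (hdiag : ∀ σ, IsIne P σ → c σ 0 0 = 0) : t.IsHomG fun σ => c σ 0 1 :=
  ⟨hc.lev.comp fun A => A 0 1, fun σ hσ σ' hσ' => by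
    rw [h.corner_mul hc hlow σ (hdiag σ' hσ'.1), h.twist_up hζ hσ.1, h.omega_G hP hp3 hζ hσ,
      one_mul]⟩

/-- **Step three**: the corner is a unit class. -/
theorem lev_corner {c : Dec P → Mat2 p} (hc : IsCocycle r c) (hlow : ∀ σ, c σ 1 0 = 0)
    (hflat : FlatI P (actW r c)) : t.Lev ζ (fun σ => c σ 0 1) 1 := by
  classical
  have hdiag : ∀ σ, IsIne P σ → c σ 0 0 = 0 := fun σ hσ => h.diag_eq_zero hP hp3 hζ hc hlow hflat hσ
  set ν : Dec P → ZMod p := fun σ => c σ 0 1 with hν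
  by_cases htriv : ∀ σ ∈ t.G, ν σ = 0
  · exact t.lev_zero_fun _ htriv
  push Not at htriv
  obtain ⟨σ₀, hσ₀, hne⟩ := htriv
  let π : Vec2 p × Vec2 p →ₗ[ZMod p] ZMod p × Vec2 p :=
    (LinearMap.proj (R := ZMod p) (φ := fun _ : Fin 2 => ZMod p) 1 ∘ₗ LinearMap.fst _ _ _).prod
      (LinearMap.snd _ _ _)
  have hπ : ∀ x v, π (x, v) = (x 1, v) := fun x v => rfl
  obtain ⟨S, hS⟩ : FlatI P (actQ r ν) := hflat.quotient hP π
    (fun q => ⟨(![0, q.1], q.2), by rw [hπ]; simp⟩) fun σ hσ w => by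
      obtain ⟨x, v⟩ := w
      rw [actW_apply, hπ, hπ, actQ_apply]
      refine Prod.ext (h.mulVec_snd hσ x) ?_
      show r σ *ᵥ v + c σ *ᵥ (r σ *ᵥ x) = _
      congr 1
      funext i
      fin_cases i <;>
        simp [eOne, Matrix.mulVec, dotProduct, Fin.sum_univ_two, hlow σ, hdiag σ hσ,
          eq_neg_corner hc σ, h.low σ, h.diag1 σ hσ, hν]
  have hfix : ∀ g ∈ t.G, actQ r ν g (0, ν σ₀ • eOne p) = (0, ν σ₀ • eOne p) := fun g hg => by
    rw [actQ_apply, Matrix.mulVec_smul, h.fix_eOne hP hp3 hζ hg]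
    simp
  have hz : ((0, ν σ₀ • eOne p) : ZMod p × Vec2 p) ≠ 0 := fun e =>
    hne ((smul_eq_zero.1 (congrArg Prod.snd e)).resolve_right eOne_ne_zero)
  obtain ⟨n, hn, hd⟩ := t.exists_dist_pow hP hS hz hfix
  have hlev := t.lev_of_translates hP hζ hS (h.isHomG_corner hP hp3 hζ hc hlow hdiag) (1, 0) {0}
    (Finset.mem_singleton_self 0)
    (fun σ hσ h0 u hu => ⟨0, Finset.mem_singleton_self _, by
      rw [Finset.mem_singleton.1 hu, add_zero, actQ_apply, show ν σ = 0 from h0]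
      simp⟩)
    hσ₀ (n := n) (fun u hu => by
      rw [Finset.mem_singleton.1 hu, add_zero, actQ_apply, Prod.mk_sub_mk, sub_self, sub_zero,
        Matrix.mulVec_zero, zero_add, mul_one]
      exact hd)
    (by rw [Finset.card_singleton, one_mul]; exact hn)
  exact hlev.anti t hP hζ (Nat.le_add_right 1 _)

end IsOrd

end FLTAgent.FlatLocal
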