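import Fermat.Agent.FlatLocal.Residual

/-!
# Flat planes with an inertia-stable line

If inertia stabilises a line of a flat plane with cyclotomic determinant then in a suitable basis
the representation is upper triangular, inertia acts on the line through the cyclotomic character
and trivially on the quotient, and the line is exactly the connected part.
-/

set_option autoImplicit false
set_option linter.style.haveILetI false
set_option linter.unusedSectionVars false

noncomputable section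

open scoped Pointwise Matrix
open IsLocalRing

namespace FLTAgent.FlatLocal

local notation "QQb" => AlgebraicClosure ℚ

variable {P : ValuationSubring (AlgebraicClosure ℚ)} {p : ℕ} [hp : Fact p.Prime]

/-- The first coordinate vector. -/
def eOne (p : ℕ) : Vec2 p := ![1, 0]

theorem eOne_ne_zero : eOne p ≠ 0 := fun e => by simpa [eOne] using congrFun e 0

theorem eq_smul_eOne {v : Vec2 p} (h : v 1 = 0) : v = v 0 • eOne p := by
  funext i
  fin_cases i <;> simp [eOne, h]

/-- A character of inertia with values in the units of the prime field is tame. -/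
theorem TameData.char_trivial (t : TameData P p) (hP : P.LiesOverPrime p) (he : (p - 1) ∣ t.e)
    {f : Dec P → ZMod p} (hf : LevC P f)
    (hmul : ∀ σ τ, IsIne P σ → IsIne P τ → f (σ * τ) = f σ * f τ)
    (h0 : ∀ σ, IsIne P σ → f σ ≠ 0) {g : Dec P} (hg : g ∈ t.G) : f g = 1 := by
  let F : Dec P → (ZMod p)ˣ := fun σ => if h : f σ = 0 then 1 else Units.mk0 (f σ) h
  have hF : ∀ σ, IsIne P σ → (F σ : ZMod p) = f σ := fun σ hσ => by
    simp [F, h0 σ hσ]
  have h1 : f 1 = 1 := by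
    have h2 := hmul 1 1 isIne_one isIne_one
    rw [one_mul] at h2
    exact mul_left_cancel₀ (h0 1 isIne_one) (h2.symm.trans (mul_one _).symm)
  have hpow : ∀ σ, IsIne P σ → ∀ n : ℕ, f (σ ^ n) = f σ ^ n := by
    intro σ hσ n
    induction n with
    | zero => rw [pow_zero, pow_zero, h1]
    | succ n ih => rw [pow_succ, hmul _ _ (hσ.pow n) hσ, ih, pow_succ]
  have h := t.hom_trivial hP (M := (ZMod p)ˣ) F
    (hf.comp fun x => if h : x = 0 then (1 : (ZMod p)ˣ) else Units.mk0 x h)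
    (fun a b ha hb => Units.ext (by rw [Units.val_mul, hF a ha, hF b hb, hF _ (ha.mul hb), hmul a b ha hb]))
    (fun σ hσ => Units.ext (by
      rw [hF σ hσ.1, Units.val_one]
      obtain ⟨L, hL, hl⟩ := hf
      haveI := hL
      obtain ⟨k, hk⟩ := hσ.exists_pow_mem hP L
      have h2 := hl 1 _ hk
      rw [one_mul, hpow σ hσ.1, h1, ZMod.pow_card_pow] at h2
      exact h2))
    (fun σ hσ => Units.ext (by
      obtain ⟨k, hk⟩ := he
      rw [Units.val_pow_eq_pow_val, hF σ hσ, Units.val_one, hk, pow_mul,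
        ZMod.pow_card_sub_one_eq_one (h0 σ hσ), one_pow]))
    hg
  rw [← hF g hg.1, h, Units.val_one]

/-- Two independent vectors of a subspace of the plane fill it. -/
theorem mem_of_two {N : Submodule (ZMod p) (Vec2 p)} {x y : Vec2 p} (hx : x ≠ 0)
    (hy : ∀ a : ZMod p, y ≠ a • x) (hxN : x ∈ N) (hyN : y ∈ N) (v : Vec2 p) : v ∈ N := by
  have hli : LinearIndependent (ZMod p) ![x, y] := by
    rw [linearIndependent_fin2]
    refine ⟨fun e => hy 0 (by simpa using e), fun a e => ?_⟩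
    change a • y = x at e
    rcases eq_or_ne a 0 with rfl | ha
    · exact hx (by simpa using e.symm)
    · exact hy a⁻¹ (by conv_rhs => rw [← e, smul_smul, inv_mul_cancel₀ ha, one_smul])
  have h1 : Submodule.span (ZMod p) (Set.range ![x, y]) ≤ N := by
    refine Submodule.span_le.2 (Set.range_subset_iff.2 fun i => ?_)
    fin_cases i
    · exact hxN
    · exact hyN
  refine h1 ?_
  rw [hli.span_eq_top_of_card_eq_finrank' (by simp)]
  trivial

theorem omega_inv {ζ : QQb} (hζ : IsPrimitiveRoot ζ p) (σ : Dec P) :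
    omega (p := p) ζ σ⁻¹ = (omega (p := p) ζ σ)⁻¹ := by
  refine eq_inv_of_mul_eq_one_left ?_
  rw [← omega_mul hζ, inv_mul_cancel, omega_one hζ]

theorem omega_conj {ζ : QQb} (hζ : IsPrimitiveRoot ζ p) (g σ : Dec P) :
    omega (p := p) ζ (g⁻¹ * σ * g) = omega ζ σ := by
  rw [omega_mul hζ, omega_mul hζ, omega_inv hζ, mul_comm _ (omega ζ σ), mul_assoc,
    inv_mul_cancel₀ (omega_ne_zero hζ g), mul_one]

namespace TameData

variable (t : TameData P p) (hP : P.LiesOverPrime p) (hp3 : 3 ≤ p) {ζ : AlgebraicClosure ℚ}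
  (hζ : IsPrimitiveRoot ζ p) (he : t.e = p - 1) {τ : Dec P} (hτ : IsIne P τ)
  (hθ : IsPrimitiveRoot (t.th τ) t.e)

include hP he

omit hP in
theorem e1_eq_one : t.e1 = 1 := by
  rw [TameData.e1, he, Nat.div_self (by have := hp.out.two_le; omega)]

include hζ

theorem kp_omega {σ : Dec P} (hσ : IsIne P σ) : kp hP (omega ζ σ) = t.th σ := by
  rw [t.omega_res hP hζ hσ, t.e1_eq_one he, pow_one]

include hp3 hτ hθ

omit hζ hτ hP in
theorem th_tau_pow_ne_one {m : ℕ} (hm : 0 < m) (hmp : m < p - 1) : t.th τ ^ m ≠ 1 := fun e => by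
  have h1 := Nat.le_of_dvd hm (hθ.dvd_of_pow_eq_one m e)
  omega

theorem omega_tau_ne_one : omega (p := p) ζ τ ≠ 1 := fun e => by
  refine t.th_tau_pow_ne_one hp3 he hθ one_pos (by omega) ?_
  rw [pow_one, ← t.kp_omega hP hζ he hτ, e, map_one]

variable {r : Dec P →* Mat2 p} (hr : LevC P r) (hdet : ∀ σ, (r σ).det = omega ζ σ)
  {S : Finset (Vec2 p → QQb)} (hS : IsLattice (actV r) S)

include hr hS

omit hdet in
/-- The character of a stable line is cyclotomic or trivial, according to connectedness. -/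
theorem line_char {x : Vec2 p} (hx : x ≠ 0) {a : Dec P → ZMod p} (ha : LevC P a)
    (hax : ∀ σ, IsIne P σ → r σ *ᵥ x = a σ • x) :
    (dist P S x < 1 → ∀ σ, IsIne P σ → a σ = omega ζ σ) ∧
      (¬ dist P S x < 1 → ∀ σ, IsIne P σ → a σ = 1) := by
  have hinj := smul_left_injective (ZMod p) hx
  have hmul : ∀ σ σ', IsIne P σ → IsIne P σ' → a (σ * σ') = a σ * a σ' := fun σ σ' hσ hσ' =>
    hinj (by
      show a (σ * σ') • x = (a σ * a σ') • x
      rw [← hax _ (hσ.mul hσ'), map_mul, ← Matrix.mulVec_mulVec, hax σ' hσ', Matrix.mulVec_smul,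
        hax σ hσ, smul_smul, mul_comm])
  have h0 : ∀ σ, IsIne P σ → a σ ≠ 0 := fun σ hσ e => hx (by
    have h1 := hax σ hσ
    rw [e, zero_smul] at h1
    have h2 := congrArg (fun v => r σ⁻¹ *ᵥ v) h1
    rwa [Matrix.mulVec_mulVec, r_inv_mul, Matrix.one_mulVec, Matrix.mulVec_zero] at h2)
  have hG : ∀ g ∈ t.G, actV r g x = x := fun g hg => by
    rw [actV_apply, hax g hg.1, t.char_trivial hP (he ▸ dvd_refl _) ha hmul h0 hg, one_smul]
  refine ⟨fun hlt σ hσ => ?_, fun hnlt σ hσ => ?_⟩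
  · obtain ⟨n, hn, hd⟩ := t.exists_dist_pow hP hS hx hG
    rw [t.e1_eq_one he] at hn
    have hn0 : n ≠ 0 := fun e => by rw [hd, e, pow_zero] at hlt; exact lt_irrefl _ hlt
    obtain rfl : n = 1 := by omega
    have h1 := t.eigen_eq hP hS one_pos hd hσ (a := a σ) (hax σ hσ)
    rw [pow_one, ← t.kp_omega hP hζ he hσ] at h1
    exact ((kp hP).injective h1).symm
  · by_contra hne
    refine hnlt ?_
    have h1 : actV r σ x - x ∈ hS.conn := hS.dist_act_sub_lt hσ x
    rw [actV_apply, hax σ hσ] at h1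
    have h2 := hS.conn.smul_mem (a σ - 1)⁻¹ h1
    rwa [show a σ • x - x = (a σ - 1) • x by rw [sub_smul, one_smul], smul_smul,
      inv_mul_cancel₀ (sub_ne_zero.2 hne), one_smul] at h2

include hdet

/-- A stable line with cyclotomic character. -/
theorem exists_line_omega (hl : HasLine r) :
    ∃ x : Vec2 p, x ≠ 0 ∧ ∀ σ, IsIne P σ → r σ *ᵥ x = omega (p := p) ζ σ • x := by
  classical
  obtain ⟨x, hx, hax'⟩ := hl
  have key : ∀ x : Vec2 p, x ≠ 0 → (∀ σ, IsIne P σ → ∃ a : ZMod p, r σ *ᵥ x = a • x) →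
      ∃ a : Dec P → ZMod p, LevC P a ∧ ∀ σ, IsIne P σ → r σ *ᵥ x = a σ • x := by
    intro x hx hax'
    obtain ⟨j, hj⟩ : ∃ j, x j ≠ 0 := by
      by_contra hc; push Not at hc; exact hx (funext hc)
    refine ⟨fun σ => (r σ *ᵥ x) j / x j, hr.comp fun A : Mat2 p => (A *ᵥ x) j / x j, fun σ hσ => ?_⟩
    obtain ⟨b, hb⟩ := hax' σ hσ
    show r σ *ᵥ x = ((r σ *ᵥ x) j / x j) • x
    rw [hb, Pi.smul_apply, smul_eq_mul, mul_div_cancel_right₀ _ hj]
  obtain ⟨a, ha, hax⟩ := key x hx hax'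
  obtain ⟨h1, h2⟩ := t.line_char hP hp3 hζ he hτ hθ hr hS hx ha hax
  by_cases hlt : dist P S x < 1
  · exact ⟨x, hx, fun σ hσ => by rw [hax σ hσ, h1 hlt σ hσ]⟩
  have hne : r τ ≠ 1 := fun e => t.omega_tau_ne_one hP hp3 hζ he hτ hθ (by
    rw [← hdet, e, Matrix.det_one])
  obtain ⟨w, hw⟩ : ∃ w, r τ *ᵥ w - w ≠ 0 := by
    by_contra hc
    push Not at hc
    refine hne (Matrix.toLin'.injective (LinearMap.ext fun w => ?_))
    rw [Matrix.toLin'_one, LinearMap.id_apply, Matrix.toLin'_apply]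
    exact sub_eq_zero.1 (hc w)
  set z := r τ *ᵥ w - w with hz
  have hzc : z ∈ hS.conn := hS.dist_act_sub_lt hτ w
  have hzl : ∀ σ, IsIne P σ → ∃ b : ZMod p, r σ *ᵥ z = b • z := by
    intro σ hσ
    by_contra hc
    push Not at hc
    refine hlt (mem_of_two hw hc hzc ?_ x)
    show dist P S (actV r σ z) < 1
    rw [hS.dist_act hσ]
    exact hzc
  obtain ⟨b, hb, hbz⟩ := key z hw hzl
  exact ⟨z, hw, fun σ hσ => by
    rw [hbz σ hσ, (t.line_char hP hp3 hζ he hτ hθ hr hS hw hb hbz).1 hzc σ hσ]⟩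

end TameData

/-- A tame datum, a tame generator and an upper triangular representation, inertia acting through
`ω` and `1` on the diagonal. -/
structure IsOrd (t : TameData P p) (ζ : AlgebraicClosure ℚ) (r : Dec P →* Mat2 p) (τ : Dec P) :
    Prop where
  he : t.e = p - 1
  ine : IsIne P τ
  prim : IsPrimitiveRoot (t.th τ) t.e
  low : ∀ σ, r σ 1 0 = 0
  diag0 : ∀ σ, IsIne P σ → r σ 0 0 = omega ζ σ
  diag1 : ∀ σ, IsIne P σ → r σ 1 1 = 1

/-- The conjugate of a representation. -/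
def conjRep (r : Dec P →* Mat2 p) (M N : Mat2 p) (hNM : N * M = 1) : Dec P →* Mat2 p where
  toFun σ := N * r σ * M
  map_one' := by rw [map_one, mul_one, hNM]
  map_mul' σ σ' := by
    have hMN : M * N = 1 := mul_eq_one_comm.1 hNM
    rw [map_mul]
    simp only [mul_assoc]
    rw [← mul_assoc M N, hMN, one_mul]

theorem conjRep_apply (r : Dec P →* Mat2 p) (M N : Mat2 p) (hNM : N * M = 1) (σ : Dec P) :
    conjRep r M N hNM σ = N * r σ * M := rfl

/-- **The normal form of a flat plane with a stable line.** -/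
theorem exists_isOrd (hP : P.LiesOverPrime p) (hp3 : 3 ≤ p) {ζ : QQb} (hζ : IsPrimitiveRoot ζ p)
    {r : Dec P →* Mat2 p} (hr : LevC P r) (hdet : ∀ σ, (r σ).det = omega ζ σ)
    (hflat : FlatI P (actV r)) (hl : HasLine r) :
    ∃ (t : TameData P p) (τ : Dec P) (M N : Mat2 p) (hNM : N * M = 1),
      IsOrd t ζ (conjRep r M N hNM) τ := by
  obtain ⟨t, ht⟩ := TameData.exists_data P (p := p) (p - 1) (by omega) dvd_rfl
    (fun h => absurd (Nat.le_of_dvd (by omega) h) (by omega))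
  obtain ⟨τ, hτ, hθ⟩ := t.exists_tau hP
  obtain ⟨S, hS⟩ := hflat
  obtain ⟨x, hx, hax⟩ := t.exists_line_omega hP hp3 hζ ht hτ hθ hr hdet hS hl
  obtain ⟨M, hM, hMx⟩ : ∃ M : Mat2 p, M.det ≠ 0 ∧ M *ᵥ eOne p = x := by
    by_cases h0 : x 0 = 0
    · refine ⟨!![x 0, 1; x 1, 0], ?_, ?_⟩
      · have h1 : x 1 ≠ 0 := fun e => hx (funext fun i => by fin_cases i <;> assumption)
        simp [Matrix.det_fin_two, h1]
      · funext i; fin_cases i <;> simp [eOne, Matrix.mulVec, dotProduct, Fin.sum_univ_two]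
    · refine ⟨!![x 0, 0; x 1, 1], ?_, ?_⟩
      · simp [Matrix.det_fin_two, h0]
      · funext i; fin_cases i <;> simp [eOne, Matrix.mulVec, dotProduct, Fin.sum_univ_two]
  have hNM : M⁻¹ * M = 1 := Matrix.nonsing_inv_mul M (isUnit_iff_ne_zero.2 hM)
  have hcol : ∀ σ, IsIne P σ → conjRep r M M⁻¹ hNM σ *ᵥ eOne p = omega (p := p) ζ σ • eOne p := by
    intro σ hσ
    rw [conjRep_apply, ← Matrix.mulVec_mulVec, hMx, ← Matrix.mulVec_mulVec, hax σ hσ,
      Matrix.mulVec_smul, ← hMx, Matrix.mulVec_mulVec, hNM, Matrix.one_mulVec]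
  set r' := conjRep r M M⁻¹ hNM with hr'
  have h00 : ∀ σ, IsIne P σ → r' σ 0 0 = omega ζ σ := fun σ hσ => by
    simpa [eOne, Matrix.mulVec, dotProduct, Fin.sum_univ_two] using congrFun (hcol σ hσ) 0
  have h10 : ∀ σ, IsIne P σ → r' σ 1 0 = 0 := fun σ hσ => by
    simpa [eOne, Matrix.mulVec, dotProduct, Fin.sum_univ_two] using congrFun (hcol σ hσ) 1
  have h11 : ∀ σ, IsIne P σ → r' σ 1 1 = 1 := fun σ hσ => by
    have h1 : (r' σ).det = omega ζ σ := by
      rw [hr', conjRep_apply, Matrix.det_mul, Matrix.det_mul, hdet, mul_right_comm,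
        ← Matrix.det_mul, hNM, Matrix.det_one, one_mul]
    rw [Matrix.det_fin_two, h00 σ hσ, h10 σ hσ, mul_zero, sub_zero] at h1
    exact (mul_eq_left₀ (omega_ne_zero hζ σ)).1 h1
  refine ⟨t, τ, M, M⁻¹, hNM, ht, hτ, hθ, fun g => ?_, h00, h11⟩
  have hg : IsIne P (g⁻¹ * τ * g) := by simpa using hτ.conj g⁻¹
  have e : r' τ * r' g = r' g * r' (g⁻¹ * τ * g) := by
    rw [← map_mul, ← map_mul]
    congr 1
    group
  have e1 := congrFun (congrFun e 1) 0
  simp only [Matrix.mul_apply, Fin.sum_univ_two, h10 τ hτ, h11 τ hτ, h00 _ hg, h10 _ hg, zero_mul,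
    one_mul, zero_add, mul_zero, add_zero, omega_conj hζ] at e1
  by_contra hne
  exact t.omega_tau_ne_one hP hp3 hζ ht hτ hθ ((mul_eq_left₀ hne).1 e1.symm)

namespace IsOrd

variable {t : TameData P p} {ζ : QQb} {r : Dec P →* Mat2 p} {τ : Dec P} (h : IsOrd t ζ r τ)
  (hP : P.LiesOverPrime p) (hp3 : 3 ≤ p) (hζ : IsPrimitiveRoot ζ p)

include h

theorem e1_eq : t.e1 = 1 := t.e1_eq_one h.he

theorem mulVec_eOne {σ : Dec P} (hσ : IsIne P σ) : r σ *ᵥ eOne p = omega (p := p) ζ σ • eOne p := by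
  funext i
  fin_cases i <;>
    simp [eOne, Matrix.mulVec, dotProduct, Fin.sum_univ_two, h.low σ, h.diag0 σ hσ]

theorem mulVec_snd {σ : Dec P} (hσ : IsIne P σ) (v : Vec2 p) : (r σ *ᵥ v) 1 = v 1 := by
  simp [Matrix.mulVec, dotProduct, Fin.sum_univ_two, h.low σ, h.diag1 σ hσ]

include hP hp3 hζ

theorem omega_ne : omega (p := p) ζ τ ≠ 1 :=
  t.omega_tau_ne_one hP hp3 hζ h.he h.ine h.prim

theorem omega_G {g : Dec P} (hg : g ∈ t.G) : omega (p := p) ζ g = 1 :=
  omega_eq_one_of_fix hζ (t.fix_zeta hP hg hζ)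

theorem fix_eOne {g : Dec P} (hg : g ∈ t.G) : r g *ᵥ eOne p = eOne p := by
  rw [h.mulVec_eOne hg.1, h.omega_G hP hp3 hζ hg, one_smul]

/-- **The line is the connected part.** -/
theorem dist_lt_one_iff {S : Finset (Vec2 p → QQb)} (hS : IsLattice (actV r) S) (v : Vec2 p) :
    dist P S v < 1 ↔ v 1 = 0 := by
  have hω := sub_ne_zero.2 (h.omega_ne hP hp3 hζ)
  refine ⟨fun hv => ?_, fun hv => ?_⟩
  · by_contra hne
    obtain ⟨T, hT, hpair⟩ := IsLattice.exists_dual (act := actVHom r) hP hζ hS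
    haveI := finite_dual (p := p) (W := Vec2 p)
    let l : Module.Dual (ZMod p) (Vec2 p) := LinearMap.proj 1
    have hl0 : l ≠ 0 := fun e => hne (by simpa [l] using LinearMap.congr_fun e v)
    have hl : ∀ σ, IsIne P σ → dualAct hζ (actVHom r) σ l = omega (p := p) ζ σ • l := fun σ hσ =>
      LinearMap.ext fun w => by
        rw [dualAct_apply, LinearMap.smul_apply, smul_eq_mul]
        exact congrArg _ (h.mulVec_snd hσ.inv w)
    have hlc : l ∈ hT.conn := by
      have h1 : dualAct hζ (actVHom r) τ l - l ∈ hT.conn := hT.dist_act_sub_lt h.ine l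
      rw [hl τ h.ine] at h1
      have h2 := hT.conn.smul_mem (omega (p := p) ζ τ - 1)⁻¹ h1
      rwa [show omega (p := p) ζ τ • l - l = (omega (p := p) ζ τ - 1) • l from
          LinearMap.ext fun w => by simp [sub_mul],
        smul_smul, inv_mul_cancel₀ hω, one_smul] at h2
    obtain ⟨n, hn, hdl⟩ := t.exists_dist_pow hP hT hl0 fun g hg => by
      rw [hl g hg.1, h.omega_G hP hp3 hζ hg, one_smul]
    have hn0 : n ≠ 0 := fun e => by
      have h1 : dist P T l < 1 := hlc
      rw [hdl, e, pow_zero] at h1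
      exact lt_irrefl _ h1
    rw [h.e1_eq] at hn
    obtain rfl : n = 1 := by omega
    rw [pow_one] at hdl
    obtain ⟨γ, hγ, hexp⟩ := hpair l
    have h1 : P.valuation (chi ζ l v - 1) < t.vπ := by
      rw [hexp]
      refine P.valuation.map_sum_lt t.vπ_ne_zero fun f hf => ?_
      rw [map_mul]
      refine (mul_le_mul' ((hγ f hf).trans_eq hdl) (val_sub_le_dist hf v)).trans_lt ?_
      conv_rhs => rw [← mul_one t.vπ]
      exact mul_lt_mul_of_pos_left hv t.vπ_pos
    have h2 : res P ((chi ζ l v - 1) / t.π ^ t.e1) ≠ 0 := by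
      rw [chi, t.res_chi hP hζ]
      exact mul_ne_zero (fun e => hne ((kp hP).injective (e.trans (map_zero _).symm)))
        (t.val_res_chi hP hζ)
    refine h2 (res_eq_zero ?_)
    rw [h.e1_eq, pow_one, map_div₀, div_lt_one₀ t.vπ_pos]
    exact h1
  · have h1 : actV r τ (eOne p) - eOne p ∈ hS.conn := hS.dist_act_sub_lt h.ine _
    rw [actV_apply, h.mulVec_eOne h.ine] at h1
    have h2 := hS.conn.smul_mem (v 0 * (omega (p := p) ζ τ - 1)⁻¹) h1
    rwa [show omega (p := p) ζ τ • eOne p - eOne p = (omega (p := p) ζ τ - 1) • eOne p by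
      rw [sub_smul, one_smul], smul_smul, mul_assoc, inv_mul_cancel₀ hω, mul_one,
      ← eq_smul_eOne hv] at h2

end IsOrd

end FLTAgent.FlatLocal
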