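import Fermat.Agent.FlatLocal.Dual

/-!
# Points fixed by `G`: leading terms, and the filtration of the classes that move them
-/

set_option autoImplicit false
set_option linter.style.haveILetI false
set_option linter.unusedSectionVars false

noncomputable section

open scoped Pointwise
open IsLocalRing

namespace FLTAgent.FlatLocal

local notation "QQb" => AlgebraicClosure ℚ
local notation "GG" => (AlgebraicClosure ℚ ≃ₐ[ℚ] AlgebraicClosure ℚ)

variable {P : ValuationSubring (AlgebraicClosure ℚ)} {p : ℕ} [hp : Fact p.Prime]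

/-- The prime field inside the residue field. -/
def kp (hP : P.LiesOverPrime p) : ZMod p →+* ResidueField P :=
  haveI := FrobTrace.charP_residueField hP
  ZMod.castHom (dvd_refl p) (ResidueField P)

theorem kp_pow (hP : P.LiesOverPrime p) (a : ZMod p) : kp hP a ^ p = kp hP a := by
  rw [← map_pow, ZMod.pow_card]

theorem kp_eq_natCast (hP : P.LiesOverPrime p) (a : ZMod p) :
    kp hP a = (a.val : ResidueField P) := by
  conv_lhs => rw [← ZMod.natCast_zmod_val a]
  exact map_natCast (kp hP) a.val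

theorem smul_kp (hP : P.LiesOverPrime p) (σ : Dec P) (a : ZMod p) : σ • kp hP a = kp hP a := by
  rw [kp_eq_natCast, ← res_natCast, smul_res σ (natCast_mem P _), map_natCast]

theorem exists_kp_eq (hP : P.LiesOverPrime p) {z : ResidueField P} (h : z ^ p = z) :
    ∃ a : ZMod p, kp hP a = z := by
  obtain ⟨n, -, rfl⟩ := exists_natCast_eq_of_pow hP h
  exact ⟨(n : ZMod p), map_natCast (kp hP) n⟩

/-- Powers of a root of unity that are not `p - 1`-torsion lie outside the prime field. -/
theorem pow_ne_kp (hP : P.LiesOverPrime p) {θ : ResidueField P} {e i : ℕ} (he0 : e ≠ 0)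
    (hθ : IsPrimitiveRoot θ e)
    (hi : ¬ e ∣ i * (p - 1)) (a : ZMod p) : θ ^ i ≠ kp hP a := by
  intro h
  have h1 := kp_pow hP a
  rw [← h] at h1
  have he : e ≠ 0 := fun he => he0 he
  have hz : θ ^ i ≠ 0 := pow_ne_zero i (hθ.ne_zero he)
  refine hi (hθ.dvd_of_pow_eq_one _ ?_)
  rw [pow_mul]
  refine mul_right_cancel₀ hz ?_
  rw [one_mul, ← pow_succ, Nat.sub_add_cancel hp.out.one_le]
  exact h1

namespace TameData

variable (t : TameData P p) {W : Type*} [AddCommGroup W] [Module (ZMod p) W]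
  {act : Dec P → Module.End (ZMod p) W} {S : Finset (W → QQb)}
  (hP : P.LiesOverPrime p) (h : IsLattice act S)

/-- The leading term at order `n` of the translation of `y` by `u`. -/
def lfun (n : ℕ) (y u : W) (f : W → QQb) : ResidueField P :=
  res P ((f (y + u) - f y) / t.π ^ n)

include hP h

/-- Points fixed by `G` have distance a power of the uniformiser, at most `e1`. -/
theorem exists_dist_pow [Finite W] {u : W} (hu : u ≠ 0) (hfix : ∀ g ∈ t.G, act g u = u) :
    ∃ n : ℕ, n ≤ t.e1 ∧ dist P S u = t.vπ ^ n := by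
  obtain ⟨f, hf, hfu⟩ := exists_eq_dist (P := P) h.nonempty u
  have hne : f u - f 0 ≠ 0 := fun e => hu (h.eq_zero_of_dist (by rw [← hfu, e, map_zero]))
  obtain ⟨n, hn⟩ := t.exists_pow hP hne (sub_mem (h.int f hf u) (h.int f hf 0)) fun g hg => by
    rw [map_sub, ← h.equiv f hf g hg.1 u, ← h.equiv f hf g hg.1 0, map_zero, hfix g hg]
  refine ⟨n, not_lt.1 fun hlt => hu (h.eq_zero_of_dist_pow hP ?_), hfu.symm.trans hn⟩
  rw [← hfu, hn, ← pow_mul, ← t.vπ_pow, t.pow_lt hP, ← t.e1_mul]
  exact Nat.mul_lt_mul_of_pos_right hlt (by have := hp.out.two_le; omega)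

omit hP in
theorem val_second_translate (y u w : W) {f : W → QQb} (hf : f ∈ S) :
    P.valuation (f (y + (u + w)) - f (y + u) - f (y + w) + f y) ≤ dist P S u * dist P S w := by
  let L : (W × W → QQb) →ₗ[Rnr P] QQb :=
    { toFun := fun F => F (y, u + w) - F (y, u) - F (y, w) + F (y, 0)
      map_add' := fun F G => by simp only [Pi.add_apply]; ring
      map_smul' := fun c F => by simp only [Pi.smul_apply, Rnr_smul_def, RingHom.id_apply]; ring }
  have h1 := val_span_apply_le (h.trans f hf) (c := dist P S u * dist P S w) L ?_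
  · simpa [L] using h1
  rintro _ ⟨a, ha, b, hb, rfl⟩
  show P.valuation (a y * b (u + w) - a y * b u - a y * b w + a y * b 0) ≤ _
  rw [show a y * b (u + w) - a y * b u - a y * b w + a y * b 0 =
    a y * (b (u + w) - b u - b w + b 0) by ring, map_mul]
  exact (mul_le_of_le_one_left' (val_le_one_of_mem (h.int a ha y))).trans
    (h.val_second_le (Submodule.subset_span hb) u w)

theorem lfun_mem {n : ℕ} {y u : W} {f : W → QQb}
    (hf : f ∈ Submodule.span (Rnr P) (S : Set (W → QQb))) (hu : dist P S u ≤ t.vπ ^ n) :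
    (f (y + u) - f y) / t.π ^ n ∈ P := by
  refine mem_of_val_le_one ?_
  rw [map_div₀, map_pow]
  exact div_le_one_of_le₀ ((h.val_translate_le hf y u).trans hu) zero_le

theorem lfun_zero {n : ℕ} {y : W} {f : W → QQb} : t.lfun n y 0 f = 0 := by simp [lfun]

theorem lfun_add {n : ℕ} (hn : 0 < n) {y u w : W} {f : W → QQb} (hf : f ∈ S)
    (hu : dist P S u ≤ t.vπ ^ n) (hw : dist P S w ≤ t.vπ ^ n) :
    t.lfun n y (u + w) f = t.lfun n y u f + t.lfun n y w f := by
  have hfs := Submodule.subset_span (R := Rnr P) (Finset.mem_coe.2 hf)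
  have huw : dist P S (u + w) ≤ t.vπ ^ n := (h.dist_add_le u w).trans (max_le hu hw)
  have h1 := t.lfun_mem hP h (y := y) hfs hu
  have h2 := t.lfun_mem hP h (y := y) hfs hw
  rw [lfun, lfun, lfun, ← res_add h1 h2,
    res_eq_iff (t.lfun_mem hP h hfs huw) (P.add_mem _ _ h1 h2), ← add_div, ← sub_div, map_div₀,
    map_pow, div_lt_one₀ (pow_pos t.vπ_pos _)]
  rw [show f (y + (u + w)) - f y - (f (y + u) - f y + (f (y + w) - f y)) =
    f (y + (u + w)) - f (y + u) - f (y + w) + f y by ring]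
  refine (val_second_translate h y u w hf).trans_lt ((mul_le_mul' hu hw).trans_lt ?_)
  rw [← pow_add]
  exact (t.pow_lt hP).2 (by omega)

theorem lfun_smul {n : ℕ} (hn : 0 < n) {y u : W} {f : W → QQb} (hf : f ∈ S)
    (hu : dist P S u ≤ t.vπ ^ n) (a : ZMod p) :
    t.lfun n y (a • u) f = kp hP a * t.lfun n y u f := by
  suffices H : ∀ k : ℕ, t.lfun n y (k • u) f = (k : ResidueField P) * t.lfun n y u f by
    rw [kp_eq_natCast, ← H, ← Nat.cast_smul_eq_nsmul (ZMod p), ZMod.natCast_zmod_val]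
  intro k
  induction k with
  | zero => rw [zero_smul, t.lfun_zero hP h, Nat.cast_zero, zero_mul]
  | succ k ih =>
    rw [succ_nsmul, t.lfun_add hP h hn hf ((h.dist_nsmul_le k u).trans hu) hu, ih, Nat.cast_succ,
      add_mul, one_mul]

/-- Inertia acts on leading terms at the origin through the tame character. -/
theorem lfun_act {n : ℕ} {u : W} {f : W → QQb} (hf : f ∈ S) (hu : dist P S u ≤ t.vπ ^ n)
    {σ : Dec P} (hσ : IsIne P σ) :
    t.lfun n 0 (act σ u) f = t.lfun n 0 u f * t.th σ ^ n := by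
  have hfs := Submodule.subset_span (R := Rnr P) (Finset.mem_coe.2 hf)
  have h1 := t.lfun_mem hP h (y := 0) hfs hu
  have hq := div_map_mem σ t.π_ne_zero
  rw [lfun, lfun, th, thx, ← hσ.res_map h1, ← res_pow hq, ← res_mul (map_mem σ h1) (pow_mem hq n)]
  congr 1
  rw [zero_add, zero_add, map_div₀ (σ : GG), map_sub, map_pow, ← h.equiv f hf σ hσ u,
    ← h.equiv f hf σ hσ 0, map_zero, div_pow,
    div_mul_div_cancel₀ (pow_ne_zero _ ((map_ne_zero_iff _ (σ : GG).injective).mpr t.π_ne_zero))]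

theorem exists_lfun_ne_zero {n : ℕ} {u : W} (hu : dist P S u = t.vπ ^ n) (y : W) :
    ∃ f ∈ S, t.lfun n y u f ≠ 0 := by
  obtain ⟨f, hf, hle⟩ := h.exists_translate_eq y u
  refine ⟨f, hf, res_ne_zero ?_⟩
  rw [map_div₀, map_pow]
  have he : P.valuation (f (y + u) - f y) = t.vπ ^ n :=
    le_antisymm (hu ▸ h.val_translate_le (Submodule.subset_span hf) y u) (hu ▸ hle)
  rw [he, div_self (pow_ne_zero _ t.vπ_ne_zero)]

/-- An eigenvector of inertia has the tame character to the power of its order as eigenvalue. -/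
theorem eigen_eq {n : ℕ} (hn : 0 < n) {u : W} (hu : dist P S u = t.vπ ^ n) {σ : Dec P}
    (hσ : IsIne P σ) {a : ZMod p} (he : act σ u = a • u) : t.th σ ^ n = kp hP a := by
  obtain ⟨f, hf, hne⟩ := t.exists_lfun_ne_zero hP h hu 0
  have h1 := t.lfun_act hP h hf hu.le hσ
  rw [he, t.lfun_smul hP h hn hf hu.le] at h1
  exact mul_right_cancel₀ hne (by rw [h1, mul_comm])

/-- A quadratic relation of inertia on a point gives one for the tame character. -/
theorem quad_eq {n : ℕ} (hn : 0 < n) {u : W} (hu : dist P S u = t.vπ ^ n) {σ : Dec P}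
    (hσ : IsIne P σ) {a b : ZMod p} (he : act σ (act σ u) + b • u = a • act σ u) :
    t.th σ ^ n * t.th σ ^ n + kp hP b = kp hP a * t.th σ ^ n := by
  obtain ⟨f, hf, hne⟩ := t.exists_lfun_ne_zero hP h hu 0
  have hσu : dist P S (act σ u) ≤ t.vπ ^ n := by rw [h.dist_act hσ]; exact hu.le
  have hσσ : dist P S (act σ (act σ u)) ≤ t.vπ ^ n := by rw [h.dist_act hσ]; exact hσu
  have hb : dist P S (b • u) ≤ t.vπ ^ n := (h.dist_smul_le b u).trans hu.le
  have h1 := congrArg (fun v => t.lfun n 0 v f) he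
  simp only [t.lfun_add hP h hn hf hσσ hb, t.lfun_smul hP h hn hf hu.le,
    t.lfun_smul hP h hn hf hσu, t.lfun_act hP h hf hσu hσ, t.lfun_act hP h hf hu.le hσ] at h1
  refine mul_left_cancel₀ hne ?_
  rw [mul_add, mul_comm (t.lfun n 0 u f) (kp hP b), ← mul_assoc, h1]
  ring

omit h in
/-- Finitely many nonzero residue vectors are all detected by one combination. -/
theorem exists_comb {ι : Type*} [Fintype ι] (s : Finset (ι → ResidueField P))
    (hs : ∀ v ∈ s, v ≠ 0) : ∃ a : ι → ResidueField P, ∀ v ∈ s, ∑ i, a i * v i ≠ 0 := by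
  classical
  haveI := FrobTrace.isAlgClosed_residueField P
  let e := Fintype.equivFin ι
  let F : (ι → ResidueField P) → Polynomial (ResidueField P) := fun v =>
    ∑ i, Polynomial.C (v i) * Polynomial.X ^ (e i : ℕ)
  have hF : ∀ v ∈ s, F v ≠ 0 := by
    intro v hv h0
    refine hs v hv (funext fun i => ?_)
    have h1 := congrArg (fun q : Polynomial (ResidueField P) => q.coeff (e i : ℕ)) h0
    simp only [F, Polynomial.finsetSum_coeff, Polynomial.coeff_C_mul, Polynomial.coeff_X_pow,
      Polynomial.coeff_zero] at h1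
    rw [Finset.sum_eq_single i] at h1
    · simpa using h1
    · intro j _ hj
      rw [if_neg fun hh => hj (e.injective (Fin.ext hh.symm)), mul_zero]
    · exact fun hh => absurd (Finset.mem_univ i) hh
  have hprod : (∏ v ∈ s, F v) ≠ 0 := Finset.prod_ne_zero_iff.2 hF
  obtain ⟨x, hx⟩ : ∃ x, (∏ v ∈ s, F v).eval x ≠ 0 := by
    by_contra hall
    push Not at hall
    exact hprod (Polynomial.funext fun x => by rw [hall x, Polynomial.eval_zero])
  refine ⟨fun i => x ^ (e i : ℕ), fun v hv => ?_⟩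
  rw [Polynomial.eval_prod, Finset.prod_ne_zero_iff] at hx
  have h2 := hx v hv
  simp only [F, Polynomial.eval_finsetSum, Polynomial.eval_mul, Polynomial.eval_C,
    Polynomial.eval_pow, Polynomial.eval_X] at h2
  simpa [mul_comm] using h2

/-- One function moves every point of a finite set exactly. -/
theorem exists_move_all {n : ℕ} (y : W) (s : Finset W) (hs : ∀ u ∈ s, dist P S u = t.vπ ^ n) :
    ∃ f ∈ Submodule.span (Rnr P) (S : Set (W → QQb)),
      ∀ u ∈ s, P.valuation (f (y + u) - f y) = t.vπ ^ n := by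
  classical
  obtain ⟨a, ha⟩ := exists_comb (P := P) hP
    (s.image fun u => fun f : {x // x ∈ S} => t.lfun n y u f.1) (by
      simp only [Finset.forall_mem_image]
      intro u hu he
      obtain ⟨f, hf, hne⟩ := t.exists_lfun_ne_zero hP h (hs u hu) y
      exact hne (congrFun he ⟨f, hf⟩))
  choose r hrP hr hrfix using fun i => exists_fixed_residue hP (a i)
  let F : W → QQb := ∑ i : {x // x ∈ S}, (⟨r i, mem_Rnr.2 ⟨hrP i, hrfix i⟩⟩ : Rnr P) • (i.1)
  have hF : F ∈ Submodule.span (Rnr P) (S : Set (W → QQb)) :=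
    sum_mem fun i _ => Submodule.smul_mem _ _ (Submodule.subset_span i.2)
  refine ⟨F, hF, fun u hu => ?_⟩
  have hmem : ∀ i : {x // x ∈ S}, (i.1 (y + u) - i.1 y) / t.π ^ n ∈ P := fun i =>
    t.lfun_mem hP h (Submodule.subset_span i.2) (hs u hu).le
  have he : (F (y + u) - F y) / t.π ^ n = ∑ i, r i * ((i.1 (y + u) - i.1 y) / t.π ^ n) := by
    simp only [F, Finset.sum_apply, Pi.smul_apply, Rnr_smul_def, ← Finset.sum_sub_distrib,
      Finset.sum_div]
    exact Finset.sum_congr rfl fun i _ => by ring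
  have h1 : res P ((F (y + u) - F y) / t.π ^ n) ≠ 0 := by
    rw [he, res_sum _ _ fun i _ => P.mul_mem _ _ (hrP i) (hmem i)]
    rw [Finset.sum_congr rfl fun i _ => res_mul (hrP i) (hmem i)]
    simp only [hr]
    exact ha _ (Finset.mem_image_of_mem _ hu)
  refine le_antisymm ((hs u hu) ▸ h.val_translate_le hF y u) (not_lt.1 fun hlt => h1 (res_eq_zero ?_))
  rw [map_div₀, map_pow, div_lt_one₀ (pow_pos t.vπ_pos _)]
  exact hlt

end TameData

namespace TameData

variable (t : TameData P p) {ζ : QQb} (hP : P.LiesOverPrime p) (hζ : IsPrimitiveRoot ζ p)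
  {ν : Dec P → ZMod p}

include hP hζ

/-- A number whose conjugates over the kernel of `ν` are all moved exactly gives a deep class. -/
theorem lev_of_conj (hν : t.IsHomG ν) {z : QQb} (O : Finset QQb) (hzO : z ∈ O)
    (hO : ∀ x ∈ O, x ∈ P) (hperm : ∀ σ ∈ t.G, ν σ = 0 → ∀ x ∈ O, (σ : GG) x ∈ O) {σ₀ : Dec P}
    (hσ₀ : σ₀ ∈ t.G) {k : ℕ} (hk : k ≤ t.e1)
    (hmove : t.vπ ^ k ≤ ∏ x ∈ O, P.valuation (z - (σ₀ : GG) x)) :
    t.Lev ζ ν (1 + p * (t.e1 - k)) := by
  classical
  let Φ : Polynomial P := ∏ x : {x // x ∈ O}, (Polynomial.X - Polynomial.C ⟨x.1, hO x.1 x.2⟩)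
  let Ψ : Polynomial QQb := ∏ x ∈ O, (Polynomial.X - Polynomial.C x)
  have hΨ : Φ.map P.subtype = Ψ := by
    rw [Polynomial.map_prod]
    simp only [Polynomial.map_sub, Polynomial.map_X, Polynomial.map_C]
    exact Finset.prod_coe_sort O fun x => Polynomial.X - Polynomial.C x
  have hint : ∀ j, Ψ.coeff j ∈ P := fun j => by rw [← hΨ, Polynomial.coeff_map]; exact (Φ.coeff j).2
  have hfix : ∀ j, ∀ σ ∈ t.G, ν σ = 0 → (σ : GG) (Ψ.coeff j) = Ψ.coeff j := by
    intro j σ hσ h0
    have e : Ψ.map ((σ : GG) : QQb →+* QQb) = Ψ := by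
      simp only [Ψ, Polynomial.map_prod, Polynomial.map_sub, Polynomial.map_X, Polynomial.map_C]
      have himg : O.image (fun x => (σ : GG) x) = O :=
        Finset.eq_of_subset_of_card_le (Finset.image_subset_iff.2 (hperm σ hσ h0))
          (by rw [Finset.card_image_of_injective _ (σ : GG).injective])
      conv_rhs => rw [← himg]
      rw [Finset.prod_image fun a _ b _ e => (σ : GG).injective e]
      rfl
    conv_rhs => rw [← e]
    rw [Polynomial.coeff_map]
    rfl
  have hz0 : Ψ.eval z = 0 := by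
    rw [Polynomial.eval_prod]
    exact Finset.prod_eq_zero hzO (by simp)
  have hev : (Ψ.map ((σ₀ : GG) : QQb →+* QQb)).eval z = ∏ x ∈ O, (z - (σ₀ : GG) x) := by
    simp [Ψ, Polynomial.map_prod, Polynomial.eval_prod]
  have hdiff : (Ψ.map ((σ₀ : GG) : QQb →+* QQb) - Ψ).eval z = ∏ x ∈ O, (z - (σ₀ : GG) x) := by
    rw [Polynomial.eval_sub, hev, hz0, sub_zero]
  have hzP := hO z hzO
  obtain ⟨j, hj⟩ : ∃ j, t.vπ ^ k ≤ P.valuation ((σ₀ : GG) (Ψ.coeff j) - Ψ.coeff j) := by
    by_contra hall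
    push Not at hall
    refine absurd hmove (not_le.2 ?_)
    rw [← map_prod, ← hdiff, Polynomial.eval_eq_sum, Polynomial.sum]
    refine P.valuation.map_sum_lt (pow_ne_zero _ t.vπ_ne_zero) fun j _ => ?_
    rw [map_mul]
    refine (mul_le_of_le_one_right' ?_).trans_lt ?_
    · exact val_le_one_of_mem (pow_mem hzP j)
    · rw [Polynomial.coeff_sub, Polynomial.coeff_map]
      exact hall j
  exact t.lev_of_move hP hζ hν hk (hint j) (hfix j) hσ₀ hj

/-- A point moved by `σ₀` off all of its translates under the kernel. -/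
theorem lev_of_translates {W : Type*} [AddCommGroup W] [Module (ZMod p) W]
    {act : Dec P → Module.End (ZMod p) W} {S : Finset (W → QQb)} (h : IsLattice act S)
    (hν : t.IsHomG ν) (y : W) (U : Finset W) (h0U : (0 : W) ∈ U)
    (hperm : ∀ σ ∈ t.G, ν σ = 0 → ∀ u ∈ U, ∃ u' ∈ U, act σ (y + u) = y + u') {σ₀ : Dec P}
    (hσ₀ : σ₀ ∈ t.G) {n : ℕ}
    (hmove : ∀ u ∈ U, dist P S (act σ₀ (y + u) - y) = t.vπ ^ n) (hk : U.card * n ≤ t.e1) :
    t.Lev ζ ν (1 + p * (t.e1 - U.card * n)) := by
  classical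
  obtain ⟨f, hf, hfm⟩ := t.exists_move_all hP h y (U.image fun u => act σ₀ (y + u) - y) (by
    simpa [Finset.forall_mem_image] using hmove)
  refine t.lev_of_conj hP hζ hν (z := f y) (U.image fun u => f (y + u))
    (Finset.mem_image.2 ⟨0, h0U, by rw [add_zero]⟩) ?_ ?_ hσ₀ hk ?_
  · simp only [Finset.forall_mem_image]
    exact fun u _ => h.int' hf _
  · intro σ hσ h0
    simp only [Finset.forall_mem_image]
    intro u hu
    obtain ⟨u', hu', e⟩ := hperm σ hσ h0 u hu
    rw [← h.equiv' hf hσ.1, e]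
    exact Finset.mem_image_of_mem _ hu'
  · rw [Finset.prod_congr rfl (g := fun _ => t.vπ ^ n), Finset.prod_const, ← pow_mul, t.pow_le hP,
      mul_comm]
    · exact Nat.mul_le_mul_right n Finset.card_image_le
    · simp only [Finset.forall_mem_image]
      intro u hu
      have h1 := hfm _ (Finset.mem_image_of_mem (fun u => act σ₀ (y + u) - y) hu)
      rw [add_sub_cancel, h.equiv' hf hσ₀.1] at h1
      rw [P.valuation.map_sub_swap, h1]

end TameData

end FLTAgent.FlatLocal
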