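import Fermat.Agent.FlatLocal.Lattice

/-!
# Quotients of flat representations are flat
-/

set_option autoImplicit false
set_option linter.style.haveILetI false
set_option linter.unusedSectionVars false

noncomputable section

open scoped Pointwise
open IsLocalRing

namespace FLTAgent.FlatLocal

local notation "QQb" => AlgebraicClosure ℚ
local notation "GG" => (AlgebraicClosure ℚ ≃ₐ[ℚ] AlgebraicClosure ℚ)

variable {P : ValuationSubring (AlgebraicClosure ℚ)} {p : ℕ} [hp : Fact p.Prime]
variable {W Q : Type*} [AddCommGroup W] [Finite W] [AddCommGroup Q]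
  {F : Type*} [FunLike F W W]

/-- The functions on a quotient whose pullback is in the lattice. -/
def pullLattice (π : W →+ Q) (S : Finset (W → QQb)) : Submodule (Rnr P) (Q → QQb) :=
  (Submodule.span (Rnr P) (S : Set (W → QQb))).comap (LinearMap.funLeft (Rnr P) QQb π)

theorem mem_pullLattice {π : W →+ Q} {S : Finset (W → QQb)} {g : Q → QQb} :
    g ∈ pullLattice (P := P) π S ↔ g ∘ π ∈ Submodule.span (Rnr P) (S : Set (W → QQb)) := Iff.rfl

theorem pullLattice_fg (hP : P.LiesOverPrime p) (π : W →+ Q) (hπ : Function.Surjective π)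
    (S : Finset (W → QQb)) : (pullLattice (P := P) π S).FG := by
  haveI := isPrincipalIdealRing_Rnr hP
  set M := Submodule.span (Rnr P) (S : Set (W → QQb))
  haveI : Module.Finite (Rnr P) M := Module.Finite.iff_fg.2 ⟨S, rfl⟩
  let j : pullLattice (P := P) π S →ₗ[Rnr P] M :=
    (LinearMap.funLeft (Rnr P) QQb π).restrict fun g hg => hg
  have hj : Function.Injective j := fun a b e =>
    Subtype.ext (LinearMap.funLeft_injective_of_surjective (Rnr P) QQb π hπ (congrArg Subtype.val e))
  haveI : Module.Finite (Rnr P) (pullLattice (P := P) π S) := Module.Finite.of_injective j hj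
  exact Module.Finite.iff_fg.1 inferInstance

variable {act : Dec P → F} {S : Finset (W → QQb)}

/-- Summing over the translates by the kernel lands in the pullback lattice. -/
theorem sum_translates_mem (h : IsLattice act S) (π : W →+ Q)
    [Fintype (π.ker)] (hker : ∀ σ, IsIne P σ → ∀ w, π w = 0 → π (act σ w) = 0)
    {f : W → QQb} (hf : f ∈ Submodule.span (Rnr P) (S : Set (W → QQb))) :
    (fun w => ∑ k : π.ker, f (w + k)) ∈ Submodule.span (Rnr P) (S : Set (W → QQb)) := by
  classical
  -- the trace over the kernel of a lattice function is an integer of the inertia field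
  have htr : ∀ g ∈ (S : Set (W → QQb)), (∑ k : π.ker, g k) ∈ Rnr P := by
    intro g hg
    refine mem_Rnr.2 ⟨sum_mem fun k _ => h.int g hg _, fun σ hσ => ?_⟩
    rw [map_sum]
    refine Fintype.sum_bijective
      (fun k : π.ker => (⟨act σ k, hker σ hσ _ k.2⟩ : π.ker)) ?_ _ _
      fun k => (h.equiv g hg σ hσ _).symm
    exact Finite.injective_iff_bijective.1 fun a b e =>
      Subtype.ext (h.inj σ hσ (congrArg Subtype.val e))
  let L : (W × W → QQb) →ₗ[Rnr P] (W → QQb) :=
    { toFun := fun F w => ∑ k : π.ker, F (w, (k : W))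
      map_add' := fun F G => funext fun w => by simp [Finset.sum_add_distrib]
      map_smul' := fun c F => funext fun w => by simp [Finset.smul_sum] }
  have h1 := Submodule.apply_mem_span_image_of_mem_span L (h.trans' hf)
  refine Submodule.span_le.2 ?_ h1
  rintro _ ⟨_, ⟨g, hg, g', hg', rfl⟩, rfl⟩
  have e : L (tens g g') = (⟨_, htr g' hg'⟩ : Rnr P) • g := funext fun w => by
    show ∑ k : π.ker, g w * g' k = (∑ k : π.ker, g' k) * g w
    rw [← Finset.mul_sum, mul_comm]
  rw [e]
  exact Submodule.smul_mem _ _ (Submodule.subset_span hg)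

theorem pull_full (h : IsLattice act S) (π : W →+ Q) (hπ : Function.Surjective π)
    (hker : ∀ σ, IsIne P σ → ∀ w, π w = 0 → π (act σ w) = 0) :
    Submodule.span QQb (pullLattice (P := P) π S : Set (Q → QQb)) = ⊤ := by
  classical
  cases nonempty_fintype W
  refine eq_top_iff.2 fun g _ => ?_
  set N := Submodule.span QQb (pullLattice (P := P) π S : Set (Q → QQb))
  let π' : (Q → QQb) →ₗ[QQb] (W → QQb) := LinearMap.funLeft QQb QQb π
  have hinj : Function.Injective π' := LinearMap.funLeft_injective_of_surjective _ _ π hπ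
  let A : (W → QQb) →ₗ[QQb] (W → QQb) :=
    { toFun := fun f w => ∑ k : π.ker, f (w + k)
      map_add' := fun F G => funext fun w => by simp [Finset.sum_add_distrib]
      map_smul' := fun c F => funext fun w => by simp [Finset.mul_sum] }
  have hinv : ∀ f : W → QQb, ∀ w w', π w = π w' → A f w = A f w' := by
    intro f w w' e
    have hk : w - w' ∈ π.ker := by rw [AddMonoidHom.mem_ker, map_sub, e, sub_self]
    refine Fintype.sum_equiv (Equiv.addLeft (⟨w - w', hk⟩ : π.ker)) _ _ fun k => ?_
    congr 1
    show w + (k : W) = w' + ((w - w') + (k : W))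
    abel
  have hA : ∀ f ∈ (S : Set (W → QQb)), A f ∈ N.map π' := by
    intro f hf
    refine ⟨fun q => A f (Function.surjInv hπ q), Submodule.subset_span ?_, ?_⟩
    · rw [SetLike.mem_coe, mem_pullLattice]
      convert sum_translates_mem h π hker (Submodule.subset_span hf) using 1
      exact funext fun w => hinv f _ _ (Function.surjInv_eq hπ _)
    · exact funext fun w => hinv f _ _ (Function.surjInv_eq hπ _)
  have h1 : A (π' g) ∈ N.map π' := by
    have h2 : π' g ∈ Submodule.span QQb (S : Set (W → QQb)) := by rw [h.full]; trivial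
    have h3 := Submodule.apply_mem_span_image_of_mem_span A h2
    refine Submodule.span_le.2 ?_ h3
    rintro _ ⟨f, hf, rfl⟩
    exact hA f hf
  have h2 : A (π' g) = (Fintype.card (π.ker) : QQb) • π' g := by
    funext w
    show ∑ k : π.ker, g (π (w + k)) = _
    rw [Finset.sum_congr rfl fun (k : π.ker) _ => show g (π (w + (k : W))) = g (π w) by
      rw [map_add, show π (k : W) = 0 from k.2, add_zero]]
    simp [π', LinearMap.funLeft_apply, mul_comm]
  rw [h2] at h1
  obtain ⟨g₀, hg₀, e⟩ := h1
  have h3 : g = (Fintype.card (π.ker) : QQb)⁻¹ • g₀ := by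
    have e' : g₀ = (Fintype.card (π.ker) : QQb) • g := hinj (by rw [map_smul]; exact e)
    rw [e', smul_smul, inv_mul_cancel₀ (Nat.cast_ne_zero.mpr Fintype.card_ne_zero), one_smul]
  rw [h3]
  exact N.smul_mem _ hg₀

/-- An integral retraction of the lattice to the pullback lattice, extended to all functions. -/
theorem exists_retraction (hP : P.LiesOverPrime p) (h : IsLattice act S) (π : W →+ Q)
    (hπ : Function.Surjective π) (hker : ∀ σ, IsIne P σ → ∀ w, π w = 0 → π (act σ w) = 0) :
    ∃ Pr : (W → QQb) →ₗ[QQb] (Q → QQb), (∀ g : Q → QQb, Pr (g ∘ π) = g) ∧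
      ∀ f ∈ Submodule.span (Rnr P) (S : Set (W → QQb)), Pr f ∈ pullLattice (P := P) π S := by
  classical
  haveI := isPrincipalIdealRing_Rnr hP
  obtain ⟨n, b, T, hTb, hT, hTS⟩ := h.exists_basis hP
  set M := Submodule.span (Rnr P) (S : Set (W → QQb)) with hM
  haveI : Module.Finite (Rnr P) M := Module.Finite.iff_fg.2 ⟨S, rfl⟩
  set N := pullLattice (P := P) π S with hN
  let j : N →ₗ[Rnr P] M := (LinearMap.funLeft (Rnr P) QQb π).restrict fun g hg => hg
  have hj : Function.Injective j := fun a c e =>
    Subtype.ext (LinearMap.funLeft_injective_of_surjective (Rnr P) QQb π hπ (congrArg Subtype.val e))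
  -- the cokernel is torsion free, hence free
  haveI : Module.IsTorsionFree (Rnr P) (M ⧸ LinearMap.range j) := by
    rw [Module.isTorsionFree_iff_smul_eq_zero]
    intro r x hx
    obtain ⟨f, rfl⟩ := Submodule.Quotient.mk_surjective _ x
    rw [or_iff_not_imp_left]
    intro hr
    rw [← Submodule.Quotient.mk_smul, Submodule.Quotient.mk_eq_zero] at hx
    rw [Submodule.Quotient.mk_eq_zero]
    obtain ⟨g, hg⟩ := hx
    have hr' : (r : QQb) ≠ 0 := fun e => hr (Subtype.ext e)
    have e : (fun q => (r : QQb)⁻¹ * (g : Q → QQb) q) ∘ π = (f : W → QQb) := by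
      funext w
      have := congrFun (congrArg Subtype.val hg) w
      show (r : QQb)⁻¹ * (g : Q → QQb) (π w) = _
      rw [show (g : Q → QQb) (π w) = (r : QQb) * (f : W → QQb) w from this, inv_mul_cancel_left₀ hr']
    refine ⟨(⟨fun q => (r : QQb)⁻¹ * (g : Q → QQb) q, mem_pullLattice.2 (e ▸ f.2)⟩ : N), Subtype.ext e⟩
  haveI : Module.Free (Rnr P) (M ⧸ LinearMap.range j) := Module.free_of_finite_type_torsion_free'
  obtain ⟨s, hs⟩ := Module.projective_lifting_property (Submodule.mkQ (LinearMap.range j))
    LinearMap.id (Submodule.mkQ_surjective _)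
  let c : M →ₗ[Rnr P] LinearMap.range j :=
    (LinearMap.id - s ∘ₗ Submodule.mkQ _).codRestrict _ fun f => by
      have := LinearMap.congr_fun hs (Submodule.mkQ _ f)
      simp only [LinearMap.comp_apply, LinearMap.id_apply] at this
      refine (Submodule.Quotient.mk_eq_zero _).1 ?_
      rw [← Submodule.mkQ_apply]
      simp only [LinearMap.sub_apply, LinearMap.id_apply, LinearMap.comp_apply, map_sub, this,
        sub_self]
  let pr : M →ₗ[Rnr P] N := (LinearEquiv.ofInjective j hj).symm.toLinearMap ∘ₗ c
  have hpr : ∀ g : N, pr (j g) = g := by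
    intro g
    have h0 : c (j g) = LinearEquiv.ofInjective j hj g := by
      refine Subtype.ext ?_
      show j g - s (Submodule.mkQ _ (j g)) = j g
      rw [Submodule.mkQ_apply,
        (Submodule.Quotient.mk_eq_zero (LinearMap.range j)).2 (LinearMap.mem_range_self j g), map_zero,
        sub_zero]
    show (LinearEquiv.ofInjective j hj).symm (c (j g)) = g
    rw [h0, LinearEquiv.symm_apply_apply]
  have hbM : ∀ i, b i ∈ M := fun i => by
    rw [← hTS]
    exact Submodule.subset_span (by rw [hTb]; exact ⟨i, rfl⟩)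
  let Pr : (W → QQb) →ₗ[QQb] (Q → QQb) := b.constr QQb fun i => (pr ⟨b i, hbM i⟩ : Q → QQb)
  have key : ∀ f : M, Pr f = (pr f : Q → QQb) := by
    have hspan : Submodule.span (Rnr P) (Set.range fun i => (⟨b i, hbM i⟩ : M)) = ⊤ := by
      refine Submodule.map_injective_of_injective M.subtype_injective ?_
      rw [Submodule.map_span, ← Set.range_comp, Submodule.map_top, Submodule.range_subtype]
      rw [show M.subtype ∘ (fun i => (⟨b i, hbM i⟩ : M)) = b from rfl, ← hTb, hTS]
    have e : (Pr.restrictScalars (Rnr P)).comp M.subtype = N.subtype.comp pr :=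
      LinearMap.ext_on_range hspan fun i => b.constr_basis QQb _ i
    exact fun f => LinearMap.congr_fun e f
  refine ⟨Pr, fun g => ?_, fun f hf => by rw [key ⟨f, hf⟩]; exact (pr ⟨f, hf⟩).2⟩
  have e : Pr.comp (LinearMap.funLeft QQb QQb π) = LinearMap.id := by
    refine LinearMap.ext_on (pull_full h π hπ hker) fun x hx => ?_
    show Pr (x ∘ π) = x
    rw [show (x ∘ π : W → QQb) = ((j ⟨x, hx⟩ : M) : W → QQb) from rfl, key, hpr]
  exact LinearMap.congr_fun e g

/-- **Quotients of flat representations are flat.** -/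
theorem FlatI.quotient (hP : P.LiesOverPrime p) {FQ : Type*} [FunLike FQ Q Q]
    [ZeroHomClass FQ Q Q] {actQ : Dec P → FQ}
    (h : FlatI P act) {G : Type*} [FunLike G W Q] [AddMonoidHomClass G W Q] (π' : G)
    (hπ' : Function.Surjective π')
    (heq' : ∀ σ, IsIne P σ → ∀ w, π' (act σ w) = actQ σ (π' w)) : FlatI P actQ := by
  classical
  let π : W →+ Q := AddMonoidHomClass.toAddMonoidHom π'
  have hπ : Function.Surjective π := hπ'
  have heq : ∀ σ, IsIne P σ → ∀ w, π (act σ w) = actQ σ (π w) := heq'
  obtain ⟨S, hS⟩ := h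
  have hker : ∀ σ, IsIne P σ → ∀ w, π w = 0 → π (act σ w) = 0 := fun σ hσ w hw => by
    rw [heq σ hσ, hw, map_zero]
  obtain ⟨T, hT⟩ := pullLattice_fg hP π hπ S
  obtain ⟨Pr, hPr, hPrN⟩ := exists_retraction hP hS π hπ hker
  have hTN : ∀ f ∈ T, f ∘ π ∈ Submodule.span (Rnr P) (S : Set (W → QQb)) := fun f hf =>
    mem_pullLattice.1 (hT ▸ Submodule.subset_span hf)
  refine ⟨T, ?_, ?_, ?_, ?_, ?_, ?_, ?_⟩
  · intro σ hσ
    haveI : Finite Q := Finite.of_surjective π hπ
    refine Finite.injective_iff_surjective.2 fun q => ?_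
    obtain ⟨w, rfl⟩ := hπ q
    obtain ⟨w', rfl⟩ := Finite.injective_iff_surjective.1 (hS.inj σ hσ) w
    exact ⟨π w', (heq σ hσ w').symm⟩
  · intro f hf q
    obtain ⟨w, rfl⟩ := hπ q
    exact hS.int' (hTN f hf) w
  · intro f hf σ hσ q
    obtain ⟨w, rfl⟩ := hπ q
    rw [← heq σ hσ]
    exact hS.equiv' (hTN f hf) hσ w
  · refine eq_top_iff.2 ((pull_full hS π hπ hker).symm.le.trans (Submodule.span_le.2 ?_))
    rw [← hT]
    exact Submodule.span_le_restrictScalars (Rnr P) QQb _
  · rw [hT, mem_pullLattice]
    exact hS.one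
  · intro f hf g hg
    rw [hT, mem_pullLattice]
    exact hS.mul' (hTN f hf) (hTN g hg)
  · intro f hf
    let L1 : (W × W → QQb) →ₗ[QQb] (Q × W → QQb) :=
      { toFun := fun F x => Pr (fun u => F (u, x.2)) x.1
        map_add' := fun F G => funext fun x => by
          rw [Pi.add_apply, ← Pi.add_apply, ← map_add]; rfl
        map_smul' := fun c F => funext fun x => by
          rw [RingHom.id_apply, Pi.smul_apply, ← Pi.smul_apply, ← map_smul]; rfl }
    let L2 : (Q × W → QQb) →ₗ[QQb] (Q × Q → QQb) :=
      { toFun := fun F x => Pr (fun u => F (x.1, u)) x.2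
        map_add' := fun F G => funext fun x => by
          rw [Pi.add_apply, ← Pi.add_apply, ← map_add]; rfl
        map_smul' := fun c F => funext fun x => by
          rw [RingHom.id_apply, Pi.smul_apply, ← Pi.smul_apply, ← map_smul]; rfl }
    let L := (L2.comp L1).restrictScalars (Rnr P)
    have h1 := Submodule.apply_mem_span_image_of_mem_span L (hS.trans' (hTN f hf))
    have e : L (fun x : W × W => (f ∘ π) (x.1 + x.2)) = fun x : Q × Q => f (x.1 + x.2) := by
      funext x
      have e1 : ∀ (a : Q) (v : W), Pr (fun u => (f ∘ π) (u + v)) a = f (a + π v) := by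
        intro a v
        rw [show (fun u => (f ∘ π) (u + v)) = (fun q => f (q + π v)) ∘ π from
          funext fun u => congrArg f (map_add π u v), hPr]
      show Pr (fun v => Pr (fun u => (f ∘ π) (u + v)) x.1) x.2 = _
      rw [show (fun v => Pr (fun u => (f ∘ π) (u + v)) x.1) = (fun q => f (x.1 + q)) ∘ π from
        funext fun v => e1 x.1 v, hPr]
    rw [e] at h1
    refine Submodule.span_le.2 ?_ h1
    rintro _ ⟨_, ⟨a, ha, c, hc, rfl⟩, rfl⟩
    have e2 : L (tens a c) = tens (Pr a) (Pr c) := by
      funext x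
      show Pr (fun v => Pr (fun u => a u * c v) x.1) x.2 = Pr a x.1 * Pr c x.2
      have h3 : (fun v => Pr (fun u => a u * c v) x.1) = (Pr a x.1) • c := funext fun v => by
        rw [show (fun u => a u * c v) = c v • a from funext fun u => mul_comm _ _, map_smul,
          Pi.smul_apply, Pi.smul_apply, smul_eq_mul, smul_eq_mul, mul_comm]
      rw [h3, map_smul, Pi.smul_apply, smul_eq_mul]
    rw [e2]
    refine tens_mem_span ?_ ?_ <;> rw [hT] <;> exact hPrN _ (Submodule.subset_span (by assumption))

end FLTAgent.FlatLocal
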