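import Fermat.Agent.FlatLocal.Setup

/-!
# Flat planes without an inertia-stable line

If inertia stabilises no line of a flat plane with cyclotomic determinant then wild inertia acts
trivially, `G` acts trivially for `e = p ^ 2 - 1`, the image of a tame generator has irreducible
characteristic polynomial and every nonzero point has distance exactly the value of the
uniformiser (the fundamental character of level two).
-/

set_option autoImplicit false
set_option linter.style.haveILetI false
set_option linter.unusedSectionVars false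

noncomputable section

open scoped Pointwise Matrix
open IsLocalRing

namespace FLTAgent.FlatLocal

local notation "QQb" => AlgebraicClosure ℚ

variable {P : ValuationSubring (AlgebraicClosure ℚ)} {p : ℕ} [hp : Fact p.Prime]

/-! ### Two by two matrices over the prime field -/

/-- A matrix without eigenvector. -/
def NoEigen (J : Mat2 p) : Prop := ∀ (a : ZMod p) (x : Vec2 p), J *ᵥ x = a • x → x = 0

theorem cayley (J : Mat2 p) : J * J + J.det • 1 = J.trace • J := by
  ext i j
  fin_cases i <;> fin_cases j <;>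
    simp [Matrix.mul_apply, Fin.sum_univ_two, Matrix.det_fin_two, Matrix.trace_fin_two] <;> ring

namespace NoEigen

variable {J : Mat2 p} (hJ : NoEigen J)

include hJ

theorem det_sub_ne_zero (a : ZMod p) : (J - a • 1).det ≠ 0 := fun h => by
  obtain ⟨x, hx, e⟩ := Matrix.exists_mulVec_eq_zero_iff.2 h
  refine hx (hJ a x ?_)
  rwa [Matrix.sub_mulVec, Matrix.smul_mulVec, Matrix.one_mulVec, sub_eq_zero] at e

theorem irreducible_charpoly (a : ZMod p) : a * a + J.det ≠ J.trace * a := fun h => by
  refine hJ.det_sub_ne_zero a ?_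
  simp [Matrix.det_fin_two, Matrix.trace_fin_two] at h ⊢
  linear_combination h

theorem det_ne_zero : J.det ≠ 0 := by
  simpa using hJ.det_sub_ne_zero 0

theorem apply_one_zero : J 1 0 ≠ 0 := fun h => by
  have h1 := hJ (J 0 0) ![1, 0] (funext fun i => by
    fin_cases i <;> simp [Matrix.mulVec, dotProduct, Fin.sum_univ_two, h])
  simpa using congrFun h1 0

theorem apply_zero_one : J 0 1 ≠ 0 := fun h => by
  have h1 := hJ (J 1 1) ![0, 1] (funext fun i => by
    fin_cases i <;> simp [Matrix.mulVec, dotProduct, Fin.sum_univ_two, h])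
  simpa using congrFun h1 1

/-- The commutant consists of linear polynomials. -/
theorem exists_of_commute {A : Mat2 p} (hA : A * J = J * A) :
    ∃ a b : ZMod p, A = a • 1 + b • J := by
  have h10 := hJ.apply_one_zero
  have e00 := congrFun (congrFun hA 0) 0
  have e10 := congrFun (congrFun hA 1) 0
  simp [Matrix.mul_apply, Fin.sum_univ_two] at e00 e10
  refine ⟨A 0 0 - A 1 0 / J 1 0 * J 0 0, A 1 0 / J 1 0, ?_⟩
  ext i j
  fin_cases i <;> fin_cases j <;> simp
  · field_simp
    linear_combination e00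
  · field_simp
  · field_simp
    linear_combination e10

/-- A nonzero element of the commutant is invertible. -/
theorem det_ne_zero_of_commute {A : Mat2 p} (hA : A * J = J * A) (h0 : A ≠ 0) : A.det ≠ 0 := by
  obtain ⟨a, b, rfl⟩ := hJ.exists_of_commute hA
  intro h
  obtain ⟨x, hx, e⟩ := Matrix.exists_mulVec_eq_zero_iff.2 h
  rw [Matrix.add_mulVec, Matrix.smul_mulVec, Matrix.smul_mulVec, Matrix.one_mulVec] at e
  rcases eq_or_ne b 0 with rfl | hb
  · rw [zero_smul, add_zero] at e
    rcases smul_eq_zero.1 e with rfl | h'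
    · exact h0 (by simp)
    · exact hx h'
  · refine hx (hJ (-a / b) x ?_)
    rw [div_eq_inv_mul, mul_smul, neg_smul, eq_neg_of_add_eq_zero_left e, neg_neg, smul_smul,
      inv_mul_cancel₀ hb, one_smul]

theorem eq_zero_or_eq_zero {A B : Mat2 p} (hA : A * J = J * A) (h : A * B = 0) :
    A = 0 ∨ B = 0 := by
  by_contra hc
  push Not at hc
  have hu : IsUnit A :=
    (Matrix.isUnit_iff_isUnit_det A).2 (isUnit_iff_ne_zero.2 (hJ.det_ne_zero_of_commute hA hc.1))
  exact hc.2 (hu.mul_right_eq_zero.1 h)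

theorem pow_prime_cases : J ^ p = J ∨ J ^ p = J.trace • 1 - J := by
  haveI : CharP (Mat2 p) p := inferInstance
  have h0 : (J * J + J.det • 1) ^ p = (J.trace • J) ^ p := by rw [cayley]
  rw [add_pow_char_of_commute p (by rw [← Algebra.algebraMap_eq_smul_one]; exact (Algebra.commutes _ _).symm),
    smul_pow, smul_pow, one_pow, ZMod.pow_card, ZMod.pow_card, (Commute.refl J).mul_pow] at h0
  set K := J ^ p with hK
  have hKJ : K * J = J * K := (Commute.pow_self J p).eq
  -- `K` is a root of the characteristic polynomial of `J`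
  have h1 : (K - J) * (K - (J.trace • 1 - J)) = 0 := by
    simp only [mul_sub, sub_mul, mul_smul_comm, mul_one, hKJ, smul_sub]
    have h2 := cayley J
    linear_combination (norm := abel) h0 - h2
  rcases hJ.eq_zero_or_eq_zero (by rw [sub_mul, mul_sub, hKJ]) h1 with h | h
  · exact Or.inl (sub_eq_zero.1 h)
  · exact Or.inr (sub_eq_zero.1 h)

theorem pow_prime_pow_prime : (J ^ p) ^ p = J := by
  haveI : CharP (Mat2 p) p := inferInstance
  rcases hJ.pow_prime_cases with h | h
  · rw [h, h]
  · rw [h, sub_pow_char_of_commute p (Commute.smul_left (Commute.one_left J) _), smul_pow, one_pow,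
      ZMod.pow_card, h, sub_sub_cancel]

/-- Elements of the commutant have order dividing `p ^ 2 - 1`. -/
theorem pow_card_sub_one {A : Mat2 p} (hA : A * J = J * A) (h0 : A ≠ 0) :
    A ^ (p * p - 1) = 1 := by
  have hu : IsUnit A :=
    (Matrix.isUnit_iff_isUnit_det A).2 (isUnit_iff_ne_zero.2 (hJ.det_ne_zero_of_commute hA h0))
  haveI : CharP (Mat2 p) p := inferInstance
  obtain ⟨a, b, rfl⟩ := hJ.exists_of_commute hA
  have h1 : (a • (1 : Mat2 p) + b • J) ^ (p * p) = a • 1 + b • J := by
    rw [pow_mul, add_pow_char_of_commute p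
        (((Commute.one_left J).smul_left a).smul_right b), smul_pow, smul_pow, one_pow,
      ZMod.pow_card, ZMod.pow_card, add_pow_char_of_commute p
        (((Commute.one_left (J ^ p)).smul_left a).smul_right b), smul_pow, smul_pow, one_pow,
      ZMod.pow_card, ZMod.pow_card, hJ.pow_prime_pow_prime]
  refine hu.mul_left_cancel ?_
  rw [mul_one, ← pow_succ', Nat.sub_add_cancel (Nat.mul_pos hp.out.pos hp.out.pos), h1]

end NoEigen

theorem sq_eq_zero_of_pow {N : Mat2 p} {n : ℕ} (h : N ^ n = 0) : N * N = 0 := by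
  rcases Nat.eq_zero_or_pos n with rfl | hn
  · exact absurd h (by simp)
  have hdet : N.det = 0 := by
    have h1 := congrArg Matrix.det h
    rw [Matrix.det_pow, Matrix.det_zero] at h1
    exact (pow_eq_zero_iff hn.ne').1 h1
  have h2 := cayley N
  rw [hdet, zero_smul, add_zero] at h2
  rcases eq_or_ne N.trace 0 with ht | ht
  · rw [h2, ht, zero_smul]
  have hpow : ∀ k : ℕ, N ^ (k + 1) = N.trace ^ k • N := by
    intro k
    induction k with
    | zero => simp
    | succ k ih => rw [pow_succ, ih, smul_mul_assoc, h2, smul_smul, ← pow_succ]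
  obtain ⟨k, rfl⟩ : ∃ k, n = k + 1 := ⟨n - 1, by omega⟩
  rw [hpow] at h
  rcases smul_eq_zero.1 h with h3 | h3
  · exact absurd h3 (pow_ne_zero k ht)
  · rw [h3, mul_zero]

theorem eq_zero_of_two {A : Mat2 p} {x y : Vec2 p} (hx : x ≠ 0) (hy : ∀ a : ZMod p, y ≠ a • x)
    (hAx : A *ᵥ x = 0) (hAy : A *ᵥ y = 0) : A = 0 := by
  have hli : LinearIndependent (ZMod p) ![x, y] := by
    rw [linearIndependent_fin2]
    refine ⟨fun e => hy 0 (by simpa using e), fun a e => ?_⟩
    change a • y = x at e
    rcases eq_or_ne a 0 with rfl | ha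
    · exact hx (by simpa using e.symm)
    · exact hy a⁻¹ (by conv_rhs => rw [← e, smul_smul, inv_mul_cancel₀ ha, one_smul])
  have h1 : A.mulVecLin = 0 := LinearMap.ext_on_range
    (hli.span_eq_top_of_card_eq_finrank' (by simp)) fun i => by
      rw [LinearMap.zero_apply, Matrix.mulVecLin_apply]
      fin_cases i
      · exact hAx
      · exact hAy
  exact Matrix.toLin'.injective (by rw [map_zero, Matrix.toLin'_apply', h1])

/-- Nilpotent matrices with nilpotent sum of products share their kernel. -/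
theorem nil_common {N M : Mat2 p} (hN : N * N = 0) (hM : M * M = 0) (hN0 : N ≠ 0)
    (hNM : N * M + M * N = 0) {x : Vec2 p} (hx : x ≠ 0) (hNx : N *ᵥ x = 0) : M *ᵥ x = 0 := by
  have hker : ∀ y, N *ᵥ y = 0 → ∃ a : ZMod p, y = a • x := by
    intro y hy
    by_contra hc
    push Not at hc
    exact hN0 (eq_zero_of_two hx hc hNx hy)
  have h1 : N *ᵥ (M *ᵥ x) = 0 := by
    have h2 := congrArg (fun A : Mat2 p => A *ᵥ x) hNM
    simpa [Matrix.add_mulVec, ← Matrix.mulVec_mulVec, hNx] using h2
  obtain ⟨a, ha⟩ := hker _ h1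
  have h3 : (a * a) • x = 0 := by
    have h2 := congrArg (fun A : Mat2 p => A *ᵥ x) hM
    simpa [← Matrix.mulVec_mulVec, ha, Matrix.mulVec_smul, smul_smul] using h2
  rcases smul_eq_zero.1 h3 with h4 | h4
  · rw [ha, mul_self_eq_zero.1 h4, zero_smul]
  · exact absurd h4 hx

variable {r : Dec P →* Mat2 p}

/-- Inertia stabilises a line. -/
def HasLine (r : Dec P →* Mat2 p) : Prop :=
  ∃ x : Vec2 p, x ≠ 0 ∧ ∀ σ, IsIne P σ → ∃ a : ZMod p, r σ *ᵥ x = a • x

theorem apply_mem_kernel {F : IntermediateField ℚ QQb} (hl : ∀ g s : Dec P,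
    (s : AlgebraicClosure ℚ ≃ₐ[ℚ] AlgebraicClosure ℚ) ∈ F.fixingSubgroup → r (g * s) = r g)
    {s : Dec P} (hs : (s : AlgebraicClosure ℚ ≃ₐ[ℚ] AlgebraicClosure ℚ) ∈ F.fixingSubgroup) :
    r s = 1 := by
  have h := hl 1 s hs
  rwa [one_mul, map_one] at h

theorem wild_nilpotent (hP : P.LiesOverPrime p) (hr : LevC P r) {σ : Dec P} (hσ : IsWild P σ) :
    (r σ - 1) * (r σ - 1) = 0 := by
  obtain ⟨F, hF, hl⟩ := hr
  haveI := hF
  obtain ⟨k, hk⟩ := hσ.exists_pow_mem hP F
  refine sq_eq_zero_of_pow (n := p ^ k) ?_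
  haveI : CharP (Mat2 p) p := inferInstance
  rw [sub_pow_char_pow_of_commute p k (Commute.one_right _), one_pow, ← map_pow,
    apply_mem_kernel hl hk, sub_self]

/-- Without a stable line wild inertia acts trivially. -/
theorem wild_trivial (hP : P.LiesOverPrime p) (hr : LevC P r) (hnl : ¬ HasLine r) {σ : Dec P}
    (hσ : IsWild P σ) : r σ = 1 := by
  by_contra hne
  set N := r σ - 1 with hN
  have hN0 : N ≠ 0 := sub_ne_zero.2 hne
  have hNN : N * N = 0 := wild_nilpotent hP hr hσ
  obtain ⟨x, hx, hNx⟩ : ∃ x : Vec2 p, x ≠ 0 ∧ N *ᵥ x = 0 := by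
    by_contra hc
    push Not at hc
    obtain ⟨i, j, hij⟩ : ∃ i j, N i j ≠ 0 := by
      by_contra h; push Not at h; exact hN0 (Matrix.ext h)
    refine hc (N *ᵥ Pi.single j 1) (fun e => hij ?_)
      (by rw [Matrix.mulVec_mulVec, hNN, Matrix.zero_mulVec])
    have := congrFun e i
    simpa [Matrix.mulVec_single_one] using this
  refine hnl ⟨x, hx, fun τ hτ => ?_⟩
  have hσ' : IsWild P (τ⁻¹ * σ * τ) := ⟨by simpa using hσ.1.conj τ⁻¹, fun y hy => by
    rw [thx_mul_ine hy (hτ.inv.mul hσ.1), thx_mul_ine hy hτ.inv, hσ.2 y hy, mul_one,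
      ← thx_mul_ine hy hτ.inv, inv_mul_cancel, thx_one_left hy]⟩
  set M := r (τ⁻¹ * σ * τ) - 1 with hMdef
  have hM : M = r τ⁻¹ * N * r τ := by
    rw [hMdef, hN, mul_sub, sub_mul, mul_one, ← map_mul, ← map_mul, r_inv_mul]
  have hMM : M * M = 0 := wild_nilpotent hP hr hσ'
  have hprod : r (σ * (τ⁻¹ * σ * τ)) - 1 = N + M + N * M := by
    rw [map_mul, hMdef, hN]
    simp only [sub_mul, mul_sub, one_mul, mul_one]
    abel
  have htr : ∀ A : Mat2 p, A * A = 0 → A.trace = 0 := by
    intro A hA
    have h2 := cayley A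
    have hd : A.det = 0 := by
      have h3 := congrArg Matrix.det hA
      rw [Matrix.det_mul, Matrix.det_zero] at h3
      exact mul_self_eq_zero.1 h3
    rw [hA, hd, zero_smul, add_zero, eq_comm, smul_eq_zero] at h2
    rcases h2 with h2 | h2
    · exact h2
    · rw [h2, Matrix.trace_zero]
  have hanti : N * M + M * N = 0 := by
    have h1 := htr _ (wild_nilpotent hP hr (hσ.mul hσ'))
    rw [hprod, Matrix.trace_add, Matrix.trace_add, htr N hNN, htr M hMM, zero_add, zero_add] at h1
    have hn := htr N hNN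
    have hm := htr M hMM
    rw [Matrix.trace_fin_two] at h1 hn hm
    simp only [Matrix.mul_apply, Fin.sum_univ_two] at h1
    ext i j
    fin_cases i <;> fin_cases j <;>
      simp [Matrix.mul_apply, Fin.sum_univ_two, eq_neg_of_add_eq_zero_right hn,
        eq_neg_of_add_eq_zero_right hm] at h1 ⊢ <;>
      first
        | linear_combination h1
        | ring
  have hMx := nil_common hNN hMM hN0 hanti hx hNx
  rw [hM, ← Matrix.mulVec_mulVec, ← Matrix.mulVec_mulVec] at hMx
  have h4 : N *ᵥ (r τ *ᵥ x) = 0 := by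
    have h5 := congrArg (fun v => r τ *ᵥ v) hMx
    rwa [Matrix.mulVec_mulVec _ (r τ) (r τ⁻¹), mulVec_r_inv, Matrix.one_mulVec, Matrix.mulVec_zero]
      at h5
  by_contra hc
  push Not at hc
  exact hN0 (eq_zero_of_two hx hc hNx h4)

/-- The structure of a plane without stable line at a tame datum with `e = p ^ 2 - 1`. -/
theorem exists_ss_generator (hP : P.LiesOverPrime p) (hr : LevC P r) (hnl : ¬ HasLine r)
    (t : TameData P p) (he : t.e = p * p - 1) {τ : Dec P} (hτ : IsIne P τ)
    (hθ : IsPrimitiveRoot (t.th τ) t.e) :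
    (∀ g ∈ t.G, r g = 1) ∧ NoEigen (r τ) := by
  classical
  -- commutators are trivial
  have hcomm : ∀ a b, IsIne P a → IsIne P b → r a * r b = r b * r a := by
    intro a b ha hb
    have h := wild_trivial hP hr hnl (isWild_commutator ha hb)
    rw [map_mul, map_mul, map_mul] at h
    calc r a * r b = r a * r b * (r a⁻¹ * (r b⁻¹ * r b) * r a) := by
          rw [r_inv_mul, mul_one, r_inv_mul, mul_one]
      _ = (r a * r b * r a⁻¹ * r b⁻¹) * (r b * r a) := by simp only [mul_assoc]
      _ = r b * r a := by rw [h, one_mul]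
  obtain ⟨σ₁, hσ₁, hJ₁⟩ : ∃ σ, IsIne P σ ∧ NoEigen (r σ) := by
    by_contra hc
    push Not at hc
    -- every element has an eigenvector
    have hsc : ∀ σ, IsIne P σ → ∃ a : ZMod p, r σ = a • 1 := by
      intro σ hσ
      have h1 := hc σ hσ
      simp only [NoEigen, not_forall] at h1
      obtain ⟨a, x, he, hx⟩ := h1
      refine ⟨a, ?_⟩
      by_contra hne
      refine hnl ⟨x, hx, fun τ hτ => ?_⟩
      by_contra hc2
      push Not at hc2
      have h4 : r σ *ᵥ (r τ *ᵥ x) = a • (r τ *ᵥ x) := by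
        rw [Matrix.mulVec_mulVec, hcomm σ τ hσ hτ, ← Matrix.mulVec_mulVec, he, Matrix.mulVec_smul]
      exact hne (sub_eq_zero.1 (eq_zero_of_two hx hc2
        (by rw [Matrix.sub_mulVec, Matrix.smul_mulVec, Matrix.one_mulVec, he, sub_self])
        (by rw [Matrix.sub_mulVec, Matrix.smul_mulVec, Matrix.one_mulVec, h4, sub_self])))
    refine hnl ⟨![1, 0], fun e => by simpa using congrFun e 0, fun σ hσ => ?_⟩
    obtain ⟨a, ha⟩ := hsc σ hσ
    exact ⟨a, by rw [ha, Matrix.smul_mulVec, Matrix.one_mulVec]⟩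
  have hG : ∀ g ∈ t.G, r g = 1 := by
    intro g hg
    have h := t.hom_trivial hP (M := (Mat2 p)ˣ) r.toHomUnits
      (by obtain ⟨F, hF, hl⟩ := hr; exact ⟨F, hF, fun a b hb => Units.ext (hl a b hb)⟩)
      (fun a b _ _ => map_mul _ a b) (fun σ hσ => Units.ext (wild_trivial hP hr hnl hσ))
      (fun σ hσ => Units.ext (by
        rw [Units.val_pow_eq_pow_val, he]
        refine hJ₁.pow_card_sub_one (hcomm σ σ₁ hσ hσ₁) fun e => ?_
        have h2 := mulVec_r_inv r σ
        change r σ = 0 at e
        rw [e, zero_mul] at h2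
        exact zero_ne_one h2)) hg
    exact congrArg Units.val h
  refine ⟨hG, fun a x hx => ?_⟩
  by_contra hx0
  refine hnl ⟨x, hx0, fun σ hσ => ?_⟩
  obtain ⟨k, g, hg, rfl⟩ := t.ine_decomp hP hτ hθ hσ
  refine ⟨a ^ k, ?_⟩
  rw [map_mul, hG g hg, mul_one, map_pow]
  induction k with
  | zero => simp
  | succ k ih => rw [pow_succ, ← Matrix.mulVec_mulVec, hx, Matrix.mulVec_smul,
      ih ((hτ.pow k).mul hg.1), smul_smul, pow_succ']

end FLTAgent.FlatLocal
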