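import Fermat.Agent.FlatLocal.SSWeights

/-!
# Flat lifts of a plane without stable line lie deep in the unit filtration
-/

set_option autoImplicit false
set_option linter.style.haveILetI false
set_option linter.unusedSectionVars false

noncomputable section

open scoped Pointwise Matrix
open IsLocalRing

namespace FLTAgent.FlatLocal

local notation "QQb" => AlgebraicClosure ℚ

variable {P : ValuationSubring (AlgebraicClosure ℚ)} {p : ℕ} [hp : Fact p.Prime]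

theorem dist_image_comp {W V : Type*} [AddCommGroup W] [Module (ZMod p) W] [AddCommGroup V]
    [Module (ZMod p) V] [DecidableEq (V → QQb)] (S : Finset (W → QQb)) (ι : V →ₗ[ZMod p] W) (v : V) :
    dist P (S.image fun f => f ∘ ι) v = dist P S (ι v) := by
  rw [dist, dist, Finset.sup_image]
  exact Finset.sup_congr rfl fun f _ => by simp

/-- The traceless generator of the commutant. -/
def jz {R : Type*} [CommRing R] (J : Matrix (Fin 2) (Fin 2) R) : Matrix (Fin 2) (Fin 2) R :=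
  (2 : R) • J - J.trace • 1

theorem jz_trace {R : Type*} [CommRing R] (J : Matrix (Fin 2) (Fin 2) R) : (jz J).trace = 0 := by
  simp [jz, Matrix.trace_fin_two]; ring

theorem jz_commute {R : Type*} [CommRing R] {J A : Matrix (Fin 2) (Fin 2) R} (h : A * J = J * A) :
    A * jz J = jz J * A := by
  simp [jz, mul_sub, sub_mul, mul_smul_comm, smul_mul_assoc, h]

/-- The anticommutator of traceless matrices is scalar. -/
theorem anticomm {R : Type*} [CommRing R] {A B : Matrix (Fin 2) (Fin 2) R} (hA : A.trace = 0)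
    (hB : B.trace = 0) : A * B + B * A = (A * B).trace • 1 := by
  rw [Matrix.trace_fin_two] at hA hB
  ext i j
  fin_cases i <;> fin_cases j <;>
    simp [Matrix.mul_apply, Fin.sum_univ_two, Matrix.trace_fin_two, eq_neg_of_add_eq_zero_right hA,
      eq_neg_of_add_eq_zero_right hB] <;> ring

theorem IsCocycle.conj {r : Dec P →* Mat2 p} {c : Dec P → Mat2 p} (hc : IsCocycle r c) {g : Dec P}
    (hg : r g = 1) {σ : Dec P} (hg' : r (σ⁻¹ * g * σ) = 1) :
    c (σ⁻¹ * g * σ) = r σ⁻¹ * c g * r σ := by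
  have hgi : r g⁻¹ = 1 := by
    have h1 := r_inv_mul r g
    rwa [hg, mul_one] at h1
  have e := hc.mul σ (σ⁻¹ * g * σ)
  rw [show σ * (σ⁻¹ * g * σ) = g * σ by group, hc.mul g σ, hg, hgi, one_mul, mul_one, add_comm] at e
  have e2 : c g = r σ * c (σ⁻¹ * g * σ) * r σ⁻¹ := add_left_cancel e
  rw [e2, show r σ⁻¹ * (r σ * c (σ⁻¹ * g * σ) * r σ⁻¹) * r σ =
    (r σ⁻¹ * r σ) * c (σ⁻¹ * g * σ) * (r σ⁻¹ * r σ) by simp only [mul_assoc], r_inv_mul, one_mul,
    mul_one]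

/-- A lift is flat only if its plane is. -/
theorem flatI_actV_of_actW {r : Dec P →* Mat2 p} {c : Dec P → Mat2 p} (hflat : FlatI P (actW r c)) :
    FlatI P (actV r) :=
  hflat.restrict (LinearMap.inr (ZMod p) (Vec2 p) (Vec2 p)) LinearMap.inr_injective fun σ _ v => by
    simp [actW_apply, actV_apply]

namespace IsSS

variable {t : TameData P p} {r : Dec P →* Mat2 p} {τ : Dec P} (h : IsSS t r τ)
  {c : Dec P → Mat2 p} (hP : P.LiesOverPrime p) (hp3 : 3 ≤ p) {ζ : QQb} (hζ : IsPrimitiveRoot ζ p)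
  (hdet : ∀ σ, (r σ).det = omega ζ σ)

include h

theorem commute_ine (hP : P.LiesOverPrime p) {σ : Dec P} (hσ : IsIne P σ) :
    r σ * r τ = r τ * r σ := by
  obtain ⟨k, g, hg, rfl⟩ := t.ine_decomp hP h.ine h.prim hσ
  rw [map_mul, h.triv g hg, mul_one, map_pow, (Commute.pow_self (r τ) k).eq]

theorem cocycle_add (hc : IsCocycle r c) {σ τ' : Dec P} (hσ : σ ∈ t.G) :
    c (σ * τ') = c σ + c τ' := by
  rw [hc.mul, h.triv σ hσ, h.triv σ⁻¹ (inv_mem hσ), one_mul, mul_one]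

theorem isHomG_entry (hc : IsCocycle r c) (i j : Fin 2) : t.IsHomG fun σ => c σ i j :=
  ⟨hc.lev.comp fun A => A i j, fun σ hσ τ' _ => by rw [h.cocycle_add hc hσ]; simp⟩

theorem isHomG_diag (hc : IsCocycle r c) : t.IsHomG fun σ => (jz (r τ) * c σ).trace :=
  ⟨hc.lev.comp fun A => (jz (r τ) * A).trace, fun σ hσ τ' _ => by
    rw [h.cocycle_add hc hσ, mul_add, Matrix.trace_add]⟩

include hP hp3 hζ hdet

/-- Every entry of a flat lift is deep. -/
theorem lev_entry (hc : IsCocycle r c) (hflat : FlatI P (actW r c)) (i j : Fin 2) :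
    t.Lev ζ (fun σ => c σ i j) (p + 1) := by
  classical
  by_cases htriv : ∀ σ ∈ t.G, c σ i j = 0
  · exact t.lev_zero_fun _ htriv
  push Not at htriv
  obtain ⟨σ₀, hσ₀, hne⟩ := htriv
  obtain ⟨S, hS⟩ := hflat
  have hS0 : IsLattice (actV r) (S.image fun f => f ∘ LinearMap.inr (ZMod p) (Vec2 p) (Vec2 p)) :=
    hS.restrict _ LinearMap.inr_injective fun σ _ v => by simp [actW_apply, actV_apply]
  have hdist : ∀ v : Vec2 p, v ≠ 0 → dist P S (0, v) = t.vπ := fun v hv => by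
    have h1 := h.dist_eq hP hp3 hζ hdet hS0 hv
    rw [dist_image_comp] at h1
    exact h1
  set x : Vec2 p := Pi.single j 1 with hx
  have hcol : ∀ σ, (c σ *ᵥ x) i = c σ i j := fun σ => by simp [hx, Matrix.mulVec_single_one]
  have hact : ∀ σ ∈ t.G, ∀ v, actW r c σ (x, v) = (x, v + c σ *ᵥ x) := fun σ hσ v => by
    rw [actW_apply, h.triv σ hσ, Matrix.one_mulVec, Matrix.one_mulVec]
  let U : Finset (Vec2 p × Vec2 p) := Finset.univ.filter fun u =>
    ∃ σ ∈ t.G, c σ i j = 0 ∧ u = (0, c σ *ᵥ x)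
  have hU : ∀ u, u ∈ U ↔ ∃ σ ∈ t.G, c σ i j = 0 ∧ u = (0, c σ *ᵥ x) := fun u => by simp [U]
  have hcard : U.card ≤ p := by
    refine (Finset.card_le_card_of_injOn (fun u : Vec2 p × Vec2 p => u.2 (1 - i))
      (fun _ _ => Finset.mem_univ _) ?_).trans_eq (ZMod.card p)
    intro u hu u' hu' e
    obtain ⟨σ, -, h0, rfl⟩ := (hU u).1 hu
    obtain ⟨σ', -, h0', rfl⟩ := (hU u').1 hu'
    refine Prod.ext rfl (funext fun k => ?_)
    by_cases hk : k = i
    · subst hk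
      show (c σ *ᵥ x) k = (c σ' *ᵥ x) k
      rw [hcol, hcol, h0, h0']
    · rw [show k = 1 - i by omega]
      exact e
  have h0U : (0 : Vec2 p × Vec2 p) ∈ U := (hU 0).2 ⟨1, one_mem _, by simp [hc.one], by simp [hc.one]; rfl⟩
  have hlev := t.lev_of_translates hP hζ hS (h.isHomG_entry hc i j) (x, 0) U h0U
    (fun σ hσ h0 u hu => by
      obtain ⟨σ', hσ', h0', rfl⟩ := (hU u).1 hu
      refine ⟨(0, c (σ * σ') *ᵥ x), (hU _).2 ⟨σ * σ', mul_mem hσ hσ', ?_, rfl⟩, ?_⟩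
      · rw [h.cocycle_add hc hσ, Matrix.add_apply, h0', add_zero]
        exact h0
      · rw [Prod.mk_add_mk, Prod.mk_add_mk, add_zero, zero_add, zero_add, hact σ hσ,
          h.cocycle_add hc hσ, Matrix.add_mulVec, add_comm])
    hσ₀ (n := 1) (fun u hu => by
      obtain ⟨σ', hσ', h0', rfl⟩ := (hU u).1 hu
      rw [pow_one, Prod.mk_add_mk, add_zero, zero_add, hact σ₀ hσ₀, Prod.mk_sub_mk, sub_self,
        sub_zero]
      refine hdist _ fun e => hne ?_
      have h1 := congrFun e i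
      simp only [Pi.add_apply, Pi.zero_apply, hcol, h0', zero_add, add_zero] at h1
      exact h1)
    (by rw [mul_one, h.e1_eq]; omega)
  refine hlev.anti t hP hζ ?_
  rw [mul_one, h.e1_eq, add_comm p 1]
  gcongr
  exact Nat.le_mul_of_pos_right p (by omega)

/-- The scalar part of a flat lift is deeper. -/
theorem lev_diag (hc : IsCocycle r c) (hflat : FlatI P (actW r c)) :
    t.Lev ζ (fun σ => (jz (r τ) * c σ).trace) (p + 2) := by
  classical
  set ν : Dec P → ZMod p := fun σ => (jz (r τ) * c σ).trace with hν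
  by_cases htriv : ∀ σ ∈ t.G, ν σ = 0
  · exact t.lev_zero_fun _ htriv
  push Not at htriv
  obtain ⟨σ₀, hσ₀, hne⟩ := htriv
  let actP : Dec P → Module.End (ZMod p) ((Vec2 p × Vec2 p) × (Vec2 p × Vec2 p)) := fun σ =>
    (actW r c σ).prodMap (actW r c σ)
  have hP2 : FlatI P actP := hflat.prod hflat actP fun σ _ y => rfl
  let p₁ : Vec2 p × Vec2 p × Vec2 p →ₗ[ZMod p] Vec2 p := LinearMap.fst _ _ _
  let p₂ : Vec2 p × Vec2 p × Vec2 p →ₗ[ZMod p] Vec2 p :=
    LinearMap.fst _ _ _ ∘ₗ LinearMap.snd _ _ _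
  let p₃ : Vec2 p × Vec2 p × Vec2 p →ₗ[ZMod p] Vec2 p :=
    LinearMap.snd _ _ _ ∘ₗ LinearMap.snd _ _ _
  let ι : Vec2 p × Vec2 p × Vec2 p →ₗ[ZMod p] (Vec2 p × Vec2 p) × (Vec2 p × Vec2 p) :=
    (p₁.prod p₂).prod (((jz (r τ)).mulVecLin ∘ₗ p₁).prod p₃)
  let actE : Dec P → Module.End (ZMod p) (Vec2 p × Vec2 p × Vec2 p) := fun σ =>
    ((r σ).mulVecLin ∘ₗ p₁).prod (((r σ).mulVecLin ∘ₗ p₂ + (c σ).mulVecLin ∘ₗ (r σ).mulVecLin ∘ₗ p₁).prod
      ((r σ).mulVecLin ∘ₗ p₃ +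
        (c σ).mulVecLin ∘ₗ (r σ).mulVecLin ∘ₗ (jz (r τ)).mulVecLin ∘ₗ p₁))
  have hE : FlatI P actE := hP2.restrict ι
    (fun y y' e => by
      simp only [ι, p₁, p₂, p₃, LinearMap.prod_apply, Function.prod, LinearMap.comp_apply,
        LinearMap.fst_apply, LinearMap.snd_apply, Prod.mk.injEq] at e
      exact Prod.ext e.1.1 (Prod.ext e.1.2 e.2.2))
    fun σ hσ y => by
      have e : jz (r τ) *ᵥ (r σ *ᵥ y.1) = r σ *ᵥ (jz (r τ) *ᵥ y.1) := by
        rw [Matrix.mulVec_mulVec, Matrix.mulVec_mulVec, jz_commute (h.commute_ine hP hσ)]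
      show ((r σ *ᵥ y.1, r σ *ᵥ y.2.1 + c σ *ᵥ (r σ *ᵥ y.1)),
        (jz (r τ) *ᵥ (r σ *ᵥ y.1),
          r σ *ᵥ y.2.2 + c σ *ᵥ (r σ *ᵥ (jz (r τ) *ᵥ y.1)))) = _
      rw [e]
      exact (Prod.ext (actW_apply r c σ y.1 y.2.1)
        (actW_apply r c σ (jz (r τ) *ᵥ y.1) y.2.2)).symm
  let π : Vec2 p × Vec2 p × Vec2 p →ₗ[ZMod p] Vec2 p × Vec2 p :=
    p₁.prod ((jz (r τ)).mulVecLin ∘ₗ p₂ + p₃)
  let q₁ : Vec2 p × Vec2 p →ₗ[ZMod p] Vec2 p := LinearMap.fst _ _ _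
  let q₂ : Vec2 p × Vec2 p →ₗ[ZMod p] Vec2 p := LinearMap.snd _ _ _
  let actQ : Dec P → Module.End (ZMod p) (Vec2 p × Vec2 p) := fun σ =>
    ((r σ).mulVecLin ∘ₗ q₁).prod ((r σ).mulVecLin ∘ₗ q₂ + ν σ • ((r σ).mulVecLin ∘ₗ q₁))
  have hQ : FlatI P actQ := hE.quotient hP π (fun q => ⟨(q.1, 0, q.2), by simp [π, p₁, p₂, p₃]⟩) fun σ hσ y => by
    have hcomm := jz_commute (h.commute_ine hP hσ)
    have h1 := congrArg (fun A => A *ᵥ (r σ *ᵥ y.1))
      (anticomm (jz_trace (r τ)) (hc.trace σ))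
    simp only [Matrix.add_mulVec, Matrix.smul_mulVec, Matrix.one_mulVec] at h1
    refine Prod.ext rfl ?_
    show jz (r τ) *ᵥ (r σ *ᵥ y.2.1 + c σ *ᵥ (r σ *ᵥ y.1)) +
        (r σ *ᵥ y.2.2 + c σ *ᵥ (r σ *ᵥ (jz (r τ) *ᵥ y.1))) =
      r σ *ᵥ (jz (r τ) *ᵥ y.2.1 + y.2.2) + ν σ • (r σ *ᵥ y.1)
    rw [hν]
    dsimp only
    rw [← h1]
    simp only [Matrix.mulVec_add, Matrix.mulVec_mulVec, mul_assoc, hcomm]
    abel
  obtain ⟨S, hS⟩ := hQ
  have hS0 : IsLattice (actV r) (S.image fun f => f ∘ LinearMap.inr (ZMod p) (Vec2 p) (Vec2 p)) :=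
    hS.restrict _ LinearMap.inr_injective fun σ _ v => by simp [actQ, q₁, q₂, actV_apply]
  set x : Vec2 p := ![1, 0] with hx
  have hact : ∀ σ ∈ t.G, ∀ v, actQ σ (x, v) = (x, v + ν σ • x) := fun σ hσ v => by
    simp [actQ, q₁, q₂, h.triv σ hσ]
  have hlev := t.lev_of_translates hP hζ hS (h.isHomG_diag hc) (x, 0) {0}
    (Finset.mem_singleton_self 0)
    (fun σ hσ h0 u hu => ⟨0, Finset.mem_singleton_self _, by
      rw [Finset.mem_singleton.1 hu, add_zero, hact σ hσ, show ν σ = 0 from h0, zero_smul, add_zero]⟩)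
    hσ₀ (n := 1) (fun u hu => by
      rw [pow_one, Finset.mem_singleton.1 hu, add_zero, hact σ₀ hσ₀, Prod.mk_sub_mk, sub_self,
        sub_zero, zero_add]
      have h1 := h.dist_eq hP hp3 hζ hdet hS0 (x := ν σ₀ • x) (by
        refine smul_ne_zero hne fun e => ?_
        simpa [hx] using congrFun e 0)
      rw [dist_image_comp] at h1
      exact h1)
    (by rw [Finset.card_singleton, h.e1_eq]; omega)
  refine hlev.anti t hP hζ ?_
  rw [Finset.card_singleton, h.e1_eq, show p + 1 - 1 * 1 = p by omega]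
  have h1 : 2 * p ≤ p * p := Nat.mul_le_mul_right p hp.out.two_le
  omega

end IsSS

end FLTAgent.FlatLocal
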