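import Fermat.Agent.FlatLocal.Residual

/-!
# The tame weights of a plane without stable line are `1` and `p`, and only `1` occurs
-/

set_option autoImplicit false
set_option linter.style.haveILetI false
set_option linter.unusedSectionVars false

noncomputable section

open scoped Pointwise Matrix
open IsLocalRing

namespace FLTAgent.FlatLocal

local notation "QQb" => AlgebraicClosure ℚ

variable {P : ValuationSubring (AlgebraicClosure ℚ)} {p : ℕ} [hp : Fact p.Prime]

theorem sq_sub_one_eq (p : ℕ) : p * p - 1 = (p - 1) * (p + 1) := by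
  rcases p with _ | q
  · rfl
  · simp only [Nat.add_sub_cancel]
    have : (q + 1) * (q + 1) = q * (q + 1 + 1) + 1 := by ring
    omega

/-- A tame datum and generator adapted to a plane without stable line. -/
structure IsSS (t : TameData P p) (r : Dec P →* Mat2 p) (τ : Dec P) : Prop where
  he : t.e = p * p - 1
  ine : IsIne P τ
  prim : IsPrimitiveRoot (t.th τ) t.e
  triv : ∀ g ∈ t.G, r g = 1
  noEigen : NoEigen (r τ)

theorem exists_isSS (hP : P.LiesOverPrime p) {r : Dec P →* Mat2 p} (hr : LevC P r)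
    (hnl : ¬ HasLine r) : ∃ (t : TameData P p) (τ : Dec P), IsSS t r τ := by
  have hp2 := hp.out.two_le
  have h4 : 2 * 2 ≤ p * p := Nat.mul_le_mul hp2 hp2
  obtain ⟨t, ht⟩ := TameData.exists_data P (p := p) (p * p - 1) (by omega)
    ⟨p + 1, sq_sub_one_eq p⟩ (fun h => by
      have h2 := Nat.dvd_sub (dvd_mul_right p p) h
      rw [show p * p - (p * p - 1) = 1 by omega] at h2
      exact hp.out.not_dvd_one h2)
  obtain ⟨τ, hτ, hθ⟩ := t.exists_tau hP
  obtain ⟨h1, h2⟩ := exists_ss_generator hP hr hnl t ht hτ hθ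
  exact ⟨t, τ, ht, hτ, hθ, h1, h2⟩

namespace IsSS

variable {t : TameData P p} {r : Dec P →* Mat2 p} {τ : Dec P} (h : IsSS t r τ)

include h

theorem e1_eq : t.e1 = p + 1 := by
  rw [TameData.e1, h.he, sq_sub_one_eq, Nat.mul_div_cancel_left _ (by have := hp.out.two_le; omega)]

theorem not_dvd_sub_one (hp3 : 3 ≤ p) {i : ℕ} (hi : ¬ (p + 1) ∣ i) : ¬ t.e ∣ i * (p - 1) := by
  rw [h.he, sq_sub_one_eq, mul_comm (p - 1)]
  exact fun h1 => hi (Nat.dvd_of_mul_dvd_mul_right (by omega) h1)

theorem th_pow_ne_kp (hP : P.LiesOverPrime p) (hp3 : 3 ≤ p) {i : ℕ} (hi : ¬ (p + 1) ∣ i)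
    (a : ZMod p) : t.th τ ^ i ≠ kp hP a :=
  pow_ne_kp hP t.e_pos.ne' h.prim (h.not_dvd_sub_one hp3 hi) a

/-- The relation between the determinant and the tame character. -/
theorem kp_det (hP : P.LiesOverPrime p) {ζ : QQb} (hζ : IsPrimitiveRoot ζ p)
    (hdet : ∀ σ, (r σ).det = omega ζ σ) : kp hP (r τ).det = t.th τ ^ (p + 1) := by
  rw [hdet, t.omega_res hP hζ h.ine, h.e1_eq]

/-- The possible orders of a point killed by the characteristic polynomial of the generator. -/
theorem dist_cases (hP : P.LiesOverPrime p) (hp3 : 3 ≤ p) {ζ : QQb} (hζ : IsPrimitiveRoot ζ p)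
    (hdet : ∀ σ, (r σ).det = omega ζ σ) {U : Type*} [AddCommGroup U] [Module (ZMod p) U] [Finite U]
    {act : Dec P → Module.End (ZMod p) U} {S : Finset (U → QQb)} (hS : IsLattice act S)
    (hfix : ∀ g ∈ t.G, ∀ u, act g u = u)
    (hquad : ∀ u, act τ (act τ u) + (r τ).det • u = (r τ).trace • act τ u) {u : U} (hu : u ≠ 0) :
    dist P S u = t.vπ ∨ dist P S u = t.vπ ^ p := by
  haveI := FrobTrace.charP_residueField hP
  obtain ⟨n, hn, hun⟩ := t.exists_dist_pow hP hS hu fun g hg => hfix g hg u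
  -- every point is connected
  have hn0 : 0 < n := by
    refine Nat.pos_of_ne_zero fun hn0 => ?_
    have hinj : Function.Injective (act τ - 1 : Module.End (ZMod p) U) := by
      rw [← LinearMap.ker_eq_bot, Submodule.eq_bot_iff]
      intro w hw
      rw [LinearMap.mem_ker, LinearMap.sub_apply, Module.End.one_apply, sub_eq_zero] at hw
      have h1 := hquad w
      rw [hw, hw, ← sub_eq_zero] at h1
      have h2 : ((1 : ZMod p) * 1 + (r τ).det - (r τ).trace * 1) • w = 0 := by
        rw [mul_one, mul_one, sub_smul, add_smul, one_smul]; exact h1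
      rcases smul_eq_zero.1 h2 with h3 | h3
      · exact absurd (sub_eq_zero.1 h3) (h.noEigen.irreducible_charpoly 1)
      · exact h3
    obtain ⟨w, hw⟩ := Finite.injective_iff_surjective.1 hinj u
    have h1 := hS.dist_act_sub_lt h.ine w
    rw [show act τ w - w = u from hw, hun, hn0, pow_zero] at h1
    exact lt_irrefl _ h1
  rw [h.e1_eq] at hn
  have hq := t.quad_eq hP hS hn0 hun h.ine (hquad u)
  set y := t.th τ ^ n with hy
  set θ := t.th τ
  have hyk : ∀ a : ZMod p, y ≠ kp hP a := fun a e => h.noEigen.irreducible_charpoly a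
    ((kp hP).injective (by rw [map_add, map_mul, map_mul, ← e]; exact hq))
  have hyp : y ^ p ≠ y := fun e => by
    obtain ⟨a, ha⟩ := exists_kp_eq hP e
    exact hyk a ha.symm
  have hqp : y ^ p * y ^ p + kp hP (r τ).det = kp hP (r τ).trace * y ^ p := by
    have h1 := congrArg (frobenius (ResidueField P) p) hq
    simpa only [map_add, map_mul, frobenius_def, kp_pow, mul_pow] using h1
  have hsum : y ^ p + y = kp hP (r τ).trace :=
    mul_left_cancel₀ (sub_ne_zero.2 hyp) (by linear_combination hqp - hq)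
  have hd : y ^ (p + 1) = θ ^ (p + 1) := by
    rw [← h.kp_det hP hζ hdet, pow_succ]
    linear_combination (-1 : ResidueField P) * hq + y * hsum
  rw [hy, ← pow_mul] at hd
  have hone : θ ^ ((n - 1) * (p + 1)) = 1 := by
    refine mul_right_cancel₀ (pow_ne_zero (p + 1) (t.th_ne_zero τ)) ?_
    rw [one_mul, ← pow_add, ← Nat.succ_mul, Nat.succ_eq_add_one, Nat.sub_add_cancel hn0, hd]
  have hdvd := h.prim.dvd_of_pow_eq_one _ hone
  rw [h.he, sq_sub_one_eq] at hdvd
  obtain ⟨k, hk⟩ := Nat.dvd_of_mul_dvd_mul_right (by omega) hdvd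
  have hk2 : k < 2 := by
    by_contra hk2
    have : (p - 1) * 2 ≤ (p - 1) * k := Nat.mul_le_mul_left _ (by omega)
    omega
  interval_cases k
  · left
    rw [hun, show n = 1 by omega, pow_one]
  · right
    rw [hun, show n = p by omega]

/-- **Every nonzero point of the plane has exact order one.** -/
theorem dist_eq (hP : P.LiesOverPrime p) (hp3 : 3 ≤ p) {ζ : QQb} (hζ : IsPrimitiveRoot ζ p)
    (hdet : ∀ σ, (r σ).det = omega ζ σ) {S : Finset (Vec2 p → QQb)} (hS : IsLattice (actV r) S)
    {x : Vec2 p} (hx : x ≠ 0) : dist P S x = t.vπ := by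
  haveI := FrobTrace.charP_residueField hP
  have hfix : ∀ g ∈ t.G, ∀ u, actV r g u = u := fun g hg u => by
    rw [actV_apply, h.triv g hg, Matrix.one_mulVec]
  have hquad : ∀ u, actV r τ (actV r τ u) + (r τ).det • u = (r τ).trace • actV r τ u := fun u => by
    have h1 := congrArg (fun A => A *ᵥ u) (cayley (r τ))
    simp only [Matrix.add_mulVec, ← Matrix.mulVec_mulVec, Matrix.smul_mulVec, Matrix.one_mulVec] at h1
    exact h1
  refine (h.dist_cases hP hp3 hζ hdet hS hfix hquad hx).resolve_right fun hxp => ?_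
  obtain ⟨T, hT, hpair⟩ := IsLattice.exists_dual (act := actVHom r) hP hζ hS
  haveI := finite_dual (p := p) (W := Vec2 p)
  -- a functional not killing `x`
  obtain ⟨j, hj⟩ : ∃ j, x j ≠ 0 := by
    by_contra hc; push Not at hc; exact hx (funext hc)
  let l : Module.Dual (ZMod p) (Vec2 p) := LinearMap.proj j
  have hl : l x ≠ 0 := hj
  have hl0 : l ≠ 0 := fun e => hl (by rw [e, LinearMap.zero_apply])
  have hτ : omega ζ τ = (r τ).det := (hdet τ).symm
  have hinv : (r τ).det • (r τ⁻¹) = (r τ).trace • (1 : Mat2 p) - r τ := by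
    have h1 := congrArg (fun A => r τ⁻¹ * A) (cayley (r τ))
    simp only [mul_add, mul_smul_comm, mul_one, ← mul_assoc, r_inv_mul, one_mul] at h1
    rw [eq_sub_iff_add_eq', h1]
  have hdist : dist P T l = t.vπ ∨ dist P T l = t.vπ ^ p := by
    refine h.dist_cases hP hp3 hζ hdet hT (fun g hg m => LinearMap.ext fun w => ?_)
      (fun m => LinearMap.ext fun w => ?_) hl0
    · rw [dualAct_apply, omega_eq_one_of_fix hζ (t.fix_zeta hP hg hζ), one_mul]
      congr 1
      show r g⁻¹ *ᵥ w = w
      rw [h.triv _ (inv_mem hg), Matrix.one_mulVec]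
    · rw [LinearMap.add_apply, LinearMap.smul_apply, LinearMap.smul_apply, dualAct_apply,
        dualAct_apply, dualAct_apply, hτ]
      have e : ∀ v, (r τ).det • (actVHom r τ⁻¹ v) = (r τ).trace • v - r τ *ᵥ v := fun v => by
        show (r τ).det • (r τ⁻¹ *ᵥ v) = _
        rw [← Matrix.smul_mulVec, hinv, Matrix.sub_mulVec, Matrix.smul_mulVec, Matrix.one_mulVec]
      simp only [← smul_eq_mul, ← map_smul, ← map_add]
      congr 1
      have e2 : (r τ).det • actVHom r τ⁻¹ ((r τ).det • actVHom r τ⁻¹ w) =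
          (r τ).det • ((r τ).trace • actVHom r τ⁻¹ w - w) := by
        rw [e w, map_sub, map_smul,
          show actVHom r τ⁻¹ (r τ *ᵥ w) = w from act_inv_apply' (actVHom r) τ w]
      simp only [map_smul] at e2 ⊢
      rw [e2, smul_sub, smul_comm (r τ).det (r τ).trace]
      abel
  obtain ⟨γ, hγ, hexp⟩ := hpair l
  have hval : ∀ a : ZMod p, a ≠ 0 → P.valuation (ζ ^ a.val - 1) = t.vπ ^ (p + 1) := by
    intro a ha
    have h1 : res P ((ζ ^ a.val - 1) / t.π ^ t.e1) ≠ 0 := by
      rw [t.res_chi hP hζ]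
      exact mul_ne_zero (fun e => ha ((kp hP).injective (e.trans (map_zero _).symm)))
        (t.val_res_chi hP hζ)
    have hle : P.valuation (ζ ^ a.val - 1) ≤ t.vπ ^ t.e1 := by
      rw [← t.val_zeta_sub_one hP hζ]
      exact val_pow_sub_one_le (mem_of_val_le_one (val_root hp.out.ne_zero hζ.pow_eq_one).le) _
    rw [← h.e1_eq]
    refine le_antisymm hle (not_lt.1 fun hlt => h1 (res_eq_zero ?_))
    rwa [map_div₀, map_pow, div_lt_one₀ (pow_pos t.vπ_pos _)]
  have hlx : dist P T l = t.vπ := by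
    refine hdist.resolve_right fun hlp => ?_
    have h1 : P.valuation (chi ζ l x - 1) ≤ t.vπ ^ (p + p) := by
      rw [hexp]
      refine P.valuation.map_sum_le fun f hf => ?_
      rw [map_mul, pow_add]
      exact mul_le_mul' ((hγ f hf).trans_eq hlp) ((val_sub_le_dist hf x).trans_eq hxp)
    rw [chi, hval _ hl, t.pow_le hP] at h1
    omega
  -- the pairing with the translates of `x` is linear
  have key : ∀ w, dist P S w ≤ t.vπ ^ p →
      kp hP (l w) * res P ((ζ - 1) / t.π ^ t.e1) =
        ∑ f ∈ S, res P (γ f / t.π) * t.lfun p 0 w f := by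
    intro w hw
    rw [← t.res_chi hP hζ, show ζ ^ (l w).val - 1 = chi ζ l w - 1 from rfl, hexp, Finset.sum_div]
    have e : ∀ f ∈ S, γ f * (f w - f 0) / t.π ^ t.e1 =
        γ f / t.π * ((f (0 + w) - f 0) / t.π ^ p) := fun f _ => by
      rw [zero_add, h.e1_eq, pow_succ', div_mul_div_comm]
    have hm1 : ∀ f ∈ S, γ f / t.π ∈ P := fun f hf => mem_of_val_le_one (by
      rw [map_div₀]
      exact div_le_one_of_le₀ ((hγ f hf).trans_eq hlx) zero_le)
    have hm2 : ∀ f ∈ S, (f (0 + w) - f 0) / t.π ^ p ∈ P := fun f hf =>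
      t.lfun_mem hP hS (Submodule.subset_span hf) hw
    rw [Finset.sum_congr rfl e, res_sum _ _ fun f hf => P.mul_mem _ _ (hm1 f hf) (hm2 f hf)]
    exact Finset.sum_congr rfl fun f hf => res_mul (hm1 f hf) (hm2 f hf)
  have h1 := key (actV r τ x) (by rw [hS.dist_act h.ine]; exact hxp.le)
  rw [Finset.sum_congr rfl fun f hf => by rw [t.lfun_act hP hS hf hxp.le h.ine, ← mul_assoc],
    ← Finset.sum_mul, ← key x hxp.le, mul_right_comm] at h1
  have h2 := mul_right_cancel₀ (t.val_res_chi hP hζ) h1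
  have hlk : kp hP (l x) ≠ 0 := fun e => hl ((kp hP).injective (e.trans (map_zero _).symm))
  refine h.th_pow_ne_kp hP hp3 (i := p) (fun hd => ?_) (l (actV r τ x) / l x) ?_
  · exact absurd (Nat.le_of_dvd hp.out.pos hd) (by omega)
  · rw [map_div₀, h2, mul_div_cancel_left₀ _ hlk]

end IsSS

end FLTAgent.FlatLocal
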