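import Fermat.Agent.FlatLocal.Points

/-!
# Two-dimensional representations of the decomposition group and their lifts to dual numbers
-/

set_option autoImplicit false
set_option linter.style.haveILetI false
set_option linter.unusedSectionVars false

noncomputable section

open scoped Pointwise Matrix
open IsLocalRing

namespace FLTAgent.FlatLocal

local notation "QQb" => AlgebraicClosure ℚ
local notation "GG" => (AlgebraicClosure ℚ ≃ₐ[ℚ] AlgebraicClosure ℚ)

variable {P : ValuationSubring (AlgebraicClosure ℚ)} {p : ℕ} [hp : Fact p.Prime]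

/-- Two by two matrices over the prime field. -/
abbrev Mat2 (p : ℕ) : Type := Matrix (Fin 2) (Fin 2) (ZMod p)

/-- The plane over the prime field. -/
abbrev Vec2 (p : ℕ) : Type := Fin 2 → ZMod p

/-- The action of a matrix representation on the plane. -/
def actV (r : Dec P →* Mat2 p) (σ : Dec P) : Module.End (ZMod p) (Vec2 p) := (r σ).mulVecLin

theorem actV_apply (r : Dec P →* Mat2 p) (σ : Dec P) (x : Vec2 p) : actV r σ x = r σ *ᵥ x := rfl

/-- The lift of a representation to dual numbers given by `c`. -/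
def actW (r : Dec P →* Mat2 p) (c : Dec P → Mat2 p) (σ : Dec P) : Module.End (ZMod p) (Vec2 p × Vec2 p) :=
  LinearMap.prod ((r σ).mulVecLin ∘ₗ LinearMap.fst _ _ _)
    ((r σ).mulVecLin ∘ₗ LinearMap.snd _ _ _ + (c σ * r σ).mulVecLin ∘ₗ LinearMap.fst _ _ _)

theorem actW_apply (r : Dec P →* Mat2 p) (c : Dec P → Mat2 p) (σ : Dec P) (x v : Vec2 p) :
    actW r c σ (x, v) = (r σ *ᵥ x, r σ *ᵥ v + c σ *ᵥ (r σ *ᵥ x)) := by
  simp [actW, Matrix.mulVec_mulVec]

/-- A traceless cocycle with values in the adjoint representation, constant on the cosets of an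
open subgroup. -/
structure IsCocycle (r : Dec P →* Mat2 p) (c : Dec P → Mat2 p) : Prop where
  lev : LevC P c
  trace : ∀ σ, (c σ).trace = 0
  mul : ∀ σ τ, c (σ * τ) = c σ + r σ * c τ * r σ⁻¹

/-- The coboundary of a matrix. -/
def coboundary (r : Dec P →* Mat2 p) (M : Mat2 p) (σ : Dec P) : (Mat2 p) := r σ * M * r σ⁻¹ - M

theorem mulVec_r_inv (r : Dec P →* Mat2 p) (σ : Dec P) : r σ * r σ⁻¹ = 1 := by
  rw [← map_mul, mul_inv_cancel, map_one]

theorem r_inv_mul (r : Dec P →* Mat2 p) (σ : Dec P) : r σ⁻¹ * r σ = 1 := by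
  rw [← map_mul, inv_mul_cancel, map_one]

namespace IsCocycle

variable {r : Dec P →* (Mat2 p)} {c c' : Dec P → (Mat2 p)}

theorem one (h : IsCocycle r c) : c 1 = 0 := by
  have h1 := h.mul 1 1
  rw [one_mul, inv_one, map_one, one_mul, mul_one] at h1
  exact left_eq_add.1 h1

theorem zero : IsCocycle r 0 :=
  ⟨LevC.of_const 0, fun _ => by simp, fun _ _ => by simp⟩

theorem add (h : IsCocycle r c) (h' : IsCocycle r c') : IsCocycle r (c + c') where
  lev := (h.lev.inter h'.lev).comp fun x => x.1 + x.2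
  trace σ := by simp [h.trace σ, h'.trace σ]
  mul σ τ := by
    simp only [Pi.add_apply, h.mul, h'.mul, mul_add, add_mul]
    abel

theorem smul (h : IsCocycle r c) (a : ZMod p) : IsCocycle r (a • c) where
  lev := h.lev.comp fun x => a • x
  trace σ := by simp [h.trace σ]
  mul σ τ := by simp [h.mul, smul_add, mul_smul_comm, smul_mul_assoc]

theorem sub (h : IsCocycle r c) (h' : IsCocycle r c') : IsCocycle r (c - c') := by
  rw [show c - c' = c + (-1 : ZMod p) • c' by rw [neg_one_smul, sub_eq_add_neg]]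
  exact h.add (h'.smul _)

/-- A cocycle vanishing on inertia and at Frobenius vanishes. -/
theorem eq_zero (hP : P.LiesOverPrime p) (h : IsCocycle r c) {φ : Dec P}
    (hφ : ∀ z : ResidueField P, φ • z = z ^ p) (hc : c φ = 0)
    (hI : ∀ σ, IsIne P σ → c σ = 0) : c = 0 := by
  obtain ⟨F, hF, hl⟩ := h.lev
  haveI := hF
  have hpow : ∀ k : ℕ, c (φ ^ k) = 0 := by
    intro k
    induction k with
    | zero => rw [pow_zero]; exact h.one
    | succ k ih => rw [pow_succ, h.mul, ih, hc, mul_zero, zero_mul, zero_add]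
  funext σ
  obtain ⟨k, ι, u, hι, hu, rfl⟩ := exists_decomp hP hφ F σ
  rw [hl _ _ hu, h.mul, hpow, hI ι hι, mul_zero, zero_mul, zero_add]
  rfl

end IsCocycle

theorem isCocycle_coboundary {r : Dec P →* (Mat2 p)} (hr : LevC P r) (M : Mat2 p) :
    IsCocycle r (coboundary r M) where
  lev := by
    obtain ⟨F, hF, hl⟩ := hr
    refine ⟨F, hF, fun g s hs => ?_⟩
    have h1 : r s = 1 := by
      have h2 := hl 1 s hs
      rwa [one_mul, map_one] at h2
    have h3 : r s⁻¹ = 1 := by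
      have h2 := r_inv_mul r s
      rwa [h1, mul_one] at h2
    simp [coboundary, mul_inv_rev, h1, h3]
  trace σ := by
    rw [coboundary, Matrix.trace_sub, Matrix.trace_mul_cycle, r_inv_mul, one_mul, sub_self]
  mul σ τ := by
    simp only [coboundary, map_mul, mul_inv_rev, mul_sub, sub_mul, mul_assoc]
    abel

theorem actW_comp {r : Dec P →* (Mat2 p)} {c : Dec P → (Mat2 p)} (hc : IsCocycle r c) (σ τ : Dec P)
    (x : (Vec2 p) × Vec2 p) : actW r c (σ * τ) x = actW r c σ (actW r c τ x) := by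
  obtain ⟨x, v⟩ := x
  rw [actW_apply, actW_apply, actW_apply, hc.mul, map_mul]
  refine Prod.ext ?_ ?_
  · show (r σ * r τ) *ᵥ x = r σ *ᵥ (r τ *ᵥ x)
    exact (Matrix.mulVec_mulVec _ _ _).symm
  show (r σ * r τ) *ᵥ v + (c σ + r σ * c τ * r σ⁻¹) *ᵥ ((r σ * r τ) *ᵥ x) =
    r σ *ᵥ (r τ *ᵥ v + c τ *ᵥ (r τ *ᵥ x)) + c σ *ᵥ (r σ *ᵥ (r τ *ᵥ x))
  simp only [Matrix.mulVec_add, Matrix.add_mulVec, Matrix.mulVec_mulVec, add_mul]
  have e : r σ * c τ * r σ⁻¹ * (r σ * r τ) = r σ * (c τ * r τ) := by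
    rw [mul_assoc, ← mul_assoc (r σ⁻¹), r_inv_mul, one_mul, mul_assoc]
  rw [e]
  abel

/-- The lift as a representation. -/
def actWHom {r : Dec P →* (Mat2 p)} {c : Dec P → (Mat2 p)} (hc : IsCocycle r c) :
    Dec P →* Module.End (ZMod p) (Vec2 p × Vec2 p) where
  toFun := actW r c
  map_one' := by
    refine LinearMap.ext fun ⟨x, v⟩ => ?_
    rw [actW_apply, hc.one, map_one]
    simp
  map_mul' σ τ := LinearMap.ext fun x => actW_comp hc σ τ x

/-- The representation as an action. -/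
def actVHom (r : Dec P →* Mat2 p) : Dec P →* Module.End (ZMod p) (Vec2 p) where
  toFun := actV r
  map_one' := LinearMap.ext fun x => by simp [actV_apply]
  map_mul' σ τ := LinearMap.ext fun x => by
    rw [Module.End.mul_apply, actV_apply, actV_apply, actV_apply, map_mul, Matrix.mulVec_mulVec]

theorem actVHom_eq (r : Dec P →* Mat2 p) : ⇑(actVHom r) = actV r := rfl

/-! ### The tame character and the cyclotomic character -/

theorem TameData.omega_res (t : TameData P p) (hP : P.LiesOverPrime p) {ζ : QQb}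
    (hζ : IsPrimitiveRoot ζ p) {σ : Dec P} (hσ : IsIne P σ) :
    kp hP (omega ζ σ) = t.th σ ^ t.e1 := by
  have hd0 : ζ - 1 ≠ 0 := sub_ne_zero.2 (hζ.ne_one hp.out.one_lt)
  have hπe : t.π ^ t.e1 ≠ 0 := pow_ne_zero _ t.π_ne_zero
  set x := (ζ - 1) / t.π ^ t.e1 with hx
  have hxv : P.valuation x = 1 := by
    rw [hx, map_div₀, map_pow, t.val_zeta_sub_one hP hζ, div_self (pow_ne_zero _ t.vπ_ne_zero)]
  have hx0 : x ≠ 0 := div_ne_zero hd0 hπe
  have hxP : x ∈ P := mem_of_val_le_one hxv.le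
  have hζP : ζ ∈ P := mem_of_val_le_one (val_root hp.out.ne_zero hζ.pow_eq_one).le
  have hres1 : res P ζ = 1 := by
    rw [← res_one (P := P), res_eq_iff hζP P.one_mem]
    exact Carayol.valuation_sub_one_lt hP hζ
  have hσπ : (σ : GG) (t.π ^ t.e1) ≠ 0 := (map_ne_zero_iff _ (σ : GG).injective).mpr hπe
  have e : (∑ j ∈ Finset.range (omega (p := p) ζ σ).val, ζ ^ j) * x =
      (σ : GG) x * ((σ : GG) t.π / t.π) ^ t.e1 := by
    rw [hx, map_div₀ (σ : GG), ← mul_div_assoc, geom_sum_mul, ← omega_spec hζ, div_pow,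
      ← map_pow (σ : GG) t.π t.e1, div_mul_div_cancel₀ hσπ, map_sub (σ : GG), map_one]
  have hq := div_map_mem σ t.π_ne_zero
  have hsum : (∑ j ∈ Finset.range (omega (p := p) ζ σ).val, ζ ^ j) ∈ P :=
    sum_mem fun j _ => pow_mem hζP j
  have h1 := congrArg (res P) e
  rw [res_mul hsum hxP, res_mul (map_mem σ hxP) (pow_mem hq _), hσ.res_map hxP, res_pow hq,
    res_sum _ _ fun j _ => pow_mem hζP j,
    Finset.sum_congr rfl fun j _ => show res P (ζ ^ j) = 1 by rw [res_pow hζP, hres1, one_pow]]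
    at h1
  simp only [Finset.sum_const, Finset.card_range, nsmul_eq_mul, mul_one] at h1
  rw [kp_eq_natCast]
  exact mul_left_cancel₀ (res_ne_zero hxv) (by rw [mul_comm, h1]; rfl)

/-- The residue of `(ζ ^ a - 1) / π ^ e1` is proportional to `a`. -/
theorem TameData.res_chi (t : TameData P p) (hP : P.LiesOverPrime p) {ζ : QQb}
    (hζ : IsPrimitiveRoot ζ p) (a : ZMod p) :
    res P ((ζ ^ a.val - 1) / t.π ^ t.e1) = kp hP a * res P ((ζ - 1) / t.π ^ t.e1) := by
  have hζP : ζ ∈ P := mem_of_val_le_one (val_root hp.out.ne_zero hζ.pow_eq_one).le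
  have hres1 : res P ζ = 1 := by
    rw [← res_one (P := P), res_eq_iff hζP P.one_mem]
    exact Carayol.valuation_sub_one_lt hP hζ
  have hx : (ζ - 1) / t.π ^ t.e1 ∈ P := mem_of_val_le_one (by
    rw [map_div₀, map_pow, t.val_zeta_sub_one hP hζ, div_self (pow_ne_zero _ t.vπ_ne_zero)])
  rw [← geom_sum_mul, mul_div_assoc, res_mul (sum_mem fun j _ => pow_mem hζP j) hx,
    res_sum _ _ fun j _ => pow_mem hζP j,
    Finset.sum_congr rfl fun j _ => show res P (ζ ^ j) = 1 by rw [res_pow hζP, hres1, one_pow],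
    kp_eq_natCast]
  simp

theorem TameData.val_res_chi (t : TameData P p) (hP : P.LiesOverPrime p) {ζ : QQb}
    (hζ : IsPrimitiveRoot ζ p) : res P ((ζ - 1) / t.π ^ t.e1) ≠ 0 :=
  res_ne_zero (by
    rw [map_div₀, map_pow, t.val_zeta_sub_one hP hζ, div_self (pow_ne_zero _ t.vπ_ne_zero)])

theorem TameData.th_pow_ine (t : TameData P p) (hP : P.LiesOverPrime p) {τ : Dec P}
    (hτ : IsIne P τ) (j : ℕ) : t.th (τ ^ j) = t.th τ ^ j := by
  induction j with
  | zero => rw [pow_zero, pow_zero]; exact thx_one_left t.π_ne_zero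
  | succ j ih =>
    show thx t.π (τ ^ (j + 1)) = _
    rw [pow_succ, thx_mul_ine t.π_ne_zero (hτ.pow j), pow_succ, ← ih]

/-- The powers of a tame generator exhaust inertia modulo `G`. -/
theorem TameData.ine_decomp (t : TameData P p) (hP : P.LiesOverPrime p) {τ : Dec P}
    (hτ : IsIne P τ) (hθ : IsPrimitiveRoot (t.th τ) t.e) {σ : Dec P} (hσ : IsIne P σ) :
    ∃ k : ℕ, ∃ g ∈ t.G, σ = τ ^ k * g := by
  haveI : NeZero t.e := ⟨t.e_pos.ne'⟩
  obtain ⟨k, -, hk⟩ := hθ.eq_pow_of_pow_eq_one (t.th_pow σ)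
  refine ⟨k, (τ ^ k)⁻¹ * σ, (t.th_eq_one_iff hP ((hτ.pow k).inv.mul hσ)).1 ?_, by group⟩
  have hpow := t.th_pow_ine hP hτ
  rw [th, thx_mul_ine t.π_ne_zero (hτ.pow k).inv, thx_inv_ine t.π_ne_zero (hτ.pow k)]
  show (t.th (τ ^ k))⁻¹ * t.th σ = 1
  rw [hpow, hk, inv_mul_cancel₀ (t.th_ne_zero σ)]

/-- The tame character of a Frobenius conjugate. -/
theorem TameData.th_frob_conj (t : TameData P p) (hP : P.LiesOverPrime p) {φ : Dec P}
    (hφ : ∀ z : ResidueField P, φ • z = z ^ p) {σ : Dec P} (hσ : IsIne P σ) :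
    t.th (φ * σ * φ⁻¹) = t.th σ ^ p := by
  have h1 : t.th φ * φ • t.th φ⁻¹ = 1 := by
    rw [th, th, ← thx_mul t.π_ne_zero, mul_inv_cancel, thx_one_left t.π_ne_zero]
  rw [th, thx_mul t.π_ne_zero, thx_mul t.π_ne_zero, mul_smul, hσ.smul_eq]
  show t.th φ * φ • t.th σ * φ • t.th φ⁻¹ = _
  rw [mul_right_comm, h1, one_mul, hφ]

/-- `g` times a power of `τ` is a power of `τ` times an element of `G`. -/
theorem TameData.frob_conj_decomp (t : TameData P p) (hP : P.LiesOverPrime p) {φ : Dec P}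
    (hφ : ∀ z : ResidueField P, φ • z = z ^ p) {τ : Dec P} (hτ : IsIne P τ) :
    ∃ g ∈ t.G, φ * τ * φ⁻¹ = τ ^ p * g := by
  refine ⟨(τ ^ p)⁻¹ * (φ * τ * φ⁻¹),
    (t.th_eq_one_iff hP ((hτ.pow p).inv.mul (hτ.conj φ))).1 ?_, by group⟩
  have hpow := t.th_pow_ine hP hτ
  rw [th, thx_mul_ine t.π_ne_zero (hτ.pow p).inv, thx_inv_ine t.π_ne_zero (hτ.pow p)]
  show (t.th (τ ^ p))⁻¹ * t.th (φ * τ * φ⁻¹) = 1
  rw [t.th_frob_conj hP hφ hτ, hpow, inv_mul_cancel₀ (pow_ne_zero _ (t.th_ne_zero τ))]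

/-- Roots of `x ^ p = a x` form a line over the prime field. -/
theorem exists_line_of_pow_eq (hP : P.LiesOverPrime p) (a : ResidueField P) :
    ∃ z₀ : ResidueField P, ∀ z : ResidueField P, z ^ p = a * z → ∃ i : ZMod p, z = kp hP i * z₀ := by
  by_cases hex : ∃ z : ResidueField P, z ≠ 0 ∧ z ^ p = a * z
  · obtain ⟨z₀, h0, hz₀⟩ := hex
    refine ⟨z₀, fun z hz => ?_⟩
    obtain ⟨i, hi⟩ := exists_kp_eq hP (z := z / z₀) (by
      rw [div_pow, hz, hz₀]
      have ha : a ≠ 0 := fun e => h0 ((pow_eq_zero_iff hp.out.ne_zero).1 (by rw [hz₀, e, zero_mul]))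
      rw [mul_div_mul_left _ _ ha])
    exact ⟨i, by rw [hi, div_mul_cancel₀ _ h0]⟩
  · push Not at hex
    exact ⟨0, fun z hz => ⟨0, by
      by_contra hne
      exact hex z (fun e => hne (by rw [e, mul_zero])) hz⟩⟩

end FLTAgent.FlatLocal
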